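import Fermat.Agent.Raising.Points

/-!
# Points reaching a component

On a chart some parameters of a point need not be small: `PolyPasses` allows this for polynomial
local maps.  `Reaches` also allows an invertible substitution of the coordinates of the block that
keeps the component; such points kill the prime of the component.
-/

noncomputable section

namespace Fermat.Agent.Raising

open IsLocalRing Fermat.Agent.LevelLowering

local notation "PS" => MvPowerSeries

variable {𝒪 : Type} [CommRing 𝒪] [IsDomain 𝒪] [IsDiscreteValuationRing 𝒪]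
  [IsAdicComplete (maximalIdeal 𝒪) 𝒪]

variable (𝒪) in
/-- Constants in the maximal ideal and the variables of weight one. -/
def lowIdeal {f : ℕ} (w : Fin f → ℕ) : Ideal (MvPolynomial (Fin f) 𝒪) :=
  Ideal.map MvPolynomial.C (maximalIdeal 𝒪) ⊔ Ideal.span (MvPolynomial.X '' {k | w k = 1})

omit [IsAdicComplete (maximalIdeal 𝒪) 𝒪] in
/-- Constants in the maximal ideal lie in the low ideal. -/
lemma C_mem_lowIdeal {f : ℕ} {w : Fin f → ℕ} {c : 𝒪} (hc : c ∈ maximalIdeal 𝒪) :
    MvPolynomial.C c ∈ lowIdeal 𝒪 w :=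
  Ideal.mem_sup_left (Ideal.mem_map_of_mem _ hc)

omit [IsAdicComplete (maximalIdeal 𝒪) 𝒪] in
/-- Variables of weight one lie in the low ideal. -/
lemma X_mem_lowIdeal {f : ℕ} {w : Fin f → ℕ} {k : Fin f} (hk : w k = 1) :
    (MvPolynomial.X k : MvPolynomial (Fin f) 𝒪) ∈ lowIdeal 𝒪 w :=
  Ideal.mem_sup_right (Ideal.subset_span ⟨k, hk, rfl⟩)

omit [IsAdicComplete (maximalIdeal 𝒪) 𝒪] in
/-- The low ideal lands in the first step of the filtration. -/
lemma coe_mem_wFil {f : ℕ} {w : Fin f → ℕ} {p : MvPolynomial (Fin f) 𝒪} (hp : p ∈ lowIdeal 𝒪 w) :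
    (p : PS (Fin f) 𝒪) ∈ wFil 𝒪 w 1 := by
  suffices h : lowIdeal 𝒪 w ≤ Ideal.comap MvPolynomial.coeToMvPowerSeries.ringHom (wFil 𝒪 w 1) from
    h hp
  refine sup_le ?_ (Ideal.span_le.mpr ?_)
  · rw [Ideal.map_le_iff_le_comap]
    intro c hc
    simpa [MvPowerSeries.c_eq_algebraMap] using algebraMap_mem_wFil 𝒪 w hc
  · rintro _ ⟨k, hk, rfl⟩
    simpa using X_mem_wFil 𝒪 w hk

omit [IsAdicComplete (maximalIdeal 𝒪) 𝒪] in
/-- With all weights one this is the condition of small value at zero. -/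
lemma mem_lowIdeal_of_coe_mem {f : ℕ} {p : MvPolynomial (Fin f) 𝒪}
    (hp : (p : PS (Fin f) 𝒪) ∈ maximalIdeal _) : p ∈ lowIdeal 𝒪 (fun _ => 1) := by
  rw [show p = (p - MvPolynomial.C (MvPolynomial.constantCoeff p)) +
    MvPolynomial.C (MvPolynomial.constantCoeff p) by ring]
  refine add_mem (Ideal.mem_sup_right ?_) (C_mem_lowIdeal ?_)
  · classical
    rw [MvPolynomial.mem_ideal_span_X_image]
    intro d hd
    rw [MvPolynomial.mem_support_iff] at hd
    by_contra h
    push Not at h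
    have hd0 : d = 0 := Finsupp.ext fun k => h k rfl
    subst hd0
    simp [MvPolynomial.constantCoeff_eq] at hd
  · rw [mem_maximalIdeal, mem_nonunits_iff] at hp ⊢
    rwa [MvPowerSeries.isUnit_iff_constantCoeff,
      ← MvPowerSeries.coeff_zero_eq_constantCoeff_apply, MvPolynomial.coeff_coe] at hp

variable {F : Type} [CommRing F] [IsLocalRing F] [Algebra 𝒪 F]
  [IsAdicComplete (maximalIdeal F) F]

/-- The tuple `p` is a value of the polynomial local map at parameters small by the weights. -/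
def LocalMap.PolyPasses {e : ℕ} (l : LocalMap 𝒪 e) (p : Fin e → F) : Prop :=
  ∃ (w : Fin l.f → ℕ) (P : Fin e → MvPolynomial (Fin l.f) 𝒪) (u : Fin l.f → F),
    (∀ c, (P c : PS (Fin l.f) 𝒪) = l.val c) ∧ (∀ c, P c ∈ lowIdeal 𝒪 w) ∧
      (∀ k, u k ∈ maximalIdeal F ^ w k) ∧ ∀ c, p c = MvPolynomial.aeval u (P c)

/-- An invertible substitution keeping the component takes `p` to a value of the local map. -/
def LocalMap.Reaches {e : ℕ} (l : LocalMap 𝒪 e) (p : Fin e → F) : Prop :=
  ∃ (τ τ' : Fin e → PS (Fin e) 𝒪) (hτ : ∀ c, τ c ∈ maximalIdeal _)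
    (_ : ∀ c, τ' c ∈ maximalIdeal _) (hp : ∀ c, p c ∈ maximalIdeal F),
    (∀ c, evalSeries τ hτ (τ' c) = MvPowerSeries.X c) ∧
      l.Passes (fun c => l.hom (τ' c)) ∧
      l.PolyPasses fun c => evalSeries p hp (τ c)

omit [IsDomain 𝒪] [IsDiscreteValuationRing 𝒪] [IsAdicComplete (maximalIdeal 𝒪) 𝒪] in
/-- On polynomials evaluation of series is evaluation of polynomials. -/
lemma evalSeries_coe {n : ℕ} (v : Fin n → F) (hv : ∀ i, v i ∈ maximalIdeal F)
    (q : MvPolynomial (Fin n) 𝒪) :
    evalSeries v hv (q : PS (Fin n) 𝒪) = MvPolynomial.aeval v q := by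
  induction q using MvPolynomial.induction_on with
  | C a => rw [MvPolynomial.coe_C, MvPowerSeries.c_eq_algebraMap, AlgHom.commutes,
      MvPolynomial.aeval_C]
  | add p q hp hq => rw [MvPolynomial.coe_add, map_add, map_add, hp, hq]
  | mul_X p i hp => rw [MvPolynomial.coe_mul, map_mul, map_mul, hp, MvPolynomial.coe_X,
      evalSeries_X, MvPolynomial.aeval_X]

/-- A small point through a polynomial local map reaches it. -/
lemma LocalMap.Passes.reaches {e : ℕ} {l : LocalMap 𝒪 e} {p : Fin e → F} (h : l.Passes p)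
    (P : Fin e → MvPolynomial (Fin l.f) 𝒪) (hP : ∀ c, (P c : PS (Fin l.f) 𝒪) = l.val c)
    (hp : ∀ c, p c ∈ maximalIdeal F) : l.Reaches p := by
  obtain ⟨u, hu, hval⟩ := h
  refine ⟨MvPowerSeries.X, MvPowerSeries.X, X_mem_maximalIdeal_series, X_mem_maximalIdeal_series,
    hp, fun c => evalSeries_X _ _ c, ⟨MvPowerSeries.X, X_mem_maximalIdeal_series, fun c => ?_⟩,
    fun _ => 1, P, u, hP, fun c => ?_, fun k => by simpa using hu k, fun c => ?_⟩
  · simp only [LocalMap.hom_X]
    rw [← hP, evalSeries_coe]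
    induction P c using MvPolynomial.induction_on with
    | C a => simp [MvPowerSeries.c_eq_algebraMap]
    | add p q hp hq => simp [hp, hq]
    | mul_X p i hp => simp [hp]
  · exact mem_lowIdeal_of_coe_mem (hP c ▸ l.val_mem c)
  · simp only [evalSeries_X]
    rw [hval c, ← hP, evalSeries_coe]

variable {m : ℕ} {e : Fin m → ℕ} {g : ℕ}

/-- Weighted points on a choice of polynomial local maps kill its prime. -/
theorem map_eq_zero_of_polyPasses (l : ∀ i, LocalMap 𝒪 (e i))
    (hloc : ∀ c ∈ maximalIdeal 𝒪, algebraMap 𝒪 F c ∈ maximalIdeal F)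
    (ψ : PS (Fin (nVars e g)) 𝒪 →ₐ[𝒪] F) (hψ : ∀ k, ψ (MvPowerSeries.X k) ∈ maximalIdeal F)
    (h : ∀ i, (l i).PolyPasses fun c => ψ (MvPowerSeries.X (varIdx (.inl ⟨i, c⟩))))
    {s : PS (Fin (nVars e g)) 𝒪} (hs : s ∈ compIdeal g l) : ψ s = 0 := by
  choose w P u hP hlow hu hval using h
  let W : Fin (freshN g l) → ℕ := blockTuple w fun _ => 1
  let v : Fin (freshN g l) → F :=
    blockTuple u fun j => ψ (MvPowerSeries.X (varIdx (e := e) (.inr j)))
  let Q : Fin (nVars e g) → MvPolynomial (Fin (freshN g l)) 𝒪 :=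
    blockTuple (fun i c => MvPolynomial.rename (fun k => varIdx (.inl ⟨i, k⟩)) (P i c))
      fun j => MvPolynomial.X (varIdx (e := fun i => (l i).f) (.inr j))
  have hv : ∀ k, v k ∈ maximalIdeal F ^ W k := fun k => by
    obtain ⟨⟨i, a⟩ | a, rfl⟩ := varIdx_cases k
    · simp only [v, W, blockTuple_inl]; exact hu i a
    · simp only [v, W, blockTuple_inr, pow_one]; exact hψ _
  have hQlow : ∀ k, Q k ∈ lowIdeal 𝒪 W := fun k => by
    obtain ⟨⟨i, c⟩ | a, rfl⟩ := varIdx_cases k
    · simp only [Q, blockTuple_inl]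
      suffices hle : lowIdeal 𝒪 (w i) ≤ Ideal.comap
          (MvPolynomial.rename fun k => varIdx (.inl ⟨i, k⟩)) (lowIdeal 𝒪 W) from hle (hlow i c)
      refine sup_le ?_ (Ideal.span_le.mpr ?_)
      · rw [Ideal.map_le_iff_le_comap]
        intro z hz
        simpa using C_mem_lowIdeal (w := W) hz
      · rintro _ ⟨a, ha, rfl⟩
        simpa using X_mem_lowIdeal (𝒪 := 𝒪) (w := W) (show W (varIdx (.inl ⟨i, a⟩)) = 1 by
          simp only [W, blockTuple_inl]; exact ha)
    · simp only [Q, blockTuple_inr]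
      exact X_mem_lowIdeal (by simp [W])
  have hQcoe : ∀ k, (Q k : PS (Fin (freshN g l)) 𝒪) = compVals g l k := fun k => by
    obtain ⟨⟨i, c⟩ | a, rfl⟩ := varIdx_cases k
    · simp only [Q, compVals, blockTuple_inl]
      rw [← hP i c]
      generalize P i c = q
      induction q using MvPolynomial.induction_on with
      | C z => simp [MvPowerSeries.c_eq_algebraMap]
      | add p q hp hq => simp [hp, hq]
      | mul_X p j hp => simp [hp]
    · simp [Q, compVals]
  have hQval : ∀ k, MvPolynomial.aeval v (Q k) = ψ (MvPowerSeries.X k) := fun k => by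
    obtain ⟨⟨i, c⟩ | a, rfl⟩ := varIdx_cases k
    · simp only [Q, blockTuple_inl, MvPolynomial.aeval_rename]
      exact (congrArg (fun x => MvPolynomial.aeval x (P i c))
        (show v ∘ (fun k => varIdx (.inl ⟨i, k⟩)) = u i from
          funext fun k => by simp [v])).trans (hval i c).symm
    · simp [Q, v]
  refine IsHausdorff.haus' (I := maximalIdeal F) _ fun K => ?_
  rw [SModEq.zero, smul_eq_mul, Ideal.mul_top]
  set p := MvPowerSeries.truncTotal K s
  have hlowmem : ∀ k, compMap g l (MvPowerSeries.X k) ∈ wFil 𝒪 W 1 := fun k => by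
    rw [compMap, evalSeries_X, ← hQcoe]
    exact coe_mem_wFil (hQlow k)
  have h1 := algHom_sub_aeval_mem (compMap g l) hlowmem s K
  rw [(RingHom.mem_ker).mp hs, zero_sub, neg_mem_iff] at h1
  have h2 : ((MvPolynomial.aeval Q p : MvPolynomial (Fin (freshN g l)) 𝒪) :
      PS (Fin (freshN g l)) 𝒪) =
        MvPolynomial.aeval (fun k => compMap g l (MvPowerSeries.X k)) p := by
    induction p using MvPolynomial.induction_on with
    | C a => simp [MvPowerSeries.c_eq_algebraMap]
    | add p q hp hq => simp [hp, hq]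
    | mul_X p i hp => simp [hp, hQcoe, compMap]
  have h3 := aeval_mem_of_coe_mem_wFil W hloc hv _ (h2 ▸ wFil_pow 𝒪 W K h1)
  rw [MvPolynomial.comp_aeval_apply, funext hQval] at h3
  have h4 := add_mem (algHom_sub_aeval_mem ψ hψ s K) h3
  rwa [show MvPowerSeries.truncTotal K s = p from rfl, sub_add_cancel] at h4

/-- **Points reaching a choice of components kill its prime.** -/
theorem map_eq_zero_of_reaches (l : ∀ i, LocalMap 𝒪 (e i))
    (hloc : ∀ c ∈ maximalIdeal 𝒪, algebraMap 𝒪 F c ∈ maximalIdeal F)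
    (ψ : PS (Fin (nVars e g)) 𝒪 →ₐ[𝒪] F) (hψ : ∀ k, ψ (MvPowerSeries.X k) ∈ maximalIdeal F)
    (h : ∀ i, (l i).Reaches fun c => ψ (MvPowerSeries.X (varIdx (.inl ⟨i, c⟩))))
    {s : PS (Fin (nVars e g)) 𝒪} (hs : s ∈ compIdeal g l) : ψ s = 0 := by
  choose τ τ' hτ hτ' hp hinv hkeep hpoly using h
  let subst (σ : ∀ i, Fin (e i) → PS (Fin (e i)) 𝒪) : Fin (nVars e g) → PS (Fin (nVars e g)) 𝒪 :=
    blockTuple (fun i c => blockEmb g i (σ i c))
      fun j => MvPowerSeries.X (varIdx (e := e) (.inr j))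
  have hsubst : ∀ σ : ∀ i, Fin (e i) → PS (Fin (e i)) 𝒪, (∀ i c, σ i c ∈ maximalIdeal _) →
      ∀ k, subst σ k ∈ maximalIdeal _ := fun σ hσ =>
    blockTuple_mem
      (fun i c => map_mem_maximalIdeal_series algebraMap_series_mem _
        (fun a => by rw [blockEmb, evalSeries_X]; exact X_mem_maximalIdeal_series _) (hσ i c))
      (fun _ => X_mem_maximalIdeal_series _)
  let T : PS (Fin (nVars e g)) 𝒪 →ₐ[𝒪] PS (Fin (nVars e g)) 𝒪 :=
    evalSeries (subst τ) (hsubst τ hτ)
  let T' : PS (Fin (nVars e g)) 𝒪 →ₐ[𝒪] PS (Fin (nVars e g)) 𝒪 :=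
    evalSeries (subst τ') (hsubst τ' hτ')
  have hTX : ∀ k, T (MvPowerSeries.X k) = subst τ k := evalSeries_X _ _
  have hT'X : ∀ k, T' (MvPowerSeries.X k) = subst τ' k := evalSeries_X _ _
  have hTmem : ∀ k, T (MvPowerSeries.X k) ∈ maximalIdeal _ := fun k => by
    rw [hTX]; exact hsubst τ hτ k
  have hT'mem : ∀ k, T' (MvPowerSeries.X k) ∈ maximalIdeal _ := fun k => by
    rw [hT'X]; exact hsubst τ' hτ' k
  have hblock : ∀ i, T.comp (blockEmb g i) = (blockEmb g i).comp (evalSeries (τ i) (hτ i)) :=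
    fun i => by
      refine algHom_ext_series (fun c => ?_) fun c => ?_
      · rw [AlgHom.comp_apply, blockEmb, evalSeries_X]; exact hTmem _
      · simp only [AlgHom.comp_apply, evalSeries_X]
        rw [blockEmb, evalSeries_X, hTX]
        simp [subst, blockEmb]
  have hTT' : T.comp T' = AlgHom.id 𝒪 _ := by
    refine algHom_ext_series (fun k => ?_) fun k => ?_
    · exact map_mem_maximalIdeal_series algebraMap_series_mem T hTmem (hT'mem k)
    · rw [AlgHom.comp_apply, hT'X, AlgHom.id_apply]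
      obtain ⟨⟨i, c⟩ | a, rfl⟩ := varIdx_cases k
      · simp only [subst, blockTuple_inl]
        rw [← AlgHom.comp_apply, hblock, AlgHom.comp_apply, hinv, blockEmb, evalSeries_X]
      · simp only [subst, blockTuple_inr, hTX]
  have hkeep' : compMap g l (T' s) = 0 := by
    choose u hu hval using hkeep
    have hcm : ∀ k, ((compMap g l).comp T') (MvPowerSeries.X k) ∈ maximalIdeal _ := fun k => by
      rw [AlgHom.comp_apply]
      exact map_mem_maximalIdeal_series algebraMap_series_mem (compMap g l)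
        (fun a => by rw [compMap, evalSeries_X]; exact compVals_mem g l a) (hT'mem k)
    have hl : ∀ z ∈ maximalIdeal 𝒪,
        algebraMap 𝒪 (PS (Fin (freshN g l)) 𝒪) z ∈ maximalIdeal _ :=
      algebraMap_series_mem (n := freshN g l)
    have hE : ∀ i b, freshEmb g l i (MvPowerSeries.X b) ∈
        maximalIdeal (PS (Fin (freshN g l)) 𝒪) := fun i b => by
      rw [freshEmb_X]; exact X_mem_maximalIdeal_series _
    have hfm : ∀ (i : Fin m) (a : Fin (l i).f),
        freshEmb g l i (u i a) ∈ maximalIdeal (PS (Fin (freshN g l)) 𝒪) := fun i a =>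
      map_mem_maximalIdeal_series hl (freshEmb g l i) (hE i) (hu i a)
    rw [← AlgHom.comp_apply]
    refine map_eq_zero_of_block_params (l := l) g algebraMap_series_mem ((compMap g l).comp T') hcm
      (fun i a => freshEmb g l i (u i a)) hfm (fun i c => ?_) hs
    rw [AlgHom.comp_apply, hT'X]
    simp only [subst, blockTuple_inl, compMap_blockEmb]
    rw [show (l i).hom (τ' i c) = evalSeries (u i) (hu i) ((l i).val c) from hval i c]
    exact AlgHom.congr_fun (evalSeries_comp (T := PS (Fin (freshN g l)) 𝒪) hl (u i) (hu i)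
      (freshEmb g l i) (hE i) (fun a => freshEmb g l i (u i a)) (hfm i) fun a => rfl) _
  have hTs : ψ s = (ψ.comp T) (T' s) := by
    rw [AlgHom.comp_apply, ← AlgHom.comp_apply T, hTT', AlgHom.id_apply]
  rw [hTs]
  refine map_eq_zero_of_polyPasses l hloc (ψ.comp T)
    (fun k => map_mem_maximalIdeal_series hloc ψ hψ (hTmem k)) (fun i => ?_) hkeep'
  have hψblock : ψ.comp (blockEmb g i) = evalSeries _ (hp i) :=
    evalSeries_comp hloc _ _ ψ hψ _ (hp i) fun c => rfl
  convert hpoly i using 1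
  funext c
  rw [AlgHom.comp_apply, hTX, ← hψblock, AlgHom.comp_apply]
  simp [subst]

end Fermat.Agent.Raising
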