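import Fermat.Agent.LevelLowering.Scalar.Gens
import Fermat.Agent.Raising.Reach

/-!
# The local data at a raised prime

`RaisedPrime` is a prime where the residual representation is unramified with Frobenius
eigenvalues `ε` and `ε q`.  A `LocalKind` gives a block, coordinates of a lift `(Φ, N)` of Frobenius
and monodromy, the classification of the unipotent points by components, the matrix of the two
degeneracy maps and the vanishing of classes killing the coordinates.
-/

noncomputable section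

namespace Fermat.Agent.Raising

open IsLocalRing Matrix Module Fermat.Agent.LevelLowering Fermat.Agent.Gal Fermat.Agent.TW
  Fermat.Agent.PT

local notation "Qbar" => AlgebraicClosure ℚ

variable {𝒪 : Type} [CommRing 𝒪] [IsDomain 𝒪] [IsDiscreteValuationRing 𝒪]
  [IsAdicComplete (maximalIdeal 𝒪) 𝒪] {p : ℕ} [Fact p.Prime]

/-- A prime that is going to be raised. -/
structure RaisedPrime (p : ℕ) (ρbar : ResidualGaloisRep (ResidueField 𝒪))
    (bbar : Basis (Fin 2) (ResidueField 𝒪) ρbar.V) : Type where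
  /-- The prime. -/
  q : ℕ
  prime : q.Prime
  ne_p : q ≠ p
  /-- A place above it. -/
  A : ValuationSubring Qbar
  /-- A Frobenius element at the place. -/
  φ : AG
  /-- A generator of tame inertia at the place. -/
  σ : AG
  lies : A.LiesOverPrime q
  frob : A.IsFrobeniusAt φ q
  tame : MazurPrinciple.IsTameGenerator p A σ
  inertia : ∀ τ ∈ A.inertiaSubgroupIn ℚ, rbar bbar τ = 1
  /-- The sign: the residual eigenvalues of Frobenius are `ε` and `ε q`. -/
  ε : 𝒪
  sign : ε * ε = 1
  trace_frob : (rbar bbar φ).trace = residue 𝒪 (ε * (q + 1))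
  det_frob : (rbar bbar φ).det = residue 𝒪 (q : 𝒪)

variable {ρbar : ResidualGaloisRep (ResidueField 𝒪)} {bbar : Basis (Fin 2) (ResidueField 𝒪) ρbar.V}

instance RaisedPrime.fact_prime (P : RaisedPrime p ρbar bbar) : Fact P.q.Prime := ⟨P.prime⟩

/-- A lift of Frobenius and monodromy at a raised prime. -/
structure RaisedPrime.IsLift (P : RaisedPrime p ρbar bbar) {T : Type} [CommRing T] [IsLocalRing T]
    [Algebra 𝒪 T] (Φ N : Matrix (Fin 2) (Fin 2) T) : Prop where
  loc : ∀ c ∈ maximalIdeal 𝒪, algebraMap 𝒪 T c ∈ maximalIdeal T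
  frob : ∀ i j a, residue 𝒪 a = rbar bbar P.φ i j → Φ i j - algebraMap 𝒪 T a ∈ maximalIdeal T
  mono : ∀ i j, N i j ∈ maximalIdeal T
  det : Φ.det = (P.q : T)

/-- The local data at a raised prime. -/
structure LocalKind (P : RaisedPrime p ρbar bbar) : Type 1 where
  /-- The number of coordinates. -/
  e : ℕ
  /-- The block of components. -/
  B : Block 𝒪 e
  w_le : B.w ≤ finrank (ResidueField 𝒪)
    (Representation.invariants (resRep (adRep (rbar bbar)) (decQ P.q)))
  /-- The coordinates of a lift `(Φ, N)` of Frobenius and monodromy. -/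
  coord : ∀ (T : Type) [CommRing T] [IsLocalRing T] [Algebra 𝒪 T]
    [IsAdicComplete (maximalIdeal T) T],
    Matrix (Fin 2) (Fin 2) T → Matrix (Fin 2) (Fin 2) T → Fin e → T
  coord_mem : ∀ (T : Type) [CommRing T] [IsLocalRing T] [Algebra 𝒪 T]
    [IsAdicComplete (maximalIdeal T) T] {Φ N : Matrix (Fin 2) (Fin 2) T},
    P.IsLift Φ N → ∀ c, coord T Φ N c ∈ maximalIdeal T
  coord_map : ∀ (T T' : Type) [CommRing T] [IsLocalRing T] [Algebra 𝒪 T]
    [IsAdicComplete (maximalIdeal T) T] [CommRing T'] [IsLocalRing T'] [Algebra 𝒪 T']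
    [IsAdicComplete (maximalIdeal T') T'] (f : T →ₐ[𝒪] T'),
    (∀ x ∈ maximalIdeal T, f x ∈ maximalIdeal T') → ∀ {Φ N : Matrix (Fin 2) (Fin 2) T},
      P.IsLift Φ N → ∀ c, f (coord T Φ N c) = coord T' (Φ.map f) (N.map f) c
  /-- At a unipotent point some component is reached; the unramified one without monodromy, the
  one of the curve or another Steinberg one by the trace. -/
  reach : ∀ (F : Type) [CommRing F] [IsDomain F] [ValuationRing F] [CharZero F] [Algebra 𝒪 F]
    [IsAdicComplete (maximalIdeal F) F] {Φ N : Matrix (Fin 2) (Fin 2) F},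
    P.IsLift Φ N → N * N = 0 → Φ * N = (P.q : F) • (N * Φ) →
      (∃ k, (B.comp k).Reaches (coord F Φ N)) ∧
      (N = 0 → (B.comp B.ur).Reaches (coord F Φ N)) ∧
      (Φ.trace = algebraMap 𝒪 F P.ε * ((P.q : F) + 1) → (B.comp B.st).Reaches (coord F Φ N)) ∧
      (Φ.trace = -(algebraMap 𝒪 F P.ε * ((P.q : F) + 1)) →
        ∃ k, k ≠ B.ur ∧ (B.comp k).Reaches (coord F Φ N))
  /-- The matrix `[[q + 1, tr Φ], [tr Φ, q + 1]]`. -/
  G : Fin 2 → Fin 2 → MvPowerSeries (Fin e) 𝒪
  G_det : B.pt.hom (G 0 0 * G 1 1 - G 0 1 * G 1 0) = 0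
  G_val : ∀ (T : Type) [CommRing T] [IsLocalRing T] [Algebra 𝒪 T]
    [IsAdicComplete (maximalIdeal T) T] {Φ N : Matrix (Fin 2) (Fin 2) T} (h : P.IsLift Φ N) a b,
    evalSeries (coord T Φ N) (coord_mem T h) (G a b) =
      !![(P.q : T) + 1, Φ.trace; Φ.trace, (P.q : T) + 1] a b
  tangent_zero : ∀ (T : Type) [CommRing T] [IsLocalRing T] [IsNoetherianRing T] [Algebra 𝒪 T]
    [IsAdicComplete (maximalIdeal T) T] [IsLocalHom (algebraMap 𝒪 T)]
    (hres : Function.Surjective (residue T ∘ algebraMap 𝒪 T)) (ρ : GaloisRepAdic T)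
    (b : Basis (Fin 2) T ρ.V) (hb : Adapted bbar hres ρ b) (hdet : ρ.DetIsCyclotomic p)
    (δ : tangent hres),
    (∀ c, (δ : T → ResidueField 𝒪)
      (coord T (matrixRep b ρ.ρ P.φ) (matrixRep b ρ.ρ P.σ - 1) c) = 0) →
    tanCocycle hb hdet δ ∈ locB1 (adRep (rbar bbar)) (decQ P.q)

end Fermat.Agent.Raising
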