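import Fermat.Agent.Raising.Diamonds
import Fermat.Agent.Raising.LocalKind

/-!
# The inputs of the raising theorem

`OpLevel` is one level: commuting operators in coordinates over a ring of diamonds, with the
eigensystems detecting them and their Galois representations.  `RaiseInputs` is what the levels
raised at the first `0, …, m` primes provide at one choice of Taylor–Wiles primes: their reduction
to the levels without auxiliary primes, the two degeneracy maps, saturation by the new
eigensystems and the local behaviour of the eigensystems.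
-/

noncomputable section

namespace Fermat.Agent.Raising

open IsLocalRing Polynomial Fermat.Agent.LevelLowering Fermat.Agent.Gal Fermat.Agent.TW

local notation "Qbar" => AlgebraicClosure ℚ
local notation "GQ" => (AlgebraicClosure ℚ ≃ₐ[ℚ] AlgebraicClosure ℚ)

variable {O : Type} [CommRing O] [IsDomain O] [IsDiscreteValuationRing O]
  [IsAdicComplete (maximalIdeal O) O] [Finite (ResidueField O)]

variable (O) in
/-- Commuting operators of one level in `d` coordinates over `B`, with their eigensystems. -/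
structure OpLevel (S : Finset ℕ) (c₀ : ℕ → O) (B : Type) [CommRing B] [Algebra O B] (d : ℕ) :
    Type 1 where
  /-- The algebra of the operators. -/
  A : Type
  [instCommRingA : CommRing A]
  [instAlgebraA : Algebra O A]
  /-- Its action in coordinates. -/
  Φ : A →ₐ[O] Matrix (Fin d) (Fin d) B
  /-- The operator at each prime. -/
  x : ℕ → A
  /-- The index type of the eigensystems, which is finite. -/
  κ : Type
  [instFintype : Fintype κ]
  /-- The ring of values of each eigensystem. -/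
  F : κ → Type
  [instCommRing : ∀ a, CommRing (F a)]
  [instDomain : ∀ a, IsDomain (F a)]
  [instDVR : ∀ a, IsDiscreteValuationRing (F a)]
  [instComplete : ∀ a, IsAdicComplete (maximalIdeal (F a)) (F a)]
  [instResidue : ∀ a, Finite (ResidueField (F a))]
  [instChar : ∀ a, CharZero (F a)]
  [instAlgebra : ∀ a, Algebra O (F a)]
  [instFinite : ∀ a, Module.Finite O (F a)]
  [instLocalHom : ∀ a, IsLocalHom (algebraMap O (F a))]
  /-- The eigensystems, which detect the action. -/
  ev : ∀ a, A →ₐ[O] F a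
  ker_iff : ∀ z, Φ z = 0 ↔ ∀ a, ev a z = 0
  residual : ∀ a, ∀ ℓ : ℕ, ℓ.Prime → ℓ ∉ S →
    ev a (x ℓ) - algebraMap O (F a) (c₀ ℓ) ∈ maximalIdeal (F a)
  /-- The Galois representation of each eigensystem. -/
  ρ : ∀ a, GaloisRepAdic (F a)
  frob : ∀ a, ∀ ℓ : ℕ, ℓ.Prime → ℓ ∉ S → ∀ P : ValuationSubring Qbar, P.LiesOverPrime ℓ →
    ∀ σ : GQ, P.IsFrobeniusAt σ ℓ →
      LinearMap.charpoly ((ρ a).ρ σ) = X ^ 2 - C (ev a (x ℓ)) * X + C (ℓ : F a)

attribute [instance] OpLevel.instCommRingA OpLevel.instAlgebraA OpLevel.instFintype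
  OpLevel.instCommRing OpLevel.instDomain OpLevel.instDVR OpLevel.instComplete
  OpLevel.instResidue OpLevel.instChar OpLevel.instAlgebra OpLevel.instFinite OpLevel.instLocalHom

variable {p : ℕ} {ρbar : ResidualGaloisRep (ResidueField O)}
  {bbar : Module.Basis (Fin 2) (ResidueField O) ρbar.V} {m D : ℕ}

/-- The primes at which the level raised at the first `j` primes may ramify, besides `p`. -/
def ramSet (P : Fin m → RaisedPrime p ρbar bbar) (Smin : Finset ℕ) (j : ℕ) : Finset ℕ :=
  Smin ∪ (Finset.univ.filter fun i : Fin m => (i : ℕ) < j).image fun i => (P i).q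

/-- The ring of diamonds at the auxiliary primes. -/
abbrev DiaCoords (O : Type) [CommRing O] (p : ℕ) {D : ℕ} (lv : Fin D → ℕ) : Type :=
  MvPowerSeries (Fin D) O ⧸ diamondIdeal (𝒪 := O) p lv

variable (K : Type) [Field K] [Algebra O K] in
/-- The levels over one choice of auxiliary primes `qv`, the level `j` being raised at the
first `j` primes; `d j` and `Tm j` are the ranks and the operators without auxiliary primes. -/
structure RaiseInputs (P : Fin m → RaisedPrime p ρbar bbar) (Smin : Finset ℕ) (c₀ : ℕ → O)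
    (d : ℕ → ℕ) (Tm : ∀ j, ℕ → Matrix (Fin (d j)) (Fin (d j)) O) (S₀ : Finset ℕ)
    (qv : Fin D → ℕ) (lv : Fin D → ℕ) : Type 1 where
  /-- The finite set of primes left out. -/
  S : Finset ℕ
  subset : S₀ ⊆ S
  /-- The level raised at the first `j` primes. -/
  L : ∀ j : ℕ, OpLevel O S c₀ (DiaCoords O p lv) (d j)
  aug_x : ∀ j : ℕ, ∀ ℓ : ℕ, ℓ.Prime → ℓ ∉ S →
    ((L j).Φ ((L j).x ℓ)).map
      (Ideal.Quotient.lift _ MvPowerSeries.constantCoeff (diamondIdeal_aug p lv)) = Tm j ℓ
  /-- The first degeneracy map from level `j` to level `j + 1`. -/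
  upA : ∀ j : Fin m, Matrix (Fin (d (j + 1))) (Fin (d j)) (DiaCoords O p lv)
  /-- The second degeneracy map from level `j` to level `j + 1`. -/
  upB : ∀ j : Fin m, Matrix (Fin (d (j + 1))) (Fin (d j)) (DiaCoords O p lv)
  /-- The transfer of the first degeneracy map. -/
  downA : ∀ j : Fin m, Matrix (Fin (d j)) (Fin (d (j + 1))) (DiaCoords O p lv)
  /-- The transfer of the second degeneracy map. -/
  downB : ∀ j : Fin m, Matrix (Fin (d j)) (Fin (d (j + 1))) (DiaCoords O p lv)
  up_comm : ∀ j : Fin m, ∀ ℓ : ℕ, ℓ.Prime → ℓ ∉ S →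
    upA j * (L j).Φ ((L j).x ℓ) = (L (j + 1)).Φ ((L (j + 1)).x ℓ) * upA j ∧
      upB j * (L j).Φ ((L j).x ℓ) = (L (j + 1)).Φ ((L (j + 1)).x ℓ) * upB j
  down_comm : ∀ j : Fin m, ∀ ℓ : ℕ, ℓ.Prime → ℓ ∉ S →
    downA j * (L (j + 1)).Φ ((L (j + 1)).x ℓ) = (L j).Φ ((L j).x ℓ) * downA j ∧
      downB j * (L (j + 1)).Φ ((L (j + 1)).x ℓ) = (L j).Φ ((L j).x ℓ) * downB j
  up_inv : ∀ j : Fin m, ∃ X : Matrix (Fin (d j) ⊕ Fin (d j)) (Fin (d (j + 1))) (DiaCoords O p lv),
    X * Matrix.fromCols (upA j) (upB j) = 1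
  down_inv : ∀ j : Fin m, ∃ X : Matrix (Fin (d (j + 1))) (Fin (d j) ⊕ Fin (d j)) (DiaCoords O p lv),
    Matrix.fromRows (downA j) (downB j) * X = 1
  /-- The operator at the prime raised next. -/
  tq : ∀ j : Fin m, (L j).A
  tq_ev : ∀ (j : Fin m) (a : (L j).κ),
    (L j).ev a (tq j) =
      LinearMap.trace _ _ (((L j).ρ a).ρ (P j).φ)
  down_up : ∀ j : Fin m,
    downA j * upA j = ((P j).q + 1 : DiaCoords O p lv) • (1 : Matrix (Fin (d j)) (Fin (d j)) _) ∧
    downA j * upB j = (L j).Φ (tq j) ∧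
    downB j * upA j = (L j).Φ (tq j) ∧
    downB j * upB j = ((P j).q + 1 : DiaCoords O p lv) • (1 : Matrix (Fin (d j)) (Fin (d j)) _)
  /-- An operator killed by the eigensystems with trace `± (q + 1)` at the prime just raised comes
  from the level below. -/
  saturated : ∀ (j : Fin m) (z : (L (j + 1)).A),
    (∀ a : (L (j + 1)).κ,
      (LinearMap.trace _ _ (((L (j + 1)).ρ a).ρ (P j).φ) =
          algebraMap O ((L (j + 1)).F a) ((P j).ε) * (((P j).q : (L (j + 1)).F a) + 1) ∨
        LinearMap.trace _ _ (((L (j + 1)).ρ a).ρ (P j).φ) =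
          -(algebraMap O ((L (j + 1)).F a) ((P j).ε) * (((P j).q : (L (j + 1)).F a) + 1))) →
      (L (j + 1)).ev a z = 0) →
    ∃ XA XB : Matrix (Fin (d j)) (Fin (d (j + 1))) (DiaCoords O p lv),
      (L (j + 1)).Φ z = upA j * XA + upB j * XB
  unramified : ∀ (j : ℕ) (a : (L j).κ), ∀ l : ℕ, l.Prime →
    l ∉ insert p (ramSet P Smin j ∪ Finset.univ.image qv) → ((L j).ρ a).IsUnramifiedAt l
  unipotent : ∀ (j : ℕ) (a : (L j).κ), ∀ l ∈ ramSet P Smin j, l.Prime → l ≠ p →
    ((L j).ρ a).IsUnipotentOnInertiaAt l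
  /-- An eigencharacter at a character of the diamonds has the kernel of an eigensystem, unipotent
  at the auxiliary primes where the character is trivial, not at the one supporting it. -/
  tw_point : ∀ (j : ℕ) (φ : DiaCoords O p lv →ₐ[O] K) (e : (L j).A →+* K),
    (∃ w : Fin (d j) → K, w ≠ 0 ∧ ∀ z, (((L j).Φ z).map φ).mulVec w = e z • w) →
    ∃ a : (L j).κ, (∀ z, e z = 0 ↔ (L j).ev a z = 0) ∧
      (∀ i, φ (diaX O p lv i) = 0 → ((L j).ρ a).IsUnipotentOnInertiaAt (qv i)) ∧
      ∀ i, (∀ i', i' ≠ i → φ (diaX O p lv i') = 0) →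
        IsPrimitiveRoot (1 + φ (diaX O p lv i)) p → ¬ ((L j).ρ a).IsUnipotentOnInertiaAt (qv i)

end Fermat.Agent.Raising
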