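import Fermat.Agent.Raising.OrdClosure

/-!
# Ordinary and strictly ordinary families of points

A representation over a complete noetherian local ring with finitely many jointly injective points
is strictly ordinary at `p` when all the points are.  When the points are ordinary there is an
ordinary basis over the ring, and the scalar of an element of the decomposition group on the
unramified quotient maps to that at every point.
-/

noncomputable section

namespace Fermat.Agent.Raising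

open IsLocalRing Matrix Module Fermat.Agent.Gal Fermat.Agent.TW OrdPoints

local notation "Qbar" => AlgebraicClosure ℚ

variable {T : Type} [CommRing T] [IsLocalRing T] [IsNoetherianRing T]
  [IsAdicComplete (maximalIdeal T) T] [Finite (ResidueField T)] {ρ : GaloisRepAdic T}
  {ι : Type} {F : ι → Type} [∀ a, CommRing (F a)] [∀ a, IsLocalRing (F a)]
  [∀ a, IsNoetherianRing (F a)] {ψ : ∀ a, T →+* F a} {hψ : ∀ a, IsLocalHom (ψ a)}
  {ρpt : ∀ a, GaloisRepAdic (F a)} {p : ℕ} [hp : Fact p.Prime]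
  (hinj : ∀ x, (∀ a, ψ a x = 0) → x = 0)
  (he : ∀ a, (ρ.baseChangeAlong (ψ a) (hψ a)).IsEquiv (ρpt a))
  (hp2 : p ≠ 2) (hdet : ρ.DetIsCyclotomic p)

include hinj he hp2 hdet

/-- **Strictly ordinary points give a strictly ordinary representation.** -/
theorem isStrictOrdinaryAt_of_finite_points (h : ∀ a, (ρpt a).IsStrictOrdinaryAt p) :
    ρ.IsStrictOrdinaryAt p :=
  isStrictOrdinaryAt_of_points (hψ := hψ) (separating_of_finite hψ hinj) hp.out hp2 hdet
    fun a => isStrictOrdinaryAt_congr (he a) (h a)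

/-- **Ordinary points give an ordinary basis**, and the scalar on the unramified quotient of an
element of the decomposition group is found at every point. -/
theorem exists_ordinaryBasis_of_points {A : ValuationSubring Qbar} (hA : A.LiesOverPrime p)
    (h : ∀ a, ∃ b : Basis (Fin 2) (F a) (ρpt a).V,
      (∀ σ ∈ A.decompositionSubgroup ℚ, ∀ v ∈ F a ∙ b 0, (ρpt a).ρ σ v ∈ F a ∙ b 0) ∧
      ∀ σ ∈ A.inertiaSubgroupIn ℚ, ∀ v, (ρpt a).ρ σ v - v ∈ F a ∙ b 0) :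
    ∃ b : Basis (Fin 2) T ρ.V,
      (∀ σ ∈ A.decompositionSubgroup ℚ, ∀ v ∈ T ∙ b 0, ρ.ρ σ v ∈ T ∙ b 0) ∧
      (∀ σ ∈ A.inertiaSubgroupIn ℚ, ∀ v, ρ.ρ σ v - v ∈ T ∙ b 0) ∧
      ∀ σ ∈ A.decompositionSubgroup ℚ, ∃ α : T, (∀ v, ρ.ρ σ v - α • v ∈ T ∙ b 0) ∧
        ∀ a (b' : Basis (Fin 2) (F a) (ρpt a).V),
          (∀ τ ∈ A.decompositionSubgroup ℚ, ∀ v ∈ F a ∙ b' 0, (ρpt a).ρ τ v ∈ F a ∙ b' 0) →
          (∀ τ ∈ A.inertiaSubgroupIn ℚ, ∀ v, (ρpt a).ρ τ v - v ∈ F a ∙ b' 0) →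
          ∀ α' : F a, (∀ v, (ρpt a).ρ σ v - α' • v ∈ F a ∙ b' 0) → ψ a α = α' := by
  classical
  let b₀ := basisTwo ρ.finrank_eq
  choose bc hbc using fun a => exists_basis_adicBaseChange (ψ a) (hψ a) ρ b₀
  let e := fun a => (he a).some
  have hmat : ∀ (a : ι) (b' : Basis (Fin 2) (F a) (ρpt a).V), ∃ R R' : M2 (F a),
      R * R' = 1 ∧ R' * R = 1 ∧ ∀ σ, R' * (matrixRep b₀ ρ.ρ σ).map (ψ a) * R =
        LinearMap.toMatrix b' b' ((ρpt a).ρ σ) := fun a b' => by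
    refine ⟨(bc a).toMatrix (b'.map (e a).toLinearEquiv.symm),
      (b'.map (e a).toLinearEquiv.symm).toMatrix (bc a), Basis.toMatrix_mul_toMatrix_flip _ _,
      Basis.toMatrix_mul_toMatrix_flip _ _, fun σ => ?_⟩
    rw [← hbc a σ]
    refine (basis_toMatrix_mul_linearMap_toMatrix_mul_basis_toMatrix _ (bc a) _ (bc a)
      ((ρ.baseChangeAlong (ψ a) (hψ a)).ρ σ)).trans ?_
    ext i j
    rw [LinearMap.toMatrix_apply, LinearMap.toMatrix_apply, Basis.map_apply, Basis.map_repr]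
    simp [(e a).map_apply]
  choose b hbD hbI using h
  choose Q Q' hQQ' hQ'Q hQ using fun a => hmat a (b a)
  obtain ⟨σ₀, hσ₀, hu⟩ := exists_inertia_det_sub_one hp.out hp2 hdet hA
  rw [← LinearMap.det_toMatrix b₀] at hu
  have hI1 : ∀ (a : ι) (b' : Basis (Fin 2) (F a) (ρpt a).V),
      (∀ τ ∈ A.inertiaSubgroupIn ℚ, ∀ v, (ρpt a).ρ τ v - v ∈ F a ∙ b' 0) →
      ∀ τ ∈ A.inertiaSubgroupIn ℚ, LinearMap.toMatrix b' b' ((ρpt a).ρ τ) 1 1 = 1 :=
    fun a b' hb' τ hτ => toMatrix_one_one_eq b' fun v => by rw [one_smul]; exact hb' τ hτ v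
  obtain ⟨P, P', hPP', -, hPD, hPI, hval⟩ := exists_frame_of_points (separating_of_finite hψ hinj)
    (matrixRep b₀ ρ.ρ) σ₀ hσ₀ hu Q Q' hQQ' hQ'Q
    (fun a σ hσ => by rw [hQ]; exact (toMatrix_one_zero_iff _ _).2 (hbD a σ hσ))
    fun a σ hσ => by rw [hQ]; exact hI1 a _ (hbI a) σ hσ
  obtain ⟨bL, hbL⟩ := exists_basis_of_frame b₀ hPP'
  have hM : ∀ σ, LinearMap.toMatrix bL bL (ρ.ρ σ) = P' * matrixRep b₀ ρ.ρ σ * P := fun σ => hbL _
  have hupper : ∀ σ ∈ A.decompositionSubgroup ℚ, LinearMap.toMatrix bL bL (ρ.ρ σ) 1 0 = 0 :=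
    fun σ hσ => by rw [hM]; exact hPD σ hσ
  refine ⟨bL, fun σ hσ => (toMatrix_one_zero_iff bL _).1 (hupper σ hσ), fun σ hσ v => ?_,
    fun σ hσ => ⟨_, sub_smul_mem bL (hupper σ hσ), fun a b' hD' hI' α' hα' => ?_⟩⟩
  · have h := sub_smul_mem bL (hupper σ (TwoComponent.Ordinary.inertia_le_decomposition A hσ)) v
    rwa [hM, hPI σ hσ, one_smul] at h
  · obtain ⟨R, R', h1, h2, hR⟩ := hmat a b'
    have e10 : ∀ τ ∈ A.decompositionSubgroup ℚ,
        (R' * (matrixRep b₀ ρ.ρ τ).map (ψ a) * R) 1 0 = 0 := fun τ hτ => by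
      rw [hR]; exact (toMatrix_one_zero_iff b' _).2 (hD' τ hτ)
    have e11 : (R' * (matrixRep b₀ ρ.ρ σ₀).map (ψ a) * R) 1 1 = 1 := by
      rw [hR]; exact hI1 a b' hI' σ₀ hσ₀
    obtain ⟨-, e1⟩ := hval a R R' h1 h2
      (e10 σ₀ (TwoComponent.Ordinary.inertia_le_decomposition A hσ₀)) e11 σ
      (e10 σ hσ)
    rw [hM, e1, hR]
    exact toMatrix_one_one_eq b' hα'

end Fermat.Agent.Raising
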