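import Fermat.Agent.LevelLowering.FreeKer
import Fermat.Agent.LevelLowering.Scalar.Level
import Fermat.Agent.LevelLowering.Scalar.Line
import Fermat.Agent.LevelLowering.Scalar.PointsGlue
import Fermat.Agent.TW.Tame

/-!
# Levels with an auxiliary prime

If a prime `t ≡ 2 (mod 3)` divides `N` then `Γ₀(N)` has no element of trace `± 1`, so the
character of a Taylor–Wiles level kills the elements of trace of absolute value at most two with
no condition at `p = 3`.  A representation unipotent at `t` with `(tr φ) ^ 2 ≠ (t + 1) ^ 2` at a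
Frobenius element `φ` at `t` is unramified at `t`.
-/

noncomputable section

namespace Fermat.Agent.Raising

open scoped MatrixGroups
open CongruenceSubgroup IsLocalRing Matrix Module Fermat.Agent.Grp Fermat.Agent.Ihara
  Fermat.Agent.LevelLowering Fermat.Agent.Gal

/-- A prime `t ≡ 2 (mod 3)` has no primitive sixth root of unity. -/
theorem sq_sub_add_one_ne_zero {t : ℕ} [Fact t.Prime] (ht : t % 3 = 2) (e : ZMod t) :
    e ^ 2 - e + 1 ≠ 0 := by
  intro h
  have hx3 : (-e) ^ 3 = 1 := by linear_combination (-e - 1) * h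
  have hx0 : -e ≠ 0 := fun h0 => by rw [h0] at hx3; simp at hx3
  have hpow := ZMod.pow_card_sub_one_eq_one hx0
  rw [show t - 1 = 3 * (t / 3) + 1 by omega, pow_succ, pow_mul, hx3, one_pow, one_mul] at hpow
  have he : e = -1 := by linear_combination -hpow
  have h3 : (3 : ZMod t) = 0 := by rw [he] at h; linear_combination h
  rw [← Nat.cast_ofNat, ZMod.natCast_eq_zero_iff] at h3
  have := (Nat.prime_dvd_prime_iff_eq Fact.out Nat.prime_three).1 h3
  omega

section Ker

variable {N : ℕ} {Δ : Type*} [CommGroup Δ]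

/-- With a prime `t ≡ 2 (mod 3)` dividing `N`, a character killing the unipotent units kills the
elements of trace of absolute value at most two. -/
theorem dChar_eq_one_of_abs_tr_le_aux (Ψ : (ZMod N)ˣ →* Δ) {p : ℕ} [Fact p.Prime]
    (hp2 : p ≠ 2) (hΔ : IsPGroup p Δ)
    (hsq : ∀ u : (ZMod N)ˣ, ((u : ZMod N) - 1) ^ 2 = 0 → Ψ u = 1)
    {t : ℕ} (ht : t.Prime) (htN : t ∣ N) (ht3 : t % 3 = 2)
    (γ : Gamma0 N) (hγ : |tr (γ : SL(2, ℤ))| ≤ 2) : dChar Ψ γ = 1 := by
  have : Fact t.Prime := ⟨ht⟩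
  have hco : ∀ k : ℕ, Nat.Coprime p (2 ^ k) := fun k =>
    Nat.Coprime.pow_right _ ((Nat.coprime_primes Fact.out Nat.prime_two).mpr hp2)
  set u := (Gamma0Map N).toHomUnits γ
  show Ψ u = 1
  have hdet := Hecke.Gamma0_det γ
  have hc : ((γ.1.1 1 0 : ℤ) : ZMod N) = 0 := Gamma0_mem.mp γ.2
  have hu : (u : ZMod N) = ((γ.1.1 1 1 : ℤ) : ZMod N) := rfl
  have hd : ((γ.1.1 0 0 : ℤ) : ZMod N) * u = 1 := by
    have := congrArg (Int.cast : ℤ → ZMod N) hdet
    push_cast at this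
    rw [hc, mul_zero, sub_zero] at this
    rw [hu]; exact this
  have htr : ((γ.1.1 0 0 : ℤ) : ZMod N) + u = ((tr (γ : SL(2, ℤ)) : ℤ) : ZMod N) := by
    rw [hu, tr_eq]; push_cast; rfl
  have hkey : (u : ZMod N) ^ 2 - ((tr (γ : SL(2, ℤ)) : ℤ) : ZMod N) * u + 1 = 0 := by
    linear_combination (u : ZMod N) * htr - hd
  have hneg : Ψ (-1) = 1 := eq_one_of_pow_of_isPGroup hΔ (hco 1) (by
    rw [pow_one, ← map_pow, neg_one_sq, map_one])
  obtain ⟨h1, h2⟩ := abs_le.1 hγ
  have hmod := congrArg (ZMod.castHom htN (ZMod t)) hkey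
  rw [map_add, map_sub, map_mul, map_pow, map_one, map_zero, map_intCast] at hmod
  set x := ZMod.castHom htN (ZMod t) (u : ZMod N)
  generalize tr (γ : SL(2, ℤ)) = s at h1 h2 hkey hmod
  interval_cases s
  · have h := hsq (-1 * u) (by push_cast at hkey ⊢; linear_combination hkey)
    rwa [map_mul, hneg, one_mul] at h
  · exact absurd (by push_cast at hmod; linear_combination hmod)
      (sq_sub_add_one_ne_zero ht3 (-x))
  · have h4 : u ^ 4 = 1 := Units.ext (by
      rw [Units.val_pow_eq_pow_val, Units.val_one]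
      push_cast at hkey
      linear_combination ((u : ZMod N) ^ 2 - 1) * hkey)
    exact eq_one_of_pow_of_isPGroup hΔ (hco 2) (by
      rw [show 2 ^ 2 = 4 by rfl, ← map_pow, h4, map_one])
  · exact absurd (by push_cast at hmod; linear_combination hmod)
      (sq_sub_add_one_ne_zero ht3 x)
  · exact hsq u (by push_cast at hkey; linear_combination hkey)

/-- The character of a Taylor–Wiles level with an auxiliary prime kills elliptic and parabolic
elements, whatever the exact power of `p` in `q i - 1`. -/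
theorem twPsi_abs_tr_le_aux {p r : ℕ} [hp : Fact p.Prime] (hp2 : p ≠ 2)
    {lv : Fin r → ℕ} {q : Fin r → ℕ} (hq : ∀ i, (q i).Prime) (hN : ∀ i, q i ∣ N)
    (π : ∀ i, (ZMod (q i))ˣ →* Multiplicative (ZMod (p ^ lv i)))
    (Ψ : (ZMod N)ˣ →* DiaGroup p lv)
    (hΨπ : ∀ i u, diaProj i (Ψ u) = π i (ZMod.unitsMap (hN i) u))
    {t : ℕ} (ht : t.Prime) (htN : t ∣ N) (ht3 : t % 3 = 2)
    (γ : Gamma0 N) (hγ : |tr (γ : SL(2, ℤ))| ≤ 2) : dChar Ψ γ = 1 := by
  refine dChar_eq_one_of_abs_tr_le_aux Ψ hp2 isPGroup_diaGroup (fun u hu => ?_) ht htN ht3 γ hγ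
  rw [← prod_diaIncl_proj (Ψ u)]
  refine Finset.prod_eq_one fun i _ => ?_
  have : Fact (q i).Prime := ⟨hq i⟩
  have h1 : ((ZMod.unitsMap (hN i) u : (ZMod (q i))ˣ) : ZMod (q i)) - 1 = 0 := by
    have := congrArg (ZMod.castHom (hN i) (ZMod (q i))) hu
    rw [map_pow, map_sub, map_one, map_zero] at this
    exact pow_eq_zero_iff two_ne_zero |>.1 this
  rw [hΨπ, show ZMod.unitsMap (hN i) u = 1 from Units.ext (sub_eq_zero.1 h1), map_one, map_one]

end Ker

local notation "Qbar" => AlgebraicClosure ℚ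
local notation "GQ" => (AlgebraicClosure ℚ ≃ₐ[ℚ] AlgebraicClosure ℚ)

section Point

variable {T : Type} [CommRing T] [IsLocalRing T] [IsNoetherianRing T]

omit [IsLocalRing T] [IsNoetherianRing T] in
/-- Powers of a matrix `1 + N` with `N * N = 0`. -/
theorem one_add_pow_of_mul_self {N : Matrix (Fin 2) (Fin 2) T} (h : N * N = 0) :
    ∀ m : ℕ, (1 + N) ^ m = 1 + (m : T) • N := by
  intro m
  induction m with
  | zero => simp
  | succ m ih =>
    rw [pow_succ, ih, add_mul, one_mul, smul_mul_assoc, mul_add, mul_one, h, add_zero,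
      Nat.cast_succ, add_smul, one_smul]
    abel

/-- Frobenius conjugates a unipotent element of inertia to its `t`-th power: `Φ N = t N Φ`. -/
theorem frobenius_mul_unipotent_sub (ρ : GaloisRepAdic T) (b : Basis (Fin 2) T ρ.V) {p t : ℕ}
    (hp : p.Prime) (ht : t.Prime) (htp : t ≠ p) (hdet : ρ.DetIsCyclotomic p)
    {A : ValuationSubring Qbar} (hA : A.LiesOverPrime t) {φ : GQ} (hφ : A.IsFrobeniusAt φ t)
    (hsq : ∀ τ ∈ A.inertiaSubgroupIn ℚ,
      (matrixRep b ρ.ρ τ - 1) * (matrixRep b ρ.ρ τ - 1) = 0)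
    {σ : GQ} (hσ : σ ∈ A.inertiaSubgroupIn ℚ) :
    matrixRep b ρ.ρ φ * (matrixRep b ρ.ρ σ - 1) =
      (t : T) • ((matrixRep b ρ.ρ σ - 1) * matrixRep b ρ.ρ φ) := by
  let M : GQ →* Matrix (Fin 2) (Fin 2) T := matrixRep b ρ.ρ
  set N := M σ - 1 with hN
  show M φ * N = (t : T) • (N * M φ)
  ext i j
  rw [← sub_eq_zero, ← Ideal.mem_bot, ← Ideal.iInf_pow_eq_bot_of_isLocalRing (maximalIdeal T)
    (maximalIdeal.isMaximal T).ne_top, Submodule.mem_iInf]
  intro n
  let Q : Matrix (Fin 2) (Fin 2) T →+* Matrix (Fin 2) (Fin 2) (T ⧸ maximalIdeal T ^ n) :=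
    (Ideal.Quotient.mk (maximalIdeal T ^ n)).mapMatrix
  obtain ⟨L, hL, hLn⟩ := Scalar.exists_nearOne ρ b n
  let π : GQ →* (Matrix (Fin 2) (Fin 2) (T ⧸ maximalIdeal T ^ n))ˣ :=
    (Q.toMonoidHom.comp M).toHomUnits
  have hπ : ∀ g : GQ, (∀ x ∈ L, g x = x) → π g = 1 := fun g hg => Units.ext (by
    show Q (M g) = 1
    ext k l
    rw [RingHom.mapMatrix_apply, Matrix.map_apply, Ideal.Quotient.eq.mpr (hLn g hg k l)]
    by_cases hkl : k = l <;> simp [hkl, Matrix.one_apply])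
  have hpg : ∀ τ ∈ A.inertiaSubgroupIn ℚ, ∃ k : ℕ, π τ ^ p ^ k = 1 := by
    intro τ hτ
    refine ⟨n, Units.ext ?_⟩
    show Q (M τ) ^ p ^ n = 1
    rw [← map_pow, show M τ = 1 + (M τ - 1) by abel, one_add_pow_of_mul_self (hsq τ hτ), map_add,
      map_one]
    convert add_zero _
    ext k l
    rw [RingHom.mapMatrix_apply, Matrix.map_apply, Matrix.zero_apply,
      Ideal.Quotient.eq_zero_iff_mem, Matrix.smul_apply, smul_eq_mul, Nat.cast_pow]
    exact Ideal.mul_mem_right _ _ (Ideal.pow_mem_pow hdet.1 n)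
  have h := (TW.exists_inertia_generator_frobenius ht hp (Ne.symm htp) hA π L hπ hpg).1 φ hφ σ hσ
  rw [map_mul, map_mul, map_inv, mul_inv_eq_iff_eq_mul] at h
  have h' : Q (M φ * M σ) = Q (M σ ^ t * M φ) := by
    rw [map_mul, map_mul, map_pow]
    simpa [π] using congrArg Units.val h
  rw [show M σ = 1 + N by rw [hN]; abel, one_add_pow_of_mul_self (hsq σ hσ), mul_add, mul_one,
    add_mul, one_mul, smul_mul_assoc, map_add, map_add, add_right_inj] at h'
  exact Ideal.Quotient.eq.mp (congrFun (congrFun h' i) j)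

/-- **Unipotent at `t` with `(tr φ) ^ 2 ≠ (t + 1) ^ 2`: unramified at `t`.** -/
theorem isUnramifiedAt_of_unipotent_of_trace [IsDomain T] (ρ : GaloisRepAdic T) {p t : ℕ}
    (hp : p.Prime) (ht : t.Prime) (htp : t ≠ p) (hdet : ρ.DetIsCyclotomic p)
    (ht0 : (t : T) ≠ 0) (ht1 : (t : T) ≠ 1) (hunip : ρ.IsUnipotentOnInertiaAt t)
    (htr : ∀ A : ValuationSubring Qbar, A.LiesOverPrime t → ∀ φ : GQ, A.IsFrobeniusAt φ t →
      LinearMap.trace T ρ.V (ρ.ρ φ) ^ 2 ≠ ((t : T) + 1) ^ 2) :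
    ρ.IsUnramifiedAt t := by
  intro A hA σ hσ
  let b := basisTwo ρ.finrank_eq
  let M : GQ →* Matrix (Fin 2) (Fin 2) T := matrixRep b ρ.ρ
  have hsq : ∀ τ ∈ A.inertiaSubgroupIn ℚ, (M τ - 1) * (M τ - 1) = 0 := by
    intro τ hτ
    have h := Matrix.aeval_self_charpoly (M τ)
    rw [show (M τ).charpoly = (Polynomial.X - 1) ^ 2 from
      (LinearMap.charpoly_toMatrix (ρ.ρ τ) b).trans (hunip A hA τ hτ)] at h
    simpa [pow_two] using h
  obtain ⟨φ, hφ⟩ := Gal.exists_isFrobeniusAt ht hA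
  set N := M σ - 1 with hN
  suffices hN0 : N = 0 by
    apply (LinearMap.toMatrixAlgEquiv b).injective
    exact (sub_eq_zero.mp hN0).trans (map_one _).symm
  have hrel : M φ * N = (t : T) • (N * M φ) :=
    frobenius_mul_unipotent_sub ρ b hp ht htp hdet hA hφ hsq hσ
  by_contra hN0
  have hd : (M φ).det = (t : T) := Scalar.det_frobenius_eq ρ b hp hdet ht htp hA hφ
  have ht' : (M φ).trace = LinearMap.trace T ρ.V (ρ.ρ φ) := trace_matrixRep b ρ.ρ φ
  rcases Scalar.trace_eq_of_monodromy ht0 ht1 (M φ) N hd hN0 hrel with e | e <;>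
    exact htr A hA φ hφ (by simp only [← ht', e, neg_sq])

end Point

end Fermat.Agent.Raising

end
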