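import Fermat.Agent.LevelLowering.Semistable.Main
import Fermat.Agent.Raising.AtResidualPrime.LastInputs
import Fermat.Agent.Raising.Inputs

/-!
# The modular supply of the raising theorem

`RaiseSupply`: above a minimal level with an auxiliary prime, the levels raised at prescribed primes
in coordinates and, for every choice of Taylor–Wiles primes, a `RaiseInputs` over them with the
condition at `p`.  `LastSupply`: the same with a last level containing `p`, for a curve which is
multiplicative at `p` while `p` is not in the minimal level.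
-/

noncomputable section

namespace Fermat.Agent.Raising

open IsLocalRing Matrix Polynomial WeierstrassCurve
open Fermat.Agent.LevelLowering Fermat.Agent.LevelLowering.Semistable Fermat.Agent.Gal
  Fermat.Agent.PT Fermat.Agent.TW

local notation "Qbar" => AlgebraicClosure ℚ
local notation "GQ" => (AlgebraicClosure ℚ ≃ₐ[ℚ] AlgebraicClosure ℚ)

variable {p : ℕ} [hp : Fact p.Prime] (C : Coeff.CoeffRing p) (W : WeierstrassCurve ℤ)
  [(W.map (Int.castRingHom ℚ)).IsElliptic]

local notation "Eℚ" => W.map (Int.castRingHom ℚ)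

/-- Primes raised for the curve, with the fixed residual basis. -/
abbrev CurvePrime : Type := RaisedPrime p (Coeff.curveRbar C Eℚ) (coeffBasis C Eℚ)

variable {C W} in
/-- The level raised at the first `j` of the primes. -/
def raisedLevel (N₀ : ℕ) {m : ℕ} (P : Fin m → CurvePrime C W) (j : ℕ) : ℕ :=
  N₀ * ∏ i ∈ Finset.univ.filter (fun i : Fin m => (i : ℕ) < j), (P i).q

instance instNeZeroRaisedLevel (N₀ : ℕ) [NeZero N₀] {m : ℕ} (P : Fin m → CurvePrime C W) (j : ℕ) :
    NeZero (raisedLevel N₀ P j) :=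
  ⟨mul_ne_zero (NeZero.ne N₀) (Finset.prod_ne_zero_iff.2 fun i _ => (P i).prime.ne_zero)⟩

/-- The residual conditions on a choice of Taylor–Wiles primes of depth `n` outside `S`. -/
structure IsTWChoice (S : Finset ℕ) (n : ℕ) {D : ℕ} (qv : Fin D → ℕ) : Prop where
  inj : Function.Injective qv
  prime : ∀ i, (qv i).Prime ∧ qv i ∉ S ∧ p ^ (n + 1) ∣ qv i - 1
  frob : ∀ i, ∀ A : ValuationSubring Qbar, A.LiesOverPrime (qv i) → ∀ φ : GQ,
    A.IsFrobeniusAt φ (qv i) → ∃ α β : ResidueField C.O, α ≠ β ∧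
      LinearMap.charpoly ((Coeff.curveRbar C Eℚ).ρ φ) =
        (Polynomial.X - Polynomial.C α) * (Polynomial.X - Polynomial.C β)

/-- The exact `p`-adic levels of a choice of Taylor–Wiles primes. -/
def IsTWDepth (p n : ℕ) {D : ℕ} (qv lv : Fin D → ℕ) : Prop :=
  ∀ i, n < lv i ∧ p ^ lv i ∣ qv i - 1 ∧ ¬ p ^ (lv i + 1) ∣ qv i - 1

variable {C W} in
/-- The bad set of all the levels of the raising, the last one at `p` included. -/
abbrev raiseBad (N₀ : ℕ) {m : ℕ} (P : Fin m → CurvePrime C W) : Finset ℕ :=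
  levelBad p (raisedLevel N₀ P m) W

variable {C W} in
/-- The raised primes: distinct bad primes of the curve outside the level. -/
structure IsRaisingFor (N₀ : ℕ) {m : ℕ} (P : Fin m → CurvePrime C W) : Prop where
  inj : Function.Injective fun i => (P i).q
  not_dvd : ∀ i, ¬ (P i).q ∣ N₀
  bad : ∀ i, ((P i).q : ℤ) ∣ W.Δ

variable {C W} in
/-- What is known of the levels without auxiliary primes: their eigensystems are unramified
outside the level and `p`, and the coordinates beyond the last level have the same rank. -/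
structure IsRaisingBase {N₀ : ℕ} [NeZero N₀] {m : ℕ} (P : Fin m → CurvePrime C W)
    (B : ∀ j, SupplyBase C W (raisedLevel N₀ P j)) : Prop where
  unramified : ∀ j ≤ m, ∀ (a : (B j).L₀.κ) (l : ℕ), l.Prime → ¬ l ∣ raisedLevel N₀ P j →
    l ≠ p → ((B j).L₀.ρ a).IsUnramifiedAt l
  rank_const : ∀ j, m < j → (B j).d = (B m).d

/-- A level read over a larger finite set of excluded primes. -/
def OpLevel.widen {O : Type} [CommRing O] [IsLocalRing O]
    {S S' : Finset ℕ} {c₀ : ℕ → O}
    {B : Type} [CommRing B] [Algebra O B] {d : ℕ} (L : OpLevel O S c₀ B d) (h : S ⊆ S') :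
    OpLevel O S' c₀ B d where
  A := L.A
  Φ := L.Φ
  x := L.x
  κ := L.κ
  F := L.F
  ev := L.ev
  ker_iff := L.ker_iff
  residual a ℓ hℓ hℓS := L.residual a ℓ hℓ fun hm => hℓS (h hm)
  ρ := L.ρ
  frob a ℓ hℓ hℓS := L.frob a ℓ hℓ fun hm => hℓS (h hm)

variable {C W} in
/-- Every raised level divides the last. -/
theorem raisedLevel_dvd (N₀ : ℕ) {m : ℕ} (P : Fin m → CurvePrime C W) (j : ℕ) :
    raisedLevel N₀ P j ∣ raisedLevel N₀ P m := by
  refine mul_dvd_mul_left N₀ (Finset.prod_dvd_prod_of_subset _ _ _ fun i hi => ?_)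
  rw [Finset.mem_filter] at hi ⊢
  exact ⟨hi.1, i.2⟩

variable {C W} in
/-- The bad set of every raised level is inside that of the raising. -/
theorem levelBad_subset_raiseBad (N₀ : ℕ) [NeZero N₀] {m : ℕ} (P : Fin m → CurvePrime C W)
    (j : ℕ) : levelBad p (raisedLevel N₀ P j) W ⊆ raiseBad N₀ P :=
  Finset.insert_subset_insert _ (Finset.union_subset_union
    (Nat.primeFactors_mono (raisedLevel_dvd N₀ P j) (NeZero.ne _)) (Finset.Subset.refl _))

variable (K : Type) [Field K] [IsAlgClosed K] [CharZero K] [Algebra C.O K]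

/-- The inputs of the raising theorem over fixed coordinates of the levels `N₀ q₁ ⋯ qⱼ`. -/
abbrev CurveInputs {N₀ : ℕ} [NeZero N₀] {m : ℕ} (P : Fin m → CurvePrime C W)
    (B : ∀ j, SupplyBase C W (raisedLevel N₀ P j)) {D : ℕ} (qv lv : Fin D → ℕ) : Type 1 :=
  RaiseInputs K P (N₀.primeFactors.erase p) (curveSys C W) (fun j => (B j).d) (fun j => (B j).Tm)
    (raiseBad N₀ P) qv lv

/-- **The levels of the raising.** -/
def RaiseSupply : Prop :=
  ∀ (M t : ℕ) [NeZero (M * t)], MinLevel p W M → AuxPrimeFor p W M t →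
    ∀ (m : ℕ) (P : Fin m → CurvePrime C W), IsRaisingFor (M * t) P →
      ∃ B : ∀ j, SupplyBase C W (raisedLevel (M * t) P j), IsRaisingBase P B ∧
        ∀ (D n : ℕ) (qv : Fin D → ℕ), IsTWChoice C W (raiseBad (M * t) P) n qv →
          ∃ lv : Fin D → ℕ, IsTWDepth p n qv lv ∧ ∃ R : CurveInputs C W K P B qv lv,
            R.S = raiseBad (M * t) P ∪ Finset.univ.image qv ∧
            ∀ j ≤ m, ∀ a : (R.L j).κ, AtPCond p M ((R.L j).ρ a)

/-- **The levels of the last step at `p`.** -/
def LastSupply : Prop :=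
  ∀ (M t : ℕ) [NeZero (M * t)], MinLevel p W M → AuxPrimeFor p W M t → ¬ p ∣ M →
    (p : ℤ) ∣ W.Δ → ∀ (m : ℕ) (P : Fin m → CurvePrime C W), IsRaisingFor (M * t) P →
      haveI : NeZero p := ⟨hp.out.ne_zero⟩
      ∃ (B : ∀ j, SupplyBase C W (raisedLevel (M * t) P j))
        (Bp : SupplyBase C W (raisedLevel (M * t) P m * p)), IsRaisingBase P B ∧
        ∀ (D n : ℕ) (qv : Fin D → ℕ), IsTWChoice C W (raiseBad (M * t) P) n qv →
          ∃ lv : Fin D → ℕ, IsTWDepth p n qv lv ∧ ∃ R : CurveInputs C W K P B qv lv,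
            R.S = raiseBad (M * t) P ∪ Finset.univ.image qv ∧
            Nonempty (LastInputs R Bp.d Bp.Tm)

end Fermat.Agent.Raising
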