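import Fermat.Agent.LevelLowering.Scalar.PointsGlue
import Fermat.Agent.TW.InertiaOmega
import Fermat.Agent.TW.OrdTangent
import Fermat.Agent.TwoComponent.Ordinary.Split

/-!
# Local conditions at `p` detected on points

A family of maps out of a local ring is *separating* when membership in a power of the maximal
ideal can be read on high powers at the targets.  The congruence with the cyclotomic character and
strict ordinarity at `p` of a representation follow from those of its pushforwards along such a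
family: the line is the image of `ρ σ - 1` for an element of inertia at which the cyclotomic
character is residually non-trivial.
-/

noncomputable section

namespace Fermat.Agent.Raising.OrdPoints

open IsLocalRing Matrix Module Fermat.Agent.Gal Fermat.Agent.TW

local notation "Qbar" => AlgebraicClosure ℚ

/-- Two exponents of the same automorphism agree modulo the smaller level. -/
theorem natCast_sub_mem_span {A : Type} [CommRing A] {p : ℕ} (hp : p.Prime) {n n' : ℕ}
    (hn : n ≤ n') {σ : AG} {a a' : ℕ} (ha : ∀ μ : Qbar, μ ^ p ^ n = 1 → σ μ = μ ^ a)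
    (ha' : ∀ μ : Qbar, μ ^ p ^ n' = 1 → σ μ = μ ^ a') :
    ((a' : A) - (a : A)) ∈ Ideal.span {((p ^ n : ℕ) : A)} := by
  have : NeZero (p ^ n) := ⟨pow_ne_zero _ hp.ne_zero⟩
  obtain ⟨ζ, hζ⟩ := HasEnoughRootsOfUnity.exists_primitiveRoot Qbar (p ^ n)
  have h1 : ζ ^ a = ζ ^ a' := by
    rw [← ha ζ hζ.pow_eq_one, ← ha' ζ]
    obtain ⟨c, rfl⟩ := Nat.exists_eq_add_of_le hn
    rw [pow_add, pow_mul, hζ.pow_eq_one, one_pow]
  exact Attach.natCast_sub_mem_span_of_pow_eq hζ h1

/-- Powers of `p` lie in high powers of the maximal ideal. -/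
theorem span_natCast_pow_le {A : Type} [CommRing A] [IsLocalRing A] {p : ℕ}
    (hp : (p : A) ∈ maximalIdeal A) {N n : ℕ} (hn : N ≤ n) :
    Ideal.span {((p ^ n : ℕ) : A)} ≤ maximalIdeal A ^ N := by
  rw [Ideal.span_le, Set.singleton_subset_iff, SetLike.mem_coe, Nat.cast_pow]
  exact Ideal.pow_le_pow_right hn (Ideal.pow_mem_pow hp n)

variable {T : Type} [CommRing T] [IsLocalRing T]

section Frame

variable {V : Type} [AddCommGroup V] [Module T V]

omit [IsLocalRing T] in
/-- A change of frame is a change of basis. -/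
theorem exists_basis_of_frame (b : Basis (Fin 2) T V) {Q Q' : M2 T} (hQQ' : Q * Q' = 1) :
    ∃ bL : Basis (Fin 2) T V, ∀ f : Module.End T V,
      LinearMap.toMatrix bL bL f = Q' * LinearMap.toMatrix b b f * Q := by
  have : Module.Finite T V := Module.Finite.of_basis b
  have hQ : IsUnit Q.det := IsUnit.of_mul_eq_one Q'.det (by rw [← det_mul, hQQ', det_one])
  set bL := b.map (Matrix.toLinearEquiv b Q hQ) with hbL
  have h1 : b.toMatrix bL = Q := by
    ext i j
    rw [Basis.toMatrix_apply, hbL, Basis.map_apply]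
    show b.repr (Matrix.toLin b b Q (b j)) i = Q i j
    rw [Matrix.toLin_self, b.repr_sum_self]
  have h2 : bL.toMatrix b = Q' := by
    calc bL.toMatrix b = bL.toMatrix b * (Q * Q') := by rw [hQQ', mul_one]
      _ = (bL.toMatrix b * b.toMatrix bL) * Q' := by rw [h1, mul_assoc]
      _ = Q' := by rw [bL.toMatrix_mul_toMatrix_flip b, one_mul]
  refine ⟨bL, fun f => ?_⟩
  rw [← h1, ← h2]
  exact (basis_toMatrix_mul_linearMap_toMatrix_mul_basis_toMatrix bL b bL b f).symm

variable (bL : Basis (Fin 2) T V)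

omit [IsLocalRing T] in
/-- The second coordinate vanishes exactly on the first line. -/
theorem repr_one_eq_zero_iff (v : V) : bL.repr v 1 = 0 ↔ v ∈ T ∙ bL 0 := by
  constructor
  · intro hv
    refine Submodule.mem_span_singleton.2 ⟨bL.repr v 0, ?_⟩
    conv_rhs => rw [← bL.sum_repr v, Fin.sum_univ_two, hv, zero_smul, add_zero]
  · intro hv
    obtain ⟨c, rfl⟩ := Submodule.mem_span_singleton.1 hv
    simp

omit [IsLocalRing T] in
/-- The lower left entry vanishes when the line is stable, and conversely. -/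
theorem toMatrix_one_zero_iff (f : Module.End T V) :
    LinearMap.toMatrix bL bL f 1 0 = 0 ↔ ∀ v ∈ T ∙ bL 0, f v ∈ T ∙ bL 0 := by
  rw [LinearMap.toMatrix_apply]
  refine ⟨fun h v hv => ?_, fun h =>
    (repr_one_eq_zero_iff bL _).2 (h _ (Submodule.mem_span_singleton_self _))⟩
  obtain ⟨c, rfl⟩ := Submodule.mem_span_singleton.1 hv
  rw [map_smul]
  exact Submodule.smul_mem _ c ((repr_one_eq_zero_iff bL _).1 h)

omit [IsLocalRing T] in
/-- The scalar on the quotient by the line is the lower right entry. -/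
theorem toMatrix_one_one_eq {f : Module.End T V} {z : T} (h : ∀ v, f v - z • v ∈ T ∙ bL 0) :
    LinearMap.toMatrix bL bL f 1 1 = z := by
  have := (repr_one_eq_zero_iff bL _).2 (h (bL 1))
  rw [map_sub, Finsupp.sub_apply, map_smul, Finsupp.smul_apply, Basis.repr_self,
    Finsupp.single_eq_same, smul_eq_mul, mul_one, sub_eq_zero] at this
  rw [LinearMap.toMatrix_apply]
  exact this

omit [IsLocalRing T] in
/-- An upper triangular endomorphism is scalar on the quotient by the line. -/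
theorem sub_smul_mem {f : Module.End T V} (h10 : LinearMap.toMatrix bL bL f 1 0 = 0) (v : V) :
    f v - LinearMap.toMatrix bL bL f 1 1 • v ∈ T ∙ bL 0 := by
  simp only [LinearMap.toMatrix_apply] at h10 ⊢
  refine (repr_one_eq_zero_iff bL _).1 ?_
  conv_lhs => rw [← bL.sum_repr v, Fin.sum_univ_two]
  simp only [map_add, map_smul, map_sub, Finsupp.add_apply, Finsupp.sub_apply, Finsupp.smul_apply,
    Basis.repr_self, smul_eq_mul, h10]
  rw [Finsupp.single_eq_of_ne (by decide), Finsupp.single_eq_same]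
  ring

end Frame

section Congr

variable {ρ ρ' : GaloisRepAdic T} {p : ℕ}

/-- A representation with upper triangular matrices of the required shape is strictly ordinary. -/
theorem isStrictOrdinaryAt_of_ordMatrix (hp : (p : T) ∈ maximalIdeal T)
    (h : ∀ A : ValuationSubring Qbar, A.LiesOverPrime p →
      ∃ (b : Basis (Fin 2) T ρ.V) (Q Q' : M2 T), Q * Q' = 1 ∧ Q' * Q = 1 ∧
        (∀ σ ∈ A.decompositionSubgroup ℚ, (Q' * matrixRep b ρ.ρ σ * Q) 1 0 = 0 ∧
          ∀ (n a : ℕ), (∀ μ : Qbar, μ ^ p ^ n = 1 → σ μ = μ ^ a) →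
            (Q' * matrixRep b ρ.ρ σ * Q) 0 0 - (a : T) * (Q' * matrixRep b ρ.ρ σ * Q) 1 1 ∈
              Ideal.span {((p ^ n : ℕ) : T)}) ∧
        (∀ σ ∈ A.inertiaSubgroupIn ℚ, (Q' * matrixRep b ρ.ρ σ * Q) 1 1 = 1)) :
    ρ.IsStrictOrdinaryAt p := by
  refine ⟨hp, fun A hA => ?_⟩
  obtain ⟨b, Q, Q', hQQ', -, hD, hI⟩ := h A hA
  obtain ⟨bL, hM⟩ := exists_basis_of_frame b hQQ'
  have hM' : ∀ σ, LinearMap.toMatrix bL bL (ρ.ρ σ) = Q' * matrixRep b ρ.ρ σ * Q := fun σ => hM _
  have hu : ∀ σ ∈ A.decompositionSubgroup ℚ, LinearMap.toMatrix bL bL (ρ.ρ σ) 1 0 = 0 :=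
    fun σ hσ => by rw [hM']; exact (hD σ hσ).1
  refine ⟨T ∙ bL 0, ⟨bL, rfl⟩, fun σ hσ => (toMatrix_one_zero_iff bL _).1 (hu σ hσ),
    fun σ hσ v => ?_, fun σ hσ => ⟨_, _, fun w hw => ?_, sub_smul_mem bL (hu σ hσ),
      fun n a ha => by rw [hM']; exact (hD σ hσ).2 n a ha⟩⟩
  · have h := sub_smul_mem bL (hu σ (TwoComponent.Ordinary.inertia_le_decomposition A hσ)) v
    rwa [hM', hI σ hσ, one_smul] at h
  · obtain ⟨c, rfl⟩ := Submodule.mem_span_singleton.1 hw
    rw [map_smul, smul_comm]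
    congr 1
    conv_lhs => rw [← bL.sum_repr (ρ.ρ σ (bL 0)), Fin.sum_univ_two]
    simp only [← LinearMap.toMatrix_apply bL bL, hu σ hσ, zero_smul, add_zero]
    rw [hM']

/-- The congruence with the cyclotomic character transfers along an equivalence. -/
theorem detIsCyclotomic_congr (e : ρ.IsEquiv ρ') (h : ρ'.DetIsCyclotomic p) :
    ρ.DetIsCyclotomic p := by
  obtain ⟨e⟩ := e
  refine ⟨h.1, fun n σ a ha => ?_⟩
  have hd : LinearMap.det (ρ.ρ σ) = LinearMap.det (ρ'.ρ σ) := by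
    rw [← LinearMap.det_conj (ρ.ρ σ) e.toLinearEquiv]
    refine congrArg LinearMap.det (LinearMap.ext fun v => ?_)
    rw [LinearMap.comp_apply, LinearMap.comp_apply, LinearEquiv.coe_coe, LinearEquiv.coe_coe,
      e.map_apply, LinearEquiv.apply_symm_apply]
  rw [hd]
  exact h.2 n σ a ha

/-- Strict ordinarity transfers along an equivalence. -/
theorem isStrictOrdinaryAt_congr (e : ρ.IsEquiv ρ') (h : ρ'.IsStrictOrdinaryAt p) :
    ρ.IsStrictOrdinaryAt p := by
  obtain ⟨e⟩ := e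
  refine isStrictOrdinaryAt_of_ordMatrix h.1 fun A hA => ?_
  let b' : Basis (Fin 2) T ρ'.V := basisTwo ρ'.finrank_eq
  obtain ⟨Q, Q', h1, h2, hD, hI⟩ := TW.exists_ordMatrix (b := b') hA h
  refine ⟨b'.map e.toLinearEquiv.symm, Q, Q', h1, h2, ?_⟩
  have hM : ∀ σ, matrixRep (b'.map e.toLinearEquiv.symm) ρ.ρ σ = matrixRep b' ρ'.ρ σ := fun σ => by
    show LinearMap.toMatrix _ _ (ρ.ρ σ) = LinearMap.toMatrix _ _ (ρ'.ρ σ)
    ext i j
    rw [LinearMap.toMatrix_apply, LinearMap.toMatrix_apply, Basis.map_apply, Basis.map_repr]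
    simp [e.map_apply]
  simp only [hM]
  exact ⟨hD, hI⟩

end Congr

/-- A family of maps is separating when membership in a power of the maximal ideal can be read on
high powers at the targets. -/
def Separating {ι : Type} {F : ι → Type} [∀ a, CommRing (F a)] [∀ a, IsLocalRing (F a)]
    (ψ : ∀ a, T →+* F a) : Prop :=
  ∀ k, ∃ N, ∀ x : T, (∀ a, ψ a x ∈ maximalIdeal (F a) ^ N) → x ∈ maximalIdeal T ^ k

variable [IsNoetherianRing T] {ι : Type} {F : ι → Type} [∀ a, CommRing (F a)]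
  [∀ a, IsLocalRing (F a)] {ψ : ∀ a, T →+* F a} {hψ : ∀ a, IsLocalHom (ψ a)}
  {ρ : GaloisRepAdic T} {p q : ℕ}

/-- Separating maps are jointly injective. -/
theorem Separating.eq_zero (hsep : Separating ψ) {x : T} (h : ∀ a, ψ a x = 0) : x = 0 :=
  LevelLowering.eq_zero_of_forall_mem_pow _ fun k => (hsep k).choose_spec x fun a => by
    rw [h a]; exact zero_mem _

/-- Finitely many jointly injective points of a complete ring separate. -/
theorem separating_of_finite [IsAdicComplete (maximalIdeal T) T] [Finite (ResidueField T)]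
    [∀ a, IsNoetherianRing (F a)] (hψ : ∀ a, IsLocalHom (ψ a))
    (hinj : ∀ x, (∀ a, ψ a x = 0) → x = 0) : Separating ψ := fun k => by
  classical
  exact @LevelLowering.exists_pow_of_forall_mem T _ _ _ _ _ ι F _ _ _ ψ hψ hinj k

/-- Conjugating an upper triangular matrix by an upper triangular one keeps the diagonal. -/
theorem conj_upper {R : Type*} [CommRing R] {X U U' : M2 R} (hU : U * U' = 1) (hU' : U' * U = 1)
    (hX : X 1 0 = 0) (hU0 : U 1 0 = 0) :
    (U' * X * U) 1 0 = 0 ∧ (U' * X * U) 0 0 = X 0 0 ∧ (U' * X * U) 1 1 = X 1 1 := by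
  have h10 := congrFun (congrFun hU' 1) 0
  have h00 := congrFun (congrFun hU' 0) 0
  have k11 := congrFun (congrFun hU 1) 1
  simp only [mul_apply, Fin.sum_univ_two, one_apply_eq, hU0, mul_zero, zero_mul, add_zero,
    zero_add] at h00 k11
  simp only [mul_apply, Fin.sum_univ_two, hU0, mul_zero, add_zero,
    one_apply_ne (show (1 : Fin 2) ≠ 0 by decide)] at h10
  have hV : U' 1 0 = 0 := by linear_combination (U' 0 0) * h10 - (U' 1 0) * h00
  simp only [mul_apply, Fin.sum_univ_two, hX, hU0, hV]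
  refine ⟨by ring, by linear_combination (X 0 0) * h00, by linear_combination (X 1 1) * k11⟩

/-- An element `M` with trace `1 + c`, determinant `c` and `c - 1` a unit has a frame whose first
vector is in the image of `M - 1`. -/
theorem exists_frame {R : Type} [CommRing R] [IsLocalRing R] (M : M2 R)
    (htr : M.trace = 1 + M.det) (hc : IsUnit (M.det - 1)) :
    ∃ (P P' : M2 R) (w : Fin 2 → R), P * P' = 1 ∧ P' * P = 1 ∧
      ∀ i, P i 0 = ∑ j, (M - 1) i j * w j := by
  obtain ⟨u, hu⟩ := hc.exists_right_inv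
  rw [trace_fin_two, det_fin_two] at htr
  rw [det_fin_two] at hu
  set e : M2 R := u • (M - 1) with he
  have hadd : e 0 0 + e 1 1 = 1 := by
    simp [he]
    linear_combination u * htr + hu
  have hdet : e 0 0 * e 1 1 - e 0 1 * e 1 0 = 0 := by
    simp [he]
    linear_combination -(u * u) * htr
  rcases IsLocalRing.isUnit_or_isUnit_of_add_one hadd with h | h
  · have hP : IsUnit (!![e 0 0, -e 0 1; e 1 0, e 0 0] : M2 R).det := by
      rw [det_fin_two_of]
      have : e 0 0 * e 0 0 - -e 0 1 * e 1 0 = e 0 0 := by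
        linear_combination (-1 : R) * hdet + (e 0 0) * hadd
      rwa [this]
    refine ⟨_, _, ![u, 0], mul_nonsing_inv _ hP, nonsing_inv_mul _ hP, fun i => ?_⟩
    fin_cases i <;> simp [he, Fin.sum_univ_two, mul_comm]
  · have hP : IsUnit (!![e 0 1, e 1 1; e 1 1, -e 1 0] : M2 R).det := by
      rw [det_fin_two_of]
      have : e 0 1 * -e 1 0 - e 1 1 * e 1 1 = -e 1 1 := by
        linear_combination hdet - (e 1 1) * hadd
      rw [this]
      exact h.neg
    refine ⟨_, _, ![0, u], mul_nonsing_inv _ hP, nonsing_inv_mul _ hP, fun i => ?_⟩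
    fin_cases i <;> simp [he, Fin.sum_univ_two, mul_comm]

omit [IsNoetherianRing T] in
/-- An element of inertia at which the cyclotomic character is residually non-trivial. -/
theorem exists_inertia_det_sub_one (hp : p.Prime) (hp2 : p ≠ 2) (hdet : ρ.DetIsCyclotomic p)
    {A : ValuationSubring Qbar} (hA : A.LiesOverPrime p) :
    ∃ σ ∈ A.inertiaSubgroupIn ℚ, IsUnit (LinearMap.det (ρ.ρ σ) - 1) := by
  have : Fact p.Prime := ⟨hp⟩
  obtain ⟨σ, hσ, hω⟩ := exists_inertia_omega (p := p) hA hp2 (-1)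
  refine ⟨σ, hσ, ?_⟩
  obtain ⟨a, ha⟩ := TW.exists_exponent p 1 σ
  have hζ := zetaP_spec (p := p)
  have h1 : σ (zetaP p) = zetaP p ^ ((cycQ p).ω σ : ZMod p).val := (hζ.autToPow_spec ℚ σ).symm
  have h2 : σ (zetaP p) = zetaP p ^ a := ha _ (by rw [pow_one]; exact hζ.pow_eq_one)
  have hmod : ((a + 1 : ℕ) : ZMod p) = 0 := by
    have h3 := (h1.symm.trans h2)
    rw [pow_eq_pow_mod a hζ.pow_eq_one] at h3
    have h4 := hζ.pow_inj (ZMod.val_lt _) (Nat.mod_lt _ hp.pos) h3
    have h5 : ((cycQ p).ω σ : ZMod p) = (a : ZMod p) := by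
      rw [← ZMod.natCast_zmod_val ((cycQ p).ω σ : ZMod p), h4, ZMod.natCast_mod]
    rw [hω, Units.val_neg, Units.val_one] at h5
    rw [Nat.cast_add, Nat.cast_one, ← h5, neg_add_cancel]
  have hmem : (a : T) + 1 ∈ maximalIdeal T := by
    obtain ⟨c, hc⟩ := (ZMod.natCast_eq_zero_iff _ _).mp hmod
    rw [← Nat.cast_one, ← Nat.cast_add, hc, Nat.cast_mul]
    exact Ideal.mul_mem_right _ _ hdet.1
  have hd : LinearMap.det (ρ.ρ σ) - (a : T) ∈ maximalIdeal T := by
    have := span_natCast_pow_le hdet.1 (N := 1) le_rfl (hdet.2 1 σ a ha)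
    rwa [pow_one] at this
  have h2u : IsUnit (2 : T) := by
    obtain ⟨k, hk⟩ := (hp.eq_two_or_odd').resolve_left hp2
    by_contra h
    have h2 : (2 : T) ∈ maximalIdeal T := h
    have h1' : (1 : T) = (p : T) - 2 * (k : T) := by rw [hk]; push_cast; ring
    exact (IsLocalRing.maximalIdeal.isMaximal T).ne_top ((Ideal.eq_top_iff_one _).mpr
      (h1' ▸ sub_mem hdet.1 (Ideal.mul_mem_right _ _ h2)))
  by_contra hn
  refine (IsLocalRing.mem_maximalIdeal _).mp ?_ h2u
  have h : LinearMap.det (ρ.ρ σ) - 1 ∈ maximalIdeal T := hn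
  rw [show (2 : T) = (LinearMap.det (ρ.ρ σ) - (a : T)) + ((a : T) + 1) -
    (LinearMap.det (ρ.ρ σ) - 1) by ring]
  exact sub_mem (add_mem hd hmem) h

omit [IsLocalRing T] [IsNoetherianRing T] in
/-- With a frame whose first vector is in the image of `M₀ - 1`, an upper triangular frame at a
point becomes upper triangular with the same diagonal. -/
theorem map_frame_entries {R : Type} [CommRing R] (f : T →+* R) {M₀ M P P' : M2 T} {w : Fin 2 → T}
    (hPP' : P * P' = 1) (hP'P : P' * P = 1) (hP0 : ∀ i, P i 0 = ∑ j, (M₀ - 1) i j * w j)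
    {Q Q' : M2 R} (hQQ' : Q * Q' = 1) (hQ'Q : Q' * Q = 1)
    (h10 : (Q' * M₀.map f * Q) 1 0 = 0) (h11 : (Q' * M₀.map f * Q) 1 1 = 1)
    (hM : (Q' * M.map f * Q) 1 0 = 0) :
    f ((P' * M * P) 1 0) = 0 ∧ f ((P' * M * P) 0 0) = (Q' * M.map f * Q) 0 0 ∧
      f ((P' * M * P) 1 1) = (Q' * M.map f * Q) 1 1 := by
  set U := Q' * P.map f with hU
  set U' := P'.map f * Q with hU'
  have hUU' : U * U' = 1 := by
    rw [hU, hU', mul_assoc, ← mul_assoc (P.map f), ← Matrix.map_mul, hPP',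
      Matrix.map_one _ (map_zero _) (map_one _), one_mul, hQ'Q]
  have hU'U : U' * U = 1 := by
    rw [hU, hU', mul_assoc, ← mul_assoc Q, hQQ', one_mul, ← Matrix.map_mul, hP'P,
      Matrix.map_one _ (map_zero _) (map_one _)]
  -- the image of `M₀ - 1` lies in the line
  have hrow : ∀ j, (Q' * (M₀ - 1).map f) 1 j = 0 := fun j => by
    set X := Q' * M₀.map f * Q with hX
    have e : Q' * (M₀ - 1).map f = (X - 1) * Q' := by
      rw [Matrix.map_sub _ (fun x y => map_sub f x y), Matrix.map_one _ (map_zero _)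
        (map_one _), mul_sub, mul_one, sub_mul, one_mul, hX, mul_assoc, hQQ', mul_one]
    rw [e]
    simp [mul_apply, Fin.sum_univ_two, h10, h11]
  have hU0 : U 1 0 = 0 := by
    have : U 1 0 = ∑ j, (Q' * (M₀ - 1).map f) 1 j * f (w j) := by
      simp only [hU, mul_apply, map_apply, hP0, map_add, map_mul, Fin.sum_univ_two]
      ring
    simpa only [hrow, zero_mul, Finset.sum_const_zero] using this
  have hconj : (P' * M * P).map f = U' * (Q' * M.map f * Q) * U := by
    rw [hU, hU', Matrix.map_mul, Matrix.map_mul]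
    simp only [mul_assoc]
    rw [← mul_assoc Q Q', hQQ', one_mul, ← mul_assoc Q Q', hQQ', one_mul]
  obtain ⟨e1, e2, e3⟩ := conj_upper hUU' hU'U hM hU0
  rw [← hconj] at e1 e2 e3
  exact ⟨e1, e2, e3⟩

/-- A frame of `T²` in which matrices upper triangular at all points, unipotent on the quotient at
inertia, become so; its diagonal maps to that of any such frame at a point. -/
theorem exists_frame_of_points (hsep : Separating ψ) {A : ValuationSubring Qbar}
    (M : AG →* M2 T) (σ₀ : AG) (hσ₀ : σ₀ ∈ A.inertiaSubgroupIn ℚ) (hu : IsUnit ((M σ₀).det - 1))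
    (Q Q' : ∀ a, M2 (F a)) (hQQ' : ∀ a, Q a * Q' a = 1) (hQ'Q : ∀ a, Q' a * Q a = 1)
    (hD : ∀ a, ∀ σ ∈ A.decompositionSubgroup ℚ, (Q' a * (M σ).map (ψ a) * Q a) 1 0 = 0)
    (hI : ∀ a, ∀ σ ∈ A.inertiaSubgroupIn ℚ, (Q' a * (M σ).map (ψ a) * Q a) 1 1 = 1) :
    ∃ P P' : M2 T, P * P' = 1 ∧ P' * P = 1 ∧
      (∀ σ ∈ A.decompositionSubgroup ℚ, (P' * M σ * P) 1 0 = 0) ∧
      (∀ σ ∈ A.inertiaSubgroupIn ℚ, (P' * M σ * P) 1 1 = 1) ∧
      ∀ a (R R' : M2 (F a)), R * R' = 1 → R' * R = 1 →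
        (R' * (M σ₀).map (ψ a) * R) 1 0 = 0 → (R' * (M σ₀).map (ψ a) * R) 1 1 = 1 →
        ∀ σ, (R' * (M σ).map (ψ a) * R) 1 0 = 0 →
          ψ a ((P' * M σ * P) 0 0) = (R' * (M σ).map (ψ a) * R) 0 0 ∧
          ψ a ((P' * M σ * P) 1 1) = (R' * (M σ).map (ψ a) * R) 1 1 := by
  have hσ₀D := TwoComponent.Ordinary.inertia_le_decomposition A hσ₀
  have htr : (M σ₀).trace = 1 + (M σ₀).det := sub_eq_zero.mp (hsep.eq_zero fun a => by
    set X := Q' a * (M σ₀).map (ψ a) * Q a with hX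
    have ht : X.trace = ((M σ₀).map (ψ a)).trace := by
      rw [hX, trace_mul_comm, ← mul_assoc, hQQ', one_mul]
    have hd : X.det = ((M σ₀).map (ψ a)).det := by
      rw [hX, det_mul, det_mul, mul_right_comm, ← det_mul, hQ'Q, det_one, one_mul]
    have h10 : X 1 0 = 0 := hD a σ₀ hσ₀D
    have h11 : X 1 1 = 1 := hI a σ₀ hσ₀
    rw [trace_fin_two] at ht
    rw [det_fin_two, h10, h11, mul_zero, sub_zero, mul_one] at hd
    rw [h11, hd] at ht
    rw [map_sub, map_add, map_one, RingHom.map_det (ψ a), AddMonoidHom.map_trace (ψ a)]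
    show ((M σ₀).map (ψ a)).trace - (1 + ((M σ₀).map (ψ a)).det) = 0
    rw [← ht]
    ring)
  obtain ⟨P, P', w, hPP', hP'P, hP0⟩ := exists_frame (M σ₀) htr hu
  have key := fun a σ (hσ : σ ∈ A.decompositionSubgroup ℚ) => map_frame_entries (ψ a) hPP' hP'P hP0
    (hQQ' a) (hQ'Q a) (hD a σ₀ hσ₀D) (hI a σ₀ hσ₀) (hD a σ hσ)
  refine ⟨P, P', hPP', hP'P, fun σ hσ => hsep.eq_zero fun a => (key a σ hσ).1, fun σ hσ => ?_,
    fun a R R' h1 h2 h3 h4 σ h5 => (map_frame_entries (ψ a) hPP' hP'P hP0 h1 h2 h3 h4 h5).2⟩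
  refine sub_eq_zero.mp (hsep.eq_zero fun a => ?_)
  rw [map_sub, map_one, (key a σ (TwoComponent.Ordinary.inertia_le_decomposition A hσ)).2.2,
    hI a σ hσ, sub_self]

/-- **Strict ordinarity is detected on separating points.** -/
theorem isStrictOrdinaryAt_of_points (hsep : Separating ψ) (hp : p.Prime) (hp2 : p ≠ 2)
    (hdet : ρ.DetIsCyclotomic p)
    (h : ∀ a, (ρ.baseChangeAlong (ψ a) (hψ a)).IsStrictOrdinaryAt p) :
    ρ.IsStrictOrdinaryAt p := by
  have : Fact p.Prime := ⟨hp⟩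
  refine isStrictOrdinaryAt_of_ordMatrix hdet.1 fun A hA => ?_
  let b := basisTwo ρ.finrank_eq
  choose bc hbc using fun a => exists_basis_adicBaseChange (ψ a) (hψ a) ρ b
  choose Q Q' hQQ' hQ'Q hD hI using fun a => TW.exists_ordMatrix (b := bc a) hA (h a)
  simp only [hbc] at hD hI
  obtain ⟨σ₀, hσ₀, hu⟩ := exists_inertia_det_sub_one hp hp2 hdet hA
  rw [← LinearMap.det_toMatrix b] at hu
  obtain ⟨P, P', hPP', hP'P, hPD, hPI, hval⟩ := exists_frame_of_points hsep (matrixRep b ρ.ρ) σ₀ hσ₀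
    hu Q Q' hQQ' hQ'Q (fun a σ hσ => (hD a σ hσ).1) hI
  refine ⟨b, P, P', hPP', hP'P, fun σ hσ => ⟨hPD σ hσ, fun n c hc => ?_⟩, hPI⟩
  refine Attach.mem_of_forall_mem_sup _ _ (maximalIdeal.isMaximal T).ne_top _ fun k => ?_
  rw [smul_eq_mul, Ideal.mul_top, sup_comm]
  obtain ⟨N, hN⟩ := hsep k
  obtain ⟨c', hc'⟩ := TW.exists_exponent p (max n N) σ
  set x := (P' * matrixRep b ρ.ρ σ * P) 0 0
  set z := (P' * matrixRep b ρ.ρ σ * P) 1 1
  have h1 : x - (c' : T) * z ∈ maximalIdeal T ^ k := hN _ fun a => by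
    obtain ⟨e0, e1⟩ := hval a (Q a) (Q' a) (hQQ' a) (hQ'Q a)
      (hD a σ₀ (TwoComponent.Ordinary.inertia_le_decomposition A hσ₀)).1 (hI a σ₀ hσ₀) σ
        (hD a σ hσ).1
    rw [map_sub, map_mul, map_natCast, e0, e1]
    exact span_natCast_pow_le (h a).1 (le_max_right n N) ((hD a σ hσ).2 _ c' hc')
  rw [show x - (c : T) * z = (x - (c' : T) * z) + ((c' : T) - (c : T)) * z by ring]
  exact add_mem (Ideal.mem_sup_left h1) (Ideal.mem_sup_right
    (Ideal.mul_mem_right _ _ (natCast_sub_mem_span hp (le_max_left n N) hc hc')))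

end Fermat.Agent.Raising.OrdPoints
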