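import Fermat.Agent.LevelLowering.TWDiamond

/-!
# Inverses from inverses modulo the variables

A matrix over the ring of diamonds congruent modulo the variables to one with a left (right)
inverse has a left (right) inverse.
-/

noncomputable section

namespace Fermat.Agent.Raising

open IsLocalRing Fermat.Agent.LevelLowering

/-! ### Inverses from inverses after reduction -/

section Inverses

variable {R R' : Type} [CommRing R] [CommRing R'] {m n : Type} [Fintype m] [Fintype n]
  [DecidableEq m] [DecidableEq n] (f : R →+* R') (hf : Function.Surjective f)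
  (hu : ∀ x, IsUnit (f x) → IsUnit x)

omit [DecidableEq m] in
include hf hu in
/-- A matrix with a left inverse after reduction has a left inverse. -/
theorem exists_leftInverse_of_map (A : Matrix m n R)
    (h : ∃ X : Matrix n m R', X * A.map f = 1) : ∃ X : Matrix n m R, X * A = 1 := by
  obtain ⟨X₀, h₀⟩ := h
  choose X hX using fun i j => hf (X₀ i j)
  have hdet : IsUnit (Matrix.of X * A).det := by
    refine hu _ ?_
    rw [RingHom.map_det, RingHom.mapMatrix_apply, Matrix.map_mul,
      show (Matrix.of X).map f = X₀ from Matrix.ext hX, h₀, Matrix.det_one]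
    exact isUnit_one
  exact ⟨(Matrix.of X * A)⁻¹ * Matrix.of X, by
    rw [Matrix.mul_assoc, Matrix.nonsing_inv_mul _ hdet]⟩

omit [DecidableEq n] in
include hf hu in
/-- A matrix with a right inverse after reduction has a right inverse. -/
theorem exists_rightInverse_of_map (A : Matrix m n R)
    (h : ∃ X : Matrix n m R', A.map f * X = 1) : ∃ X : Matrix n m R, A * X = 1 := by
  obtain ⟨X₀, h₀⟩ := h
  obtain ⟨X, hX⟩ := exists_leftInverse_of_map f hf hu A.transpose ⟨X₀.transpose, by
    rw [Matrix.transpose_map, ← Matrix.transpose_mul, h₀, Matrix.transpose_one]⟩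
  exact ⟨X.transpose, Matrix.transpose_injective (by
    rw [Matrix.transpose_mul, Matrix.transpose_transpose, hX, Matrix.transpose_one])⟩

end Inverses

variable {𝒪 : Type} [CommRing 𝒪] [IsDomain 𝒪] [IsDiscreteValuationRing 𝒪]
  [IsAdicComplete (maximalIdeal 𝒪) 𝒪] [Finite (ResidueField 𝒪)]
  {p r : ℕ} {lv : Fin r → ℕ} [hp : Fact p.Prime]

local notation "Sd" => MvPowerSeries (Fin r) 𝒪 ⧸ diamondIdeal (𝒪 := 𝒪) p lv

local notation "augS" =>
  Ideal.Quotient.lift (diamondIdeal (𝒪 := 𝒪) p lv) MvPowerSeries.constantCoeff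
    (diamondIdeal_aug p lv)

omit [IsDomain 𝒪] [IsDiscreteValuationRing 𝒪] [IsAdicComplete (maximalIdeal 𝒪) 𝒪]
  [Finite (ResidueField 𝒪)] hp in
/-- The augmentation detects units. -/
theorem isUnit_of_isUnit_augS (x : Sd) (hx : IsUnit (augS x)) : IsUnit x := by
  obtain ⟨f, rfl⟩ := Ideal.Quotient.mk_surjective x
  rw [Ideal.Quotient.lift_mk] at hx
  exact (MvPowerSeries.isUnit_iff_constantCoeff.mpr hx).map _

omit [IsDomain 𝒪] [IsDiscreteValuationRing 𝒪] [IsAdicComplete (maximalIdeal 𝒪) 𝒪]
  [Finite (ResidueField 𝒪)] hp in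
/-- The augmentation is surjective. -/
theorem surjective_augS : Function.Surjective (augS : Sd → 𝒪) := fun c =>
  ⟨Ideal.Quotient.mk _ (MvPowerSeries.C c), by simp⟩

omit [IsAdicComplete (maximalIdeal 𝒪) 𝒪] [Finite (ResidueField 𝒪)] hp in
/-- The reduction of the augmentation is surjective. -/
theorem surjective_residue_augS :
    Function.Surjective ((residue 𝒪).comp (augS : Sd →+* 𝒪)) :=
  residue_surjective.comp surjective_augS

omit [IsAdicComplete (maximalIdeal 𝒪) 𝒪] [Finite (ResidueField 𝒪)] hp in
/-- The reduction of the augmentation detects units. -/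
theorem isUnit_of_isUnit_residue_augS (x : Sd)
    (hx : IsUnit ((residue 𝒪).comp (augS : Sd →+* 𝒪) x)) : IsUnit x :=
  isUnit_of_isUnit_augS x (isUnit_of_map_unit (residue 𝒪) _ hx)

omit [IsAdicComplete (maximalIdeal 𝒪) 𝒪] [Finite (ResidueField 𝒪)] hp in
/-- A matrix congruent modulo the variables to one with a left inverse has a left inverse. -/
theorem exists_leftInverse_of_augS_eq {m n : Type} [Fintype m] [Fintype n]
    [DecidableEq n] (A A₀ : Matrix m n Sd) (h : A.map augS = A₀.map augS)
    (hA : ∃ X : Matrix n m Sd, X * A₀ = 1) : ∃ X : Matrix n m Sd, X * A = 1 := by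
  obtain ⟨X, hX⟩ := hA
  refine exists_leftInverse_of_map _ surjective_residue_augS isUnit_of_isUnit_residue_augS _
    ⟨X.map ((residue 𝒪).comp augS), ?_⟩
  have e : A.map ((residue 𝒪).comp augS) = A₀.map ((residue 𝒪).comp augS) := by
    rw [RingHom.coe_comp, ← Matrix.map_map, h, Matrix.map_map]
  rw [e, ← Matrix.map_mul, hX, Matrix.map_one _ (map_zero _) (map_one _)]

omit [IsAdicComplete (maximalIdeal 𝒪) 𝒪] [Finite (ResidueField 𝒪)] hp in
/-- A matrix congruent modulo the variables to one with a right inverse has a right inverse. -/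
theorem exists_rightInverse_of_augS_eq {m n : Type} [Fintype m] [Fintype n] [DecidableEq m]
    (A A₀ : Matrix m n Sd) (h : A.map augS = A₀.map augS)
    (hA : ∃ X : Matrix n m Sd, A₀ * X = 1) : ∃ X : Matrix n m Sd, A * X = 1 := by
  obtain ⟨X, hX⟩ := hA
  obtain ⟨Y, hY⟩ := exists_leftInverse_of_augS_eq A.transpose A₀.transpose
    (by rw [Matrix.transpose_map, h, Matrix.transpose_map])
    ⟨X.transpose, by rw [← Matrix.transpose_mul, hX, Matrix.transpose_one]⟩
  exact ⟨Y.transpose, Matrix.transpose_injective (by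
    rw [Matrix.transpose_mul, Matrix.transpose_transpose, hY, Matrix.transpose_one])⟩

end Fermat.Agent.Raising

end
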