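import Fermat.Agent.TW.SelTangent

/-!
# Two conditions at one prime

`finrank_classes_condAt_le`: enlarging the condition at one prime enlarges the classes by at most
as much, so one choice of auxiliary primes serves both.
-/

noncomputable section

namespace Fermat.Agent.Raising

open Fermat.Agent.PT Fermat.Agent.PT.Lv Matrix Module Fermat.Agent.TW

section Mono

variable {k : Type} [Field k] {M : Type} [AddCommGroup M] [Module k M]
  (ρ : Representation k AG M)

/-- Enlarging the condition on a subgroup enlarges the classes by at most as much. -/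
theorem finrank_classes_condAt_le {D : Subgroup AG}
    {L₁ L₂ : Submodule k ((D → M) ⧸ B1 (resRep ρ D))} (hle : L₁ ≤ L₂) [FiniteDimensional k L₂]
    (A : Submodule k (AG → M))
    [FiniteDimensional k (classes ρ (A ⊓ condAt ρ L₁))] {e : ℕ}
    (he : finrank k L₂ ≤ finrank k L₁ + e) :
    FiniteDimensional k (classes ρ (A ⊓ condAt ρ L₂)) ∧
      finrank k (classes ρ (A ⊓ condAt ρ L₂)) ≤ finrank k (classes ρ (A ⊓ condAt ρ L₁)) + e := by
  let res : ((AG → M) ⧸ B1 ρ) →ₗ[k] ((D → M) ⧸ B1 (resRep ρ D)) :=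
    Submodule.mapQ _ _ (resFn D) fun x ⟨m, hm⟩ => ⟨m, by rw [← hm]; rfl⟩
  set V := classes ρ (A ⊓ condAt ρ L₂)
  have hres : ∀ v : V, res v ∈ L₂ := fun v => by
    obtain ⟨x, hx, hxv⟩ := v.2
    rw [← hxv]
    exact hx.2
  let φ : V →ₗ[k] L₂ ⧸ L₁.submoduleOf L₂ :=
    (L₁.submoduleOf L₂).mkQ ∘ₗ (res ∘ₗ V.subtype).codRestrict L₂ hres
  have hker : (LinearMap.ker φ).map V.subtype ≤ classes ρ (A ⊓ condAt ρ L₁) := by
    rintro _ ⟨v, hv, rfl⟩
    have hv' : res v ∈ L₁ := ((Submodule.Quotient.mk_eq_zero (L₁.submoduleOf L₂)).1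
      (LinearMap.mem_ker.1 hv) : (⟨res v, hres v⟩ : L₂) ∈ L₁.submoduleOf L₂)
    obtain ⟨x, hx, hxv⟩ := v.2
    rw [← hxv] at hv'
    exact ⟨x, ⟨hx.1, hv'⟩, hxv⟩
  have hfk : FiniteDimensional k (LinearMap.ker φ) := by
    have := Submodule.finiteDimensional_of_le hker
    exact Module.Finite.equiv (Submodule.equivMapOfInjective _ V.injective_subtype _).symm
  have hfV : FiniteDimensional k V := by
    have : Module.Finite k (V ⧸ LinearMap.ker φ) :=
      Module.Finite.equiv φ.quotKerEquivRange.symm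
    exact Module.Finite.of_submodule_quotient (LinearMap.ker φ)
  refine ⟨hfV, ?_⟩
  have h := φ.finrank_range_add_finrank_ker
  have h1 : finrank k (LinearMap.range φ) ≤ finrank k (L₂ ⧸ L₁.submoduleOf L₂) :=
    Submodule.finrank_le _
  have h2 := (L₁.submoduleOf L₂).finrank_quotient_add_finrank
  rw [(Submodule.submoduleOfEquivOfLe hle).finrank_eq] at h2
  have h3 : finrank k (LinearMap.ker φ) ≤ finrank k (classes ρ (A ⊓ condAt ρ L₁)) := by
    rw [(Submodule.equivMapOfInjective _ V.injective_subtype (LinearMap.ker φ)).finrank_eq]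
    exact Submodule.finrank_mono hker
  omega

end Mono

end Fermat.Agent.Raising
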