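import Fermat.Agent.Raising.LocalKind
import Fermat.Agent.TW.Assembly
import Fermat.Agent.TW.Euler.Main

/-!
# Taylor–Wiles primes and generators for patched raising

Strict conditions at the primes that are raised: the free generators are `D` less the local
invariants there and the defect at `p`, and they generate modulo the coordinates.
-/

noncomputable section

namespace Fermat.Agent.Raising

open IsLocalRing Matrix Module Fermat.Agent.LevelLowering Fermat.Agent.Gal Fermat.Agent.TW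
  Fermat.Agent.PT Fermat.Agent.PT.Lv

variable {𝒪 : Type} [CommRing 𝒪] [IsDomain 𝒪] [IsDiscreteValuationRing 𝒪]
  [IsAdicComplete (maximalIdeal 𝒪) 𝒪] {p : ℕ} [Fact p.Prime]
  {ρbar : ResidualGaloisRep (ResidueField 𝒪)} {bbar : Basis (Fin 2) (ResidueField 𝒪) ρbar.V}
  {m : ℕ}

/-- The raised primes. -/
def raisedSet (P : Fin m → RaisedPrime p ρbar bbar) : Finset Nat.Primes :=
  Finset.univ.image fun i => (⟨(P i).q, (P i).prime⟩ : Nat.Primes)

omit [IsAdicComplete (maximalIdeal 𝒪) 𝒪] in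
/-- The prime `p` is not raised. -/
theorem pP_notMem_raisedSet (P : Fin m → RaisedPrime p ρbar bbar) : pP p ∉ raisedSet P := by
  intro h
  obtain ⟨i, -, hi⟩ := Finset.mem_image.1 h
  exact (P i).ne_p (congrArg Subtype.val hi)

/-- The parameters of the local components are covered by the local invariants. -/
theorem sum_w_le_strictDeficit (P : Fin m → RaisedPrime p ρbar bbar)
    (hP : Function.Injective fun i => (P i).q) (K : ∀ i, LocalKind (P i)) :
    ∑ i, (K i).B.w ≤ strictDeficit (rbar bbar) (raisedSet P) := by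
  refine le_of_le_of_eq (Finset.sum_le_sum fun i _ => (K i).w_le) (Eq.symm ?_)
  exact Finset.sum_image (g := fun i : Fin m => (⟨(P i).q, (P i).prime⟩ : Nat.Primes))
    (s := Finset.univ) fun a _ b _ h => hP (congrArg Subtype.val h)

variable [Finite (ResidueField 𝒪)] [CharP (ResidueField 𝒪) p]

/-- **Taylor–Wiles primes** for strict conditions at the raised primes and defect `e` at `p`. -/
theorem exists_raiseTWPrimes (hp2 : p ≠ 2) (habs : ρbar.IsAbsolutelyIrreducible)
    (hdet : DetCyc p (rbar bbar))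
    (hsplit : ∀ σ : AG, ∃ α β : ResidueField 𝒪, LinearMap.charpoly (ρbar.ρ σ) =
      (Polynomial.X - Polynomial.C α) * (Polynomial.X - Polynomial.C β))
    (hTW : ∀ (K : Type) [Field K] [Algebra (ResidueField 𝒪) K] (G : Subgroup AG), G.index = 2 →
      ∀ V : Submodule K (ρbar.baseChange K).V,
        (∀ σ ∈ G, ∀ x ∈ V, (ρbar.baseChange K).ρ σ x ∈ V) → V = ⊥ ∨ V = ⊤)
    (P : Fin m → RaisedPrime p ρbar bbar) (hP : Function.Injective fun i => (P i).q)
    (K : ∀ i, LocalKind (P i))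
    (L : Submodule (ResidueField 𝒪) ((decQ ((pP p : Nat.Primes) : ℕ) → sl2 (ResidueField 𝒪)) ⧸
      B1 (resRep (adRep (rbar bbar)) (decQ ((pP p : Nat.Primes) : ℕ)))))
    (hLfin : FiniteDimensional (ResidueField 𝒪) L) (e : ℕ)
    (hL : finrank (ResidueField 𝒪) L + e ≤ finrank (ResidueField 𝒪) (Representation.invariants
      (resRep (adRep (rbar bbar)) (decQ ((pP p : Nat.Primes) : ℕ)))) + 1)
    (S : Finset ℕ) :
    ∃ g D : ℕ, (∑ i, (K i).B.w) + (e + g) ≤ D ∧ ∀ n : ℕ, ∃ qv : Fin D → ℕ,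
      Function.Injective qv ∧
      (∀ i, (qv i).Prime ∧ qv i ∉ S ∧ p ^ (n + 1) ∣ qv i - 1) ∧
      (∀ i, ∀ A : ValuationSubring (AlgebraicClosure ℚ), A.LiesOverPrime (qv i) →
        ∀ φ : AG, A.IsFrobeniusAt φ (qv i) →
          (∃ α β : ResidueField 𝒪, α ≠ β ∧ LinearMap.charpoly (ρbar.ρ φ) =
            (Polynomial.X - Polynomial.C α) * (Polynomial.X - Polynomial.C β)) ∧
          det (rbar bbar φ) = 1) ∧
      FiniteDimensional (ResidueField 𝒪) (classes (adRep (rbar bbar))
        (strictSpace p (rbar bbar) (raisedSet P) (condAt (adRep (rbar bbar)) L) qv)) ∧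
      finrank (ResidueField 𝒪) (classes (adRep (rbar bbar))
        (strictSpace p (rbar bbar) (raisedSet P) (condAt (adRep (rbar bbar)) L) qv)) ≤ g := by
  let : Algebra (ZMod p) (ResidueField 𝒪) := ZMod.algebra _ p
  have hbig := bigImage_of_hyps bbar habs hTW
  have hle := locSpace_condAt_le (adRep (rbar bbar)) (pP p) L
  obtain ⟨D, hD⟩ := exists_auxiliaryPrimes_strictAt (selects_true hp2 hbig hdet)
    (Euler.eulerFormula (p := p) hp2) hp2 hbig (finiteLevel_matrixRep bbar) hdet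
    (exists_nonsquare_det hp2 hdet) (raisedSet P) (pP_notMem_raisedSet P)
    (condAt (adRep (rbar bbar)) L) (Submodule.finiteDimensional_of_le hle) e
    ((Nat.add_le_add_right (Submodule.finrank_mono hle) e).trans hL)
  have hDm : strictDeficit (rbar bbar) (raisedSet P) + e ≤ D := by
    have : NeZero p := ⟨(Fact.out : p.Prime).ne_zero⟩
    obtain ⟨qv, -, -, -, -, h⟩ := hD p dvd_rfl ∅
    exact le_trans (Nat.le_add_left _ _) h
  refine ⟨D - (strictDeficit (rbar bbar) (raisedSet P) + e), D, ?_, fun n => ?_⟩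
  · have := sum_w_le_strictDeficit P hP K
    omega
  have : NeZero (p ^ (n + 1)) := ⟨pow_ne_zero _ (Fact.out : p.Prime).ne_zero⟩
  obtain ⟨qv, hinj, hq, -, hfin, hbound⟩ := hD (p ^ (n + 1)) (dvd_pow_self p n.succ_ne_zero) S
  exact ⟨qv, hinj, fun i => ⟨(hq i).2.1, (hq i).1, (hq i).2.2.1⟩,
    fun i A hA φ hφ => ⟨exists_ne_roots bbar hsplit ((hq i).2.2.2.2 A hA φ hφ),
      ((hq i).2.2.2.2 A hA φ hφ).2⟩, hfin, Nat.le_sub_of_add_le hbound⟩

section Gens

variable {T : Type} [CommRing T] [IsLocalRing T] [IsNoetherianRing T] [Algebra 𝒪 T]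
  [IsAdicComplete (maximalIdeal T) T] [IsLocalHom (algebraMap 𝒪 T)]
  {hres : Function.Surjective (residue T ∘ algebraMap 𝒪 T)} {ρ : GaloisRepAdic T}
  {b : Basis (Fin 2) T ρ.V}

omit [Finite (ResidueField 𝒪)] in
/-- **Generators modulo the coordinates** of a ring generated by traces. -/
theorem exists_raiseGens (hb : Adapted bbar hres ρ b) (hdet : ρ.DetIsCyclotomic p) (hp2 : p ≠ 2)
    (P : Fin m → RaisedPrime p ρbar bbar) (K : ∀ i, LocalKind (P i))
    (Cp : Submodule (ResidueField 𝒪) (AG → sl2 (ResidueField 𝒪))) {h : ℕ} (extra : Fin h → T)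
    (hextra : ∀ j, extra j ∈ maximalIdeal T)
    (hcoord : ∀ i c, (K i).coord T (matrixRep b ρ.ρ (P i).φ) (matrixRep b ρ.ρ (P i).σ - 1) c ∈
      maximalIdeal T)
    {D : ℕ} (qv : Fin D → ℕ)
    (hU : ∀ q : ℕ, q.Prime → q ∉ insert p (natSet (raisedSet P) ∪ Finset.univ.image qv) →
      ρ.IsUnramifiedAt q ∨ (ρ.IsUnipotentOnInertiaAt q ∧ ¬ ρbar.IsUnramifiedAt q))
    (hCp : ∀ δ : tangent hres, (∀ j, (δ : T → ResidueField 𝒪) (extra j) = 0) →
      tanCocycle hb hdet δ ∈ Cp)
    {S : Set T} (hS : ∀ s ∈ S, ∃ g, s = trace (matrixRep b ρ.ρ g))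
    (hgen : Algebra.adjoin 𝒪 S = ⊤)
    (hfin : FiniteDimensional (ResidueField 𝒪) (classes (adRep (rbar bbar))
      (strictSpace p (rbar bbar) (raisedSet P) Cp qv)))
    {g : ℕ} (hg : finrank (ResidueField 𝒪) (classes (adRep (rbar bbar))
      (strictSpace p (rbar bbar) (raisedSet P) Cp qv)) ≤ g) :
    ∃ y : Fin g → T, (∀ j, y j ∈ maximalIdeal T) ∧
      maximalIdeal T ≤ relIdeal (𝒪 := 𝒪) (blockTuple
        (fun i => (K i).coord T (matrixRep b ρ.ρ (P i).φ) (matrixRep b ρ.ρ (P i).σ - 1)) extra) ⊔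
          Ideal.span (Set.range y) := by
  refine Scalar.exists_gens hb hdet _ (blockTuple_mem hcoord hextra) hS hgen _ (fun δ hδ => ?_) hg
  refine ⟨tanCocycle_mem_selCocycles hb hdet hp2 (Finset.mem_insert_self _ _) hU δ,
    hCp δ fun j => ?_, (Submodule.mem_iInf _).2 fun r => (Submodule.mem_iInf _).2 fun hr => ?_⟩
  · have hj := hδ (varIdx (.inr j))
    rwa [blockTuple_inr] at hj
  · obtain ⟨i, -, rfl⟩ := Finset.mem_image.1 hr
    refine (K i).tangent_zero T hres ρ b hb hdet δ fun c => ?_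
    have hc := hδ (varIdx (.inl ⟨i, c⟩))
    rwa [blockTuple_inl] at hc

end Gens

end Fermat.Agent.Raising
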