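import Mathlib.Algebra.Module.Torsion.Free
import Mathlib.LinearAlgebra.Matrix.Charpoly.LinearMap
import Mathlib.RingTheory.Ideal.MinimalPrime.Localization
import Mathlib.Tactic.Module
import Fermat.Agent.LevelLowering.Dimension

/-!
# Patched Ihara: moving a component up one level

`M'`, `M''` are finite modules over a domain `S` with actions of a ring `R`, the scalars of `S`
coming from a ring `R''` over `R`.  `i : M'² → M''`, `j : M'' → M'²` are `R`-linear, `i` has
saturated image, `j` is surjective and `j ∘ i` is a matrix with determinant `f`.  If the cokernel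
of `i` is supported on finitely many components of dimension at most `dim S`, and a prime of the
support of `M'` contains `f` and avoids all components but one, then that component is in the
support of `M''`.
-/

noncomputable section

namespace Fermat.Agent.Raising

open Fermat.Agent.LevelLowering

section Support

variable {S R M : Type} [CommRing S] [CommRing R] [AddCommGroup M] [Module S M]
  (ρ : R →+* Module.End S M)

/-- An element moving a finite module into `Q • M` lies in a prime `Q` of the support. -/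
theorem mem_prime_of_forall_exists [Module.Finite S M]
    (hscal : ∀ s : S, ∃ r, ρ r = algebraMap S (Module.End S M) s)
    {Q : Ideal R} [Q.IsPrime] (hQ : RingHom.ker ρ ≤ Q) {z : R} {n : ℕ} (w : Fin n → R)
    (hw : ∀ k, w k ∈ Q) (hz : ∀ m, ∃ u : Fin n → M, ρ z m = ∑ k, ρ (w k) (u k)) : z ∈ Q := by
  let : Module R M := Module.compHom M ρ
  have hsmul : ∀ (r : R) (m : M), r • m = ρ r m := fun _ _ => rfl
  have : Module.Finite R M := by
    obtain ⟨t, ht⟩ := (inferInstance : Module.Finite S M).fg_top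
    refine ⟨⟨t, eq_top_iff.mpr fun x _ => ?_⟩⟩
    have hx : x ∈ Submodule.span S (t : Set M) := ht.symm ▸ Submodule.mem_top
    induction hx using Submodule.span_induction with
    | mem y hy => exact Submodule.subset_span hy
    | zero => exact zero_mem _
    | add y y' _ _ hy hy' => exact add_mem (hy trivial) (hy' trivial)
    | smul s y _ hy =>
      obtain ⟨r, hr⟩ := hscal s
      have : s • y = r • y := by rw [hsmul, hr, Module.algebraMap_end_apply]
      rw [this]
      exact Submodule.smul_mem _ r (hy trivial)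
  obtain ⟨p, hp, -, hcoeff, hp0⟩ :=
    LinearMap.exists_monic_and_natDegree_eq_and_coeff_mem_pow_and_aeval_eq_zero R
      (algebraMap R (Module.End R M) z) Q (by
        rintro _ ⟨m, rfl⟩
        obtain ⟨u, hu⟩ := hz m
        rw [Module.algebraMap_end_apply, hsmul, hu]
        exact sum_mem fun k _ => Submodule.smul_mem_smul (hw k) Submodule.mem_top)
  have hann : p.eval z ∈ RingHom.ker ρ := by
    rw [Polynomial.aeval_algebraMap_apply, Polynomial.coe_aeval_eq_eval] at hp0
    refine RingHom.mem_ker.mpr (LinearMap.ext fun m => ?_)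
    exact LinearMap.congr_fun hp0 m
  have hmem := hQ hann
  rw [Polynomial.eval_eq_sum_range, Finset.sum_range_succ, hp.coeff_natDegree, one_mul] at hmem
  refine Ideal.IsPrime.mem_of_pow_mem ‹Q.IsPrime› p.natDegree ?_
  refine (Q.add_mem_iff_right (sum_mem fun k hk => Q.mul_mem_right _ ?_)).mp hmem
  exact Ideal.pow_le_self (by have := Finset.mem_range.mp hk; omega) (hcoeff k)

/-- An element moving `M²` into the image of a matrix with determinant in `Q` lies in `Q`. -/
theorem mem_prime_of_matrix [Module.Finite S M]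
    (hscal : ∀ s : S, ∃ r, ρ r = algebraMap S (Module.End S M) s)
    {Q : Ideal R} [Q.IsPrime] (hQ : RingHom.ker ρ ≤ Q) {t a b c e : R} (hf : a * e - b * c ∈ Q)
    (ht : ∀ x y : M, ∃ u v : M, ρ t x = ρ a u + ρ b v ∧ ρ t y = ρ c u + ρ e v) : t ∈ Q := by
  let : Module R M := Module.compHom M ρ
  have key : ∀ z : R, (∀ m : M, ∃ u : M, z • m = (a * e - b * c) • u) → z ∈ Q := fun z hz =>
    mem_prime_of_forall_exists ρ hscal hQ (fun _ : Fin 1 => a * e - b * c) (fun _ => hf) fun m => by
      obtain ⟨u, hu⟩ := hz m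
      exact ⟨fun _ => u, by rw [Fin.sum_univ_one]; exact hu⟩
  have ht' : ∀ x y : M, ∃ u v : M, t • x = a • u + b • v ∧ t • y = c • u + e • v := ht
  have key' : ∀ r : R, r * t ∈ Q → r ∈ Q ∨ t ∈ Q := fun r h =>
    Ideal.IsPrime.mem_or_mem ‹Q.IsPrime› h
  have hb : b * t ∈ Q := key _ fun m => by
    obtain ⟨u, v, h1, h2⟩ := ht' 0 m
    rw [smul_zero] at h1
    refine ⟨-u, ?_⟩
    have : (b * t) • m = b • (t • m) - e • (a • u + b • v) := by
      rw [← h1, smul_zero, sub_zero, mul_smul]
    rw [this, h2]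
    module
  have ha : a * t ∈ Q := key _ fun m => by
    obtain ⟨u, v, h1, h2⟩ := ht' 0 m
    rw [smul_zero] at h1
    refine ⟨v, ?_⟩
    have : (a * t) • m = a • (t • m) - c • (a • u + b • v) := by
      rw [← h1, smul_zero, sub_zero, mul_smul]
    rw [this, h2]
    module
  by_contra htQ
  refine htQ (mem_prime_of_forall_exists ρ hscal hQ ![a, b] ?_ fun m => ?_)
  · intro k
    fin_cases k
    · exact (key' a ha).resolve_right htQ
    · exact (key' b hb).resolve_right htQ
  · obtain ⟨u, v, h1, -⟩ := ht m 0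
    exact ⟨![u, v], by simpa [Fin.sum_univ_two] using h1⟩

end Support

section Components

variable {S R : Type} [CommRing S] [CommRing R]

/-- **A minimal prime of the image of a ring acting faithfully on a finite torsion-free module
containing the scalars has full dimension.** -/
theorem dim_le_of_minimal [IsDomain S] {M : Type} [AddCommGroup M] [Module S M] [Module.Finite S M]
    [Module.IsTorsionFree S M] (κ : R →+* Module.End S M)
    (hscal : ∀ s : S, ∃ r, κ r = algebraMap S (Module.End S M) s)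
    {P : Ideal R} (hP : P ∈ (RingHom.ker κ).minimalPrimes) :
    ringKrullDim S ≤ ringKrullDim (R ⧸ P) := by
  obtain ⟨P', hP', rfl⟩ : ∃ P' ∈ minimalPrimes (R ⧸ RingHom.ker κ),
      P'.comap (Ideal.Quotient.mk _) = P := by
    rw [Ideal.minimalPrimes_eq_comap] at hP
    simpa using hP
  choose σ hσ using hscal
  have hinj' := RingHom.kerLift_injective κ
  let ι : S →+* R ⧸ RingHom.ker κ :=
    { toFun := fun s => Ideal.Quotient.mk _ (σ s)
      map_one' := hinj' (by simp [RingHom.kerLift_mk, hσ])
      map_zero' := hinj' (by simp [RingHom.kerLift_mk, hσ])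
      map_mul' := fun a b => hinj' (by simp [RingHom.kerLift_mk, hσ, map_mul])
      map_add' := fun a b => hinj' (by simp [RingHom.kerLift_mk, hσ, map_add]) }
  have hι : ∀ s, RingHom.kerLift κ (ι s) = algebraMap S (Module.End S M) s := fun s =>
    (RingHom.kerLift_mk κ (σ s)).trans (hσ s)
  have hint : ∀ x, ι.IsIntegralElem x := fun x => by
    obtain ⟨p, hp, hp0⟩ := LinearMap.exists_monic_and_aeval_eq_zero S (RingHom.kerLift κ x)
    refine ⟨p, hp, hinj' ?_⟩
    rw [map_zero, Polynomial.hom_eval₂,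
      show (RingHom.kerLift κ).comp ι = algebraMap S (Module.End S M) from RingHom.ext hι]
    exact hp0
  have hbot : P'.comap ι = ⊥ := by
    refine eq_bot_iff.mpr fun s hs => ?_
    by_contra hs0
    refine Set.disjoint_left.mp (Ideal.disjoint_nonZeroDivisors_of_mem_minimalPrimes hP') hs ?_
    refine mem_nonZeroDivisors_iff.mpr ?_
    constructor <;> intro x hx <;> refine hinj' ?_ <;> ext m
    all_goals
      rw [map_zero, LinearMap.zero_apply]
      have h2 : s • RingHom.kerLift κ x m = 0 := by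
        have h3 := congrArg (fun r => RingHom.kerLift κ r m) hx
        simpa [map_mul, hι, Module.algebraMap_end_apply, mul_comm x (ι s),
          Module.End.mul_apply, map_smul] using h3
      exact (smul_eq_zero.mp h2).resolve_left hs0
  have : P'.IsPrime := hP'.1.1
  let ι' : S →+* (R ⧸ RingHom.ker κ) ⧸ P' := (Ideal.Quotient.mk P').comp ι
  have hint' : ι'.IsIntegral := RingHom.IsIntegral.trans ι (Ideal.Quotient.mk P') hint
    (RingHom.isIntegral_of_surjective _ Ideal.Quotient.mk_surjective)
  algebraize [ι']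
  have hinj : Function.Injective (algebraMap S ((R ⧸ RingHom.ker κ) ⧸ P')) := by
    rw [RingHom.injective_iff_ker_eq_bot, RingHom.algebraMap_toAlgebra, ← hbot,
      ← RingHom.comap_ker, Ideal.mk_ker]
  refine (ringKrullDim_le_of_integral_injective hinj).trans ?_
  refine ringKrullDim_le_of_surjective (Ideal.Quotient.lift _
    ((Ideal.Quotient.mk P').comp (Ideal.Quotient.mk _)) fun x hx => by
      rw [RingHom.comp_apply, Ideal.Quotient.eq_zero_iff_mem]; exact hx) ?_
  exact Ideal.Quotient.lift_surjective_of_surjective _ _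
    (Ideal.Quotient.mk_surjective.comp Ideal.Quotient.mk_surjective)

variable {R'' M' M'' : Type} [CommRing R''] [AddCommGroup M'] [Module S M'] [AddCommGroup M'']
  [Module S M'']

/-- **Patched Ihara, the component step**: a component of the new part that the others avoid at
`Q` lies in the support of the upper module. -/
theorem component_mem_support [IsDomain S] [Module.Finite S M'] [Module.Finite S M'']
    (ρ' : R →+* Module.End S M') (ρ'' : R →+* Module.End S M'')
    (hscal' : ∀ s : S, ∃ r, ρ' r = algebraMap S (Module.End S M') s)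
    (ψ : R'' →+* R) (hscal : ∀ s : S, ∃ r, ρ'' (ψ r) = algebraMap S (Module.End S M'') s)
    (i : M' × M' →ₗ[S] M'') (hi : ∀ r x y, i (ρ' r x, ρ' r y) = ρ'' r (i (x, y)))
    (hsat : ∀ s : S, s ≠ 0 → ∀ x, s • x ∈ LinearMap.range i → x ∈ LinearMap.range i)
    (j : M'' →ₗ[S] M' × M') (hj : ∀ r x, j (ρ'' r x) = (ρ' r (j x).1, ρ' r (j x).2))
    (hjsurj : Function.Surjective j) (a b c e : R)
    (hji : ∀ x y, j (i (x, y)) = (ρ' a x + ρ' b y, ρ' c x + ρ' e y))
    {n : ℕ} (hS : (n : WithBot ℕ∞) ≤ ringKrullDim S)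
    {ι : Type} [Fintype ι] (P : ι → Ideal R'') (hP : ∀ k, (P k).IsPrime)
    (hdim : ∀ k, ringKrullDim (R'' ⧸ P k) ≤ (n : WithBot ℕ∞))
    (hkill : ∀ t, (∀ k, t ∈ P k) → ∀ x, ρ'' (ψ t) x ∈ LinearMap.range i)
    (Q : Ideal R) [Q.IsPrime] (hQ : RingHom.ker ρ' ≤ Q) (hf : a * e - b * c ∈ Q)
    (k₀ : ι) (hsep : ∀ k, k ≠ k₀ → ∃ m ∈ P k, ψ m ∉ Q) :
    RingHom.ker (ρ''.comp ψ) ≤ P k₀ := by
  classical
  let N : Submodule S M'' := LinearMap.range i
  have : Module.IsTorsionFree S (M'' ⧸ N) := by
    refine .of_smul_eq_zero fun s x hx => ?_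
    by_contra h
    push Not at h
    obtain ⟨x, rfl⟩ := N.mkQ_surjective x
    rw [← map_smul, Submodule.mkQ_apply, Submodule.Quotient.mk_eq_zero] at hx
    exact h.2 ((Submodule.Quotient.mk_eq_zero N).mpr (hsat s h.1 x hx))
  have hstab : ∀ r, N ≤ N.comap (ρ'' r) := by
    rintro r _ ⟨⟨x, y⟩, rfl⟩
    exact ⟨(ρ' r x, ρ' r y), hi r x y⟩
  let ρC : R →+* Module.End S (M'' ⧸ N) :=
    { toFun := fun r => N.mapQ N (ρ'' r) (hstab r)
      map_one' := Submodule.linearMap_qext _ (LinearMap.ext fun x => by simp)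
      map_zero' := Submodule.linearMap_qext _ (LinearMap.ext fun x => by simp)
      map_mul' := fun r s => Submodule.linearMap_qext _ (LinearMap.ext fun x => by simp)
      map_add' := fun r s => Submodule.linearMap_qext _ (LinearMap.ext fun x => by simp) }
  have hρC : ∀ r x, ρC r (N.mkQ x) = N.mkQ (ρ'' r x) := fun _ _ => rfl
  -- the kernel of the action on the cokernel lies in `Q`
  have hker : RingHom.ker ρC ≤ Q := by
    intro t ht
    refine mem_prime_of_matrix ρ' hscal' hQ hf fun x y => ?_
    obtain ⟨z, hz⟩ := hjsurj (x, y)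
    have h1 : ρ'' t z ∈ N := (Submodule.Quotient.mk_eq_zero N).mp
      ((hρC t z).symm.trans (LinearMap.congr_fun (RingHom.mem_ker.mp ht) _))
    obtain ⟨⟨u, v⟩, huv⟩ := h1
    refine ⟨u, v, ?_⟩
    have h2 := hj t z
    rw [← huv, hji, hz] at h2
    exact ⟨(congrArg Prod.fst h2).symm, (congrArg Prod.snd h2).symm⟩
  let κ : R'' →+* Module.End S (M'' ⧸ N) := ρC.comp ψ
  have hκQ : RingHom.ker κ ≤ Q.comap ψ := fun t ht => hker (RingHom.mem_ker.mpr ht)
  obtain ⟨P₁, hP₁, hP₁Q⟩ := Ideal.exists_minimalPrimes_le hκQ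
  have hP₁prime : P₁.IsPrime := hP₁.1.1
  obtain ⟨k, hk⟩ : ∃ k, P k ≤ P₁ := by
    have hinf : Finset.univ.inf P ≤ P₁ := fun t ht => hP₁.1.2 <| RingHom.mem_ker.mpr <|
      Submodule.linearMap_qext _ <| LinearMap.ext fun x => by
        simp only [Finset.inf_eq_iInf, Finset.mem_univ, iInf_pos, Submodule.mem_iInf] at ht
        exact (Submodule.Quotient.mk_eq_zero N).mpr (hkill t ht x)
    obtain ⟨k, -, hk⟩ := hP₁prime.inf_le'.mp hinf
    exact ⟨k, hk⟩
  have hscalC : ∀ s : S, ∃ r, κ r = algebraMap S (Module.End S (M'' ⧸ N)) s := fun s => by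
    obtain ⟨r, hr⟩ := hscal s
    refine ⟨r, Submodule.linearMap_qext _ (LinearMap.ext fun x => ?_)⟩
    show N.mkQ (ρ'' (ψ r) x) = _
    rw [hr, Module.algebraMap_end_apply, map_smul]
    rfl
  have hbig := dim_le_of_minimal κ hscalC hP₁
  have hkP₁ : P k = P₁ := by
    refine le_antisymm hk fun t ht => ?_
    by_contra htk
    have := hP k
    have hne : P₁.map (Ideal.Quotient.mk (P k)) ≠ ⊥ := fun h0 => htk <|
      Ideal.Quotient.eq_zero_iff_mem.mp (Ideal.mem_bot.mp (h0 ▸ Ideal.mem_map_of_mem _ ht))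
    have h1 := (ringKrullDim_quotient_succ_le_of_ne_bot hne).trans (hdim k)
    have h2 : ringKrullDim (R'' ⧸ P₁) ≤
        ringKrullDim ((R'' ⧸ P k) ⧸ P₁.map (Ideal.Quotient.mk (P k))) :=
      (ringKrullDim_eq_of_ringEquiv (DoubleQuot.quotQuotEquivQuotOfLE hk)).ge
    have h3 := (add_le_add_left (hS.trans (hbig.trans h2)) 1).trans h1
    revert h3
    rw [show ((n : WithBot ℕ∞) + 1) = ((n + 1 : ℕ) : WithBot ℕ∞) by push_cast; rfl]
    intro h3
    have : n + 1 ≤ n := by exact_mod_cast h3
    omega
  have hk0 : k = k₀ := by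
    by_contra hne
    obtain ⟨m, hm, hmQ⟩ := hsep k hne
    exact hmQ (hP₁Q (hk hm))
  intro t ht
  rw [← hk0, hkP₁]
  refine hP₁.1.2 (RingHom.mem_ker.mpr (Submodule.linearMap_qext _ (LinearMap.ext fun x => ?_)))
  show N.mkQ (ρ'' (ψ t) x) = 0
  rw [show ρ'' (ψ t) = 0 from RingHom.mem_ker.mp ht, LinearMap.zero_apply, map_zero]

end Components

end Fermat.Agent.Raising
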