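import Fermat.Agent.LevelLowering.PatchedMatrix

/-!
# The limit of a sequence in `O⟦X⟧ / J_n`

For ideals `J_n` eventually below every truncation, the limit along the patching ultrafilter is a
ring homomorphism `∏ O⟦X⟧ / J_n → O⟦X⟧`.  Applied entrywise it patches any linear map, and it
agrees with the patched action.
-/

noncomputable section

namespace Fermat.Agent.Raising

open Filter IsLocalRing Fermat.Agent.LevelLowering

local notation "PS" => MvPowerSeries

variable {𝒪 : Type} [CommRing 𝒪] [IsDomain 𝒪] [IsDiscreteValuationRing 𝒪]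
  [IsAdicComplete (maximalIdeal 𝒪) 𝒪] [Finite (ResidueField 𝒪)] {D : ℕ}

section Seq

variable (J : ℕ → Ideal (PS (Fin D) 𝒪)) (hJ : ∀ k, ∀ᶠ n in atTop, J n ≤ trunc 𝒪 D k)

open Classical in
/-- The `n`-th term at truncation `k`. -/
def seqTerm (k n : ℕ) (x : ∀ n, PS (Fin D) 𝒪 ⧸ J n) : PS (Fin D) 𝒪 ⧸ trunc 𝒪 D k :=
  if h : J n ≤ trunc 𝒪 D k then Ideal.Quotient.factor h (x n) else 0

/-- The limit at truncation `k`. -/
def seqLimTrunc (k : ℕ) (x : ∀ n, PS (Fin D) 𝒪 ⧸ J n) : PS (Fin D) 𝒪 ⧸ trunc 𝒪 D k :=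
  uval fun n => seqTerm J k n x

omit [IsAdicComplete (maximalIdeal 𝒪) 𝒪] in
include hJ in
/-- The limit modulo a truncation is almost everywhere the term itself. -/
theorem eventually_seqLimTrunc (k : ℕ) (x : ∀ n, PS (Fin D) 𝒪 ⧸ J n) :
    ∀ᶠ n in (patchUltra : Filter ℕ), ∃ h : J n ≤ trunc 𝒪 D k,
      seqLimTrunc J k x = Ideal.Quotient.factor h (x n) := by
  filter_upwards [uval_spec fun n => seqTerm J k n x, eventually_patchUltra_of_atTop (hJ k)]
    with n hn h
  exact ⟨h, by rw [seqLimTrunc, ← hn, seqTerm, dif_pos h]⟩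

include hJ in
/-- The limits at the truncations come from one series. -/
theorem exists_seqLim (x : ∀ n, PS (Fin D) 𝒪 ⧸ J n) :
    ∃ s : PS (Fin D) 𝒪, ∀ k, Ideal.Quotient.mk (trunc 𝒪 D k) s = seqLimTrunc J k x := by
  obtain ⟨s, hs⟩ := exists_glue 𝒪 D (fun k => Quotient.out (seqLimTrunc J k x)) fun {k l} hkl => by
    rw [← Ideal.Quotient.eq, Ideal.Quotient.mk_out]
    obtain ⟨n, ⟨hl, h1⟩, hk, h2⟩ :=
      ((eventually_seqLimTrunc J hJ l x).and (eventually_seqLimTrunc J hJ k x)).exists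
    obtain ⟨y, hy⟩ := Ideal.Quotient.mk_surjective (x n)
    rw [h2, ← hy, Ideal.Quotient.factor_mk]
    rw [← hy, Ideal.Quotient.factor_mk] at h1
    have h3 : Quotient.out (seqLimTrunc J l x) - y ∈ trunc 𝒪 D l := by
      rw [← Ideal.Quotient.eq, Ideal.Quotient.mk_out, h1]
    rw [Ideal.Quotient.eq]
    have := neg_mem (trunc_antitone 𝒪 D hkl h3)
    rwa [neg_sub] at this
  exact ⟨s, fun k => (Ideal.Quotient.eq.mpr (hs k)).trans (Ideal.Quotient.mk_out _)⟩

omit [IsAdicComplete (maximalIdeal 𝒪) 𝒪] [Finite (ResidueField 𝒪)] in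
/-- Series equal modulo all truncations are equal. -/
theorem eq_of_mk_trunc {s t : PS (Fin D) 𝒪}
    (h : ∀ k, Ideal.Quotient.mk (trunc 𝒪 D k) s = Ideal.Quotient.mk (trunc 𝒪 D k) t) : s = t :=
  sub_eq_zero.mp (eq_zero_of_mem_trunc 𝒪 D fun k => Ideal.Quotient.eq.mp (h k))

/-- **The limit of a sequence.** -/
def seqLim : (∀ n, PS (Fin D) 𝒪 ⧸ J n) →+* PS (Fin D) 𝒪 where
  toFun x := (exists_seqLim J hJ x).choose
  map_one' := eq_of_mk_trunc fun k => by
    obtain ⟨n, h, hn⟩ := (eventually_seqLimTrunc J hJ k 1).exists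
    rw [(exists_seqLim J hJ 1).choose_spec k, hn, Pi.one_apply, map_one, map_one]
  map_zero' := eq_of_mk_trunc fun k => by
    obtain ⟨n, h, hn⟩ := (eventually_seqLimTrunc J hJ k 0).exists
    rw [(exists_seqLim J hJ 0).choose_spec k, hn, Pi.zero_apply, map_zero, map_zero]
  map_add' x y := eq_of_mk_trunc fun k => by
    obtain ⟨n, ⟨h, h1⟩, ⟨_, h2⟩, _, h3⟩ := ((eventually_seqLimTrunc J hJ k (x + y)).and
      ((eventually_seqLimTrunc J hJ k x).and (eventually_seqLimTrunc J hJ k y))).exists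
    rw [(exists_seqLim J hJ _).choose_spec k, map_add, (exists_seqLim J hJ _).choose_spec k,
      (exists_seqLim J hJ _).choose_spec k, h1, h2, h3, Pi.add_apply, map_add]
  map_mul' x y := eq_of_mk_trunc fun k => by
    obtain ⟨n, ⟨h, h1⟩, ⟨_, h2⟩, _, h3⟩ := ((eventually_seqLimTrunc J hJ k (x * y)).and
      ((eventually_seqLimTrunc J hJ k x).and (eventually_seqLimTrunc J hJ k y))).exists
    rw [(exists_seqLim J hJ _).choose_spec k, map_mul, (exists_seqLim J hJ _).choose_spec k,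
      (exists_seqLim J hJ _).choose_spec k, h1, h2, h3, Pi.mul_apply, map_mul]

/-- The limit reduces to the limit modulo each truncation. -/
theorem mk_seqLim (k : ℕ) (x : ∀ n, PS (Fin D) 𝒪 ⧸ J n) :
    Ideal.Quotient.mk (trunc 𝒪 D k) (seqLim J hJ x) = seqLimTrunc J k x :=
  (exists_seqLim J hJ x).choose_spec k

/-- The limit agrees with the sequence at almost all indices, at each truncation. -/
theorem eventually_seqLim (k : ℕ) (x : ∀ n, PS (Fin D) 𝒪 ⧸ J n) :
    ∀ᶠ n in (patchUltra : Filter ℕ), ∃ h : J n ≤ trunc 𝒪 D k,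
      Ideal.Quotient.mk (trunc 𝒪 D k) (seqLim J hJ x) = Ideal.Quotient.factor h (x n) := by
  simp only [mk_seqLim]
  exact eventually_seqLimTrunc J hJ k x

/-- A constant sequence converges to itself. -/
theorem seqLim_const (s : PS (Fin D) 𝒪) :
    seqLim J hJ (fun n => Ideal.Quotient.mk (J n) s) = s := eq_of_mk_trunc fun k => by
  obtain ⟨n, h, hn⟩ := (eventually_seqLim J hJ k _).exists
  rw [hn, Ideal.Quotient.factor_mk]

/-- The entrywise limit of matrices. -/
def matLim {m l : Type} (X : ∀ n, Matrix m l (PS (Fin D) 𝒪 ⧸ J n)) : Matrix m l (PS (Fin D) 𝒪) :=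
  Matrix.of fun a b => seqLim J hJ fun n => X n a b

/-- The limit of matrices is multiplicative. -/
theorem matLim_mul {m l r : Type} [Fintype l] (X : ∀ n, Matrix m l (PS (Fin D) 𝒪 ⧸ J n))
    (Y : ∀ n, Matrix l r (PS (Fin D) 𝒪 ⧸ J n)) :
    matLim J hJ (fun n => X n * Y n) = matLim J hJ X * matLim J hJ Y := by
  ext a b : 1
  simp only [matLim, Matrix.of_apply, Matrix.mul_apply, ← map_mul, ← map_sum]
  congr 1
  funext n
  rw [Finset.sum_apply]
  rfl

/-- A constant sequence of matrices has that constant as its limit. -/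
theorem matLim_map_const {m l : Type} (X : Matrix m l (PS (Fin D) 𝒪)) :
    matLim J hJ (fun n => X.map (Ideal.Quotient.mk (J n))) = X := by
  ext a b : 1
  exact seqLim_const J hJ (X a b)

end Seq

/-- The patched action is an entrywise limit. -/
theorem matLim_act {d : ℕ} {R : Type} [CommRing R] {A₀ : R →+* Matrix (Fin d) (Fin d) 𝒪}
    (L : PatchBase 𝒪 D d R A₀) (f : R) :
    matLim L.J L.J_trunc (fun n => L.act n f) = L.limit f := by
  refine PatchBase.matrix_ext fun k => ?_
  ext a b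
  obtain ⟨n, ⟨h, h1⟩, _, h2⟩ := ((eventually_seqLim L.J L.J_trunc k fun n => L.act n f a b).and
    (L.eventually_limk k f)).exists
  rw [Matrix.map_apply, show (L.limit f).map (Ideal.Quotient.mk (trunc 𝒪 D k)) = L.limk k f from
    L.map_limitFun k f, h2, Matrix.map_apply]
  exact h1

end Fermat.Agent.Raising
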