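import Mathlib.LinearAlgebra.Matrix.ToLin
import Mathlib.RingTheory.MvPowerSeries.NoZeroDivisors
import Fermat.Agent.LevelLowering.Eval
import Fermat.Agent.Raising.Component
import Fermat.Agent.Raising.Intertwiner

/-!
# Components in the support of patched modules

`ker_le_of_component`: at the minimal level the only component is in the support.
`ker_le_step`: patched degeneracy maps carry a component up one level.
`ker_aug_le`: a point of the support killing the patching variables is a point of the finite level.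
-/

noncomputable section

namespace Fermat.Agent.Raising

open IsLocalRing Fermat.Agent.LevelLowering Matrix

local notation "PS" => MvPowerSeries

section Base

variable {S R : Type} [CommRing S] [CommRing R]

/-- The action on vectors through a homomorphism to matrices. -/
abbrev endHom {d : ℕ} (ρ : R →+* Matrix (Fin d) (Fin d) S) : R →+* Module.End S (Fin d → S) :=
  (Matrix.toLinAlgEquiv' (R := S) (n := Fin d)).toRingEquiv.toRingHom.comp ρ

/-- The action on vectors is as faithful as the homomorphism. -/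
theorem ker_endHom {d : ℕ} (ρ : R →+* Matrix (Fin d) (Fin d) S) :
    RingHom.ker (endHom ρ) = RingHom.ker ρ :=
  RingHom.ker_comp_of_injective _ (Matrix.toLinAlgEquiv' (R := S) (n := Fin d)).injective

/-- A scalar matrix acts as a scalar. -/
theorem endHom_eq_algebraMap {d : ℕ} {ρ : R →+* Matrix (Fin d) (Fin d) S} {r : R} {s : S}
    (h : ρ r = Matrix.scalar (Fin d) s) :
    endHom ρ r = algebraMap S (Module.End S (Fin d → S)) s := by
  show Matrix.toLinAlgEquiv' (ρ r) = _
  rw [h, show Matrix.scalar (Fin d) s = algebraMap S (Matrix (Fin d) (Fin d) S) s from rfl,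
    AlgEquiv.commutes]

variable [IsDomain S]

/-- If a component of dimension at most `dim S` kills a nonzero finite torsion-free module with
scalars in the image, it is exactly the annihilator. -/
theorem ker_le_of_component {d : ℕ} (hd : 0 < d) (ρ : R →+* Matrix (Fin d) (Fin d) S)
    (hscal : ∀ s : S, ∃ r, ρ r = Matrix.scalar (Fin d) s)
    {n : ℕ} (hS : (n : WithBot ℕ∞) ≤ ringKrullDim S) (P : Ideal R) [P.IsPrime]
    (hdim : ringKrullDim (R ⧸ P) ≤ (n : WithBot ℕ∞)) (hkill : ∀ t ∈ P, ρ t = 0) :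
    RingHom.ker ρ ≤ P := by
  have : Nonempty (Fin d) := ⟨⟨0, hd⟩⟩
  have hne : RingHom.ker (endHom ρ) ≠ ⊤ := fun h => by
    have h1 : ρ 1 = 0 := RingHom.mem_ker.mp (ker_endHom ρ ▸ h ▸ Submodule.mem_top)
    rw [map_one] at h1
    exact one_ne_zero h1
  obtain ⟨M, hM, hMle⟩ := Ideal.exists_le_maximal _ hne
  obtain ⟨P₁, hP₁, -⟩ := Ideal.exists_minimalPrimes_le (J := M) hMle
  have hP₁prime : P₁.IsPrime := hP₁.1.1
  have hbig := dim_le_of_minimal (endHom ρ)
    (fun s => (hscal s).imp fun r hr => endHom_eq_algebraMap hr) hP₁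
  have hker : RingHom.ker ρ ≤ P₁ := ker_endHom ρ ▸ hP₁.1.2
  have hle : P ≤ P₁ := fun t ht => hker (RingHom.mem_ker.mpr (hkill t ht))
  have heq : P = P₁ := by
    refine le_antisymm hle fun t ht => ?_
    by_contra htP
    have hne' : P₁.map (Ideal.Quotient.mk P) ≠ ⊥ := fun h0 => htP <|
      Ideal.Quotient.eq_zero_iff_mem.mp (Ideal.mem_bot.mp (h0 ▸ Ideal.mem_map_of_mem _ ht))
    have h1 := (ringKrullDim_quotient_succ_le_of_ne_bot hne').trans hdim
    have h2 : ringKrullDim (R ⧸ P₁) ≤ ringKrullDim ((R ⧸ P) ⧸ P₁.map (Ideal.Quotient.mk P)) :=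
      (ringKrullDim_eq_of_ringEquiv (DoubleQuot.quotQuotEquivQuotOfLE hle)).ge
    have h3 := (add_le_add_left (hS.trans (hbig.trans h2)) 1).trans h1
    revert h3
    rw [show ((n : WithBot ℕ∞) + 1) = ((n + 1 : ℕ) : WithBot ℕ∞) by push_cast; rfl]
    intro h3
    have : n + 1 ≤ n := by exact_mod_cast h3
    omega
  exact heq ▸ hker

end Base

section Step

variable {𝒪 : Type} [CommRing 𝒪] [IsDomain 𝒪] [IsDiscreteValuationRing 𝒪]
  [IsAdicComplete (maximalIdeal 𝒪) 𝒪] [Finite (ResidueField 𝒪)]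
  {D d' d'' : ℕ} {R R'' : Type} [CommRing R] [CommRing R'']
  {J : ℕ → Ideal (PS (Fin D) 𝒪)} {haug : ∀ n, ∀ s ∈ J n, MvPowerSeries.constantCoeff s = 0}
  {hJ : ∀ k, ∀ᶠ n in Filter.atTop, J n ≤ trunc 𝒪 D k}
  {A' : R →+* Matrix (Fin d') (Fin d') 𝒪} {A'' : R →+* Matrix (Fin d'') (Fin d'') 𝒪}
  {act' : ∀ n, R →+* Matrix (Fin d') (Fin d') (PS (Fin D) 𝒪 ⧸ J n)}
  {act'' : ∀ n, R →+* Matrix (Fin d'') (Fin d'') (PS (Fin D) 𝒪 ⧸ J n)}
  (h' : ∀ n f,
    (act' n f).map (Ideal.Quotient.lift (J n) MvPowerSeries.constantCoeff (haug n)) = A' f)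
  (h'' : ∀ n f,
    (act'' n f).map (Ideal.Quotient.lift (J n) MvPowerSeries.constantCoeff (haug n)) = A'' f)

local notation "L'" => (PatchBase.mk J haug hJ act' h' : PatchBase 𝒪 D d' R A')
local notation "L''" => (PatchBase.mk J haug hJ act'' h'' : PatchBase 𝒪 D d'' R A'')

/-- The limit of the identity matrices. -/
theorem matLim_one {l : Type} [DecidableEq l] :
    matLim J hJ (fun n => (1 : Matrix l l (PS (Fin D) 𝒪 ⧸ J n))) = 1 := by
  have h : (fun n => (1 : Matrix l l (PS (Fin D) 𝒪 ⧸ J n))) =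
      fun n => (1 : Matrix l l (PS (Fin D) 𝒪)).map (Ideal.Quotient.mk (J n)) := by
    funext n
    rw [Matrix.map_one _ (map_zero _) (map_one _)]
  rw [h, matLim_map_const]

/-- The block diagonal action on two copies. -/
abbrev twoCopies {S : Type} [CommRing S] (X : Matrix (Fin d') (Fin d') S) :
    Matrix (Fin d' ⊕ Fin d') (Fin d' ⊕ Fin d') S := Matrix.fromBlocks X 0 0 X

/-- The limit is taken block by block. -/
theorem matLim_fromBlocks {a b c e : Type} (A : ∀ n, Matrix a c (PS (Fin D) 𝒪 ⧸ J n))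
    (B : ∀ n, Matrix a e (PS (Fin D) 𝒪 ⧸ J n)) (C : ∀ n, Matrix b c (PS (Fin D) 𝒪 ⧸ J n))
    (E : ∀ n, Matrix b e (PS (Fin D) 𝒪 ⧸ J n)) :
    matLim J hJ (fun n => Matrix.fromBlocks (A n) (B n) (C n) (E n)) =
      Matrix.fromBlocks (matLim J hJ A) (matLim J hJ B) (matLim J hJ C) (matLim J hJ E) := by
  ext (i | i) (j | j) : 1 <;> rfl

/-- The limit of the zero matrices. -/
theorem matLim_zero {a b : Type} :
    matLim J hJ (fun n => (0 : Matrix a b (PS (Fin D) 𝒪 ⧸ J n))) = 0 := by
  ext i j : 1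
  exact map_zero (seqLim J hJ)

/-- Limits commute with doubling. -/
theorem matLim_twoCopies (X : ∀ n, Matrix (Fin d') (Fin d') (PS (Fin D) 𝒪 ⧸ J n)) :
    matLim J hJ (fun n => twoCopies (X n)) = twoCopies (matLim J hJ X) := by
  simp only [twoCopies, matLim_fromBlocks, matLim_zero]

variable (ψ : R'' →+* R) (I : ∀ n, Matrix (Fin d'') (Fin d' ⊕ Fin d') (PS (Fin D) 𝒪 ⧸ J n))
  (K : ∀ n, Matrix (Fin d' ⊕ Fin d') (Fin d'') (PS (Fin D) 𝒪 ⧸ J n))

/-- **One raising step**: a component of the new part separated from the others at a point of the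
lower level lies in the support of the upper level. -/
theorem ker_le_step
    (hI : ∀ n r, I n * twoCopies (act' n r) = act'' n r * I n)
    (hK : ∀ n r, K n * act'' n r = twoCopies (act' n r) * K n)
    (hIinv : ∀ n, ∃ X : Matrix (Fin d' ⊕ Fin d') (Fin d'') (PS (Fin D) 𝒪 ⧸ J n),
      X * I n = 1)
    (hKinv : ∀ n, ∃ X : Matrix (Fin d'') (Fin d' ⊕ Fin d') (PS (Fin D) 𝒪 ⧸ J n),
      K n * X = 1)
    (a b c e : R) (hKI : ∀ n, K n * I n =
      Matrix.fromBlocks (act' n a) (act' n b) (act' n c) (act' n e))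
    (hscal' : ∀ s, ∃ r, (L').limit r = Matrix.scalar (Fin d') s)
    (hscal : ∀ s, ∃ r, (L'').limit (ψ r) = Matrix.scalar (Fin d'') s)
    {ι : Type} [Fintype ι] (P : ι → Ideal R'') (hP : ∀ k, (P k).IsPrime)
    (hdim : ∀ k, ringKrullDim (R'' ⧸ P k) ≤ ((D + 1 : ℕ) : WithBot ℕ∞))
    (hkill : ∀ t, (∀ k, t ∈ P k) → ∀ n, ∃ X, act'' n (ψ t) = I n * X)
    (Q : Ideal R) [Q.IsPrime] (hQ : RingHom.ker (L').limit ≤ Q) (hf : a * e - b * c ∈ Q)
    (k₀ : ι) (hsep : ∀ k, k ≠ k₀ → ∃ m ∈ P k, ψ m ∉ Q) :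
    RingHom.ker ((L'').limit.comp ψ) ≤ P k₀ := by
  classical
  let S := PS (Fin D) 𝒪
  have : IsDomain S := NoZeroDivisors.to_isDomain _
  let ρ' : R →+* Module.End S (Fin d' → S) := endHom (L').limit
  let ρ'' : R →+* Module.End S (Fin d'' → S) := endHom (L'').limit
  have hρ' : ∀ r x, ρ' r x = ((L').limit r).mulVec x := fun _ _ => rfl
  have hρ'' : ∀ r x, ρ'' r x = ((L'').limit r).mulVec x := fun _ _ => rfl
  let Il := matLim J hJ I
  let Kl := matLim J hJ K
  have hl' : ∀ r, matLim J hJ (fun n => act' n r) = (L').limit r := fun r => matLim_act (L') r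
  have hl'' : ∀ r, matLim J hJ (fun n => act'' n r) = (L'').limit r := fun r => matLim_act (L'') r
  have hII : ∀ r, Il * twoCopies ((L').limit r) = (L'').limit r * Il := fun r => by
    rw [← hl', ← hl'', ← matLim_twoCopies, ← matLim_mul, ← matLim_mul]
    exact congrArg (matLim J hJ) (funext fun n => hI n r)
  have hKK : ∀ r, Kl * (L'').limit r = twoCopies ((L').limit r) * Kl := fun r => by
    rw [← hl', ← hl'', ← matLim_twoCopies, ← matLim_mul, ← matLim_mul]
    exact congrArg (matLim J hJ) (funext fun n => hK n r)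
  choose Xi hXi using hIinv
  choose Xk hXk using hKinv
  have hIl : matLim J hJ Xi * Il = 1 := by
    rw [← matLim_mul, show (fun n => Xi n * I n) = fun n => 1 from funext hXi, matLim_one]
  have hKl : Kl * matLim J hJ Xk = 1 := by
    rw [← matLim_mul, show (fun n => K n * Xk n) = fun n => 1 from funext hXk, matLim_one]
  let i : ((Fin d' → S) × (Fin d' → S)) →ₗ[S] (Fin d'' → S) :=
    Il.mulVecLin.comp (LinearEquiv.sumArrowLequivProdArrow _ _ S S).symm.toLinearMap
  let j : (Fin d'' → S) →ₗ[S] (Fin d' → S) × (Fin d' → S) :=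
    (LinearEquiv.sumArrowLequivProdArrow _ _ S S).toLinearMap.comp Kl.mulVecLin
  have hi : ∀ x y, i (x, y) = Il.mulVec (Sum.elim x y) := fun _ _ => rfl
  have hj : ∀ x, j x = (fun k => Kl.mulVec x (.inl k), fun k => Kl.mulVec x (.inr k)) :=
    fun _ => rfl
  have hmain := component_mem_support ρ' ρ''
    (fun s => (hscal' s).imp fun r hr => endHom_eq_algebraMap hr) ψ
    (fun s => (hscal s).imp fun r hr => endHom_eq_algebraMap hr) i (fun r x y => ?_) ?_ j
    (fun r x => ?_) ?_ a b c e (fun x y => ?_) (n := D + 1)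
    (ringKrullDim_powerSeries 𝒪 D).ge P hP hdim ?_ Q ?_ hf
    k₀ hsep
  · intro t ht
    refine hmain (RingHom.mem_ker.mpr ?_)
    show Matrix.toLinAlgEquiv' ((L'').limit (ψ t)) = 0
    rw [show (L'').limit (ψ t) = 0 from RingHom.mem_ker.mp ht, map_zero]
  · rw [hi, hi, hρ', hρ', hρ'', Matrix.mulVec_mulVec, ← hII, ← Matrix.mulVec_mulVec,
      Matrix.fromBlocks_mulVec]
    simp
  · intro s hs x hx
    obtain ⟨⟨u, v⟩, huv⟩ := hx
    rw [hi] at huv
    refine ⟨((LinearEquiv.sumArrowLequivProdArrow _ _ S S) ((matLim J hJ Xi).mulVec x)), ?_⟩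
    show Il.mulVec ((LinearEquiv.sumArrowLequivProdArrow _ _ S S).symm _) = x
    rw [LinearEquiv.symm_apply_apply]
    refine smul_right_injective _ hs ?_
    show s • Il.mulVec ((matLim J hJ Xi).mulVec x) = s • x
    rw [← Matrix.mulVec_smul, ← Matrix.mulVec_smul, ← huv, Matrix.mulVec_mulVec (Sum.elim u v),
      hIl, Matrix.one_mulVec]
  · rw [hj, hj, hρ'', Matrix.mulVec_mulVec, hKK, ← Matrix.mulVec_mulVec, Matrix.fromBlocks_mulVec]
    ext k <;> simp [hρ', Function.comp_def]
  · intro ⟨u, v⟩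
    refine ⟨(matLim J hJ Xk).mulVec (Sum.elim u v), ?_⟩
    rw [hj, Matrix.mulVec_mulVec, hKl, Matrix.one_mulVec]
    rfl
  · have h1 : Kl * Il = Matrix.fromBlocks ((L').limit a) ((L').limit b) ((L').limit c)
        ((L').limit e) := by
      rw [← matLim_mul, show (fun n => K n * I n) = _ from funext hKI, matLim_fromBlocks, hl', hl',
        hl', hl']
    rw [hi, hj, Matrix.mulVec_mulVec, h1, Matrix.fromBlocks_mulVec]
    ext k <;> simp [hρ']
  · intro t ht x
    choose X hX using hkill t ht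
    refine ⟨((LinearEquiv.sumArrowLequivProdArrow _ _ S S) ((matLim J hJ X).mulVec x)), ?_⟩
    show Il.mulVec ((LinearEquiv.sumArrowLequivProdArrow _ _ S S).symm _) = _
    rw [LinearEquiv.symm_apply_apply, Matrix.mulVec_mulVec, ← matLim_mul, hρ'', ← hl'',
      show (fun n => I n * X n) = fun n => act'' n (ψ t) from funext fun n => (hX n).symm]
  · exact (ker_endHom _).trans_le hQ

end Step

section Point

variable {𝒪 : Type} [CommRing 𝒪] [IsDomain 𝒪] [IsDiscreteValuationRing 𝒪]
  [IsAdicComplete (maximalIdeal 𝒪) 𝒪] [Finite (ResidueField 𝒪)]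
  {D d : ℕ} {R : Type} [CommRing R] {A₀ : R →+* Matrix (Fin d) (Fin d) 𝒪}
  (L : PatchBase 𝒪 D d R A₀)

/-- **Specialisation**: a prime of the support containing lifts of the variables is a prime of the
support of the finite level. -/
theorem ker_aug_le (hscal : ∀ s, ∃ r, L.limit r = Matrix.scalar (Fin d) s) (Q : Ideal R) [Q.IsPrime]
    (hQ : RingHom.ker L.limit ≤ Q)
    (hvar : ∀ i, ∃ y ∈ Q, L.limit y = Matrix.scalar (Fin d) (MvPowerSeries.X i)) :
    RingHom.ker A₀ ≤ Q := by
  classical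
  let S := PS (Fin D) 𝒪
  choose y hyQ hy using hvar
  intro t ht
  refine mem_prime_of_forall_exists (endHom L.limit)
    (fun s => (hscal s).imp fun r hr => endHom_eq_algebraMap hr)
    ((ker_endHom _).trans_le hQ) y hyQ fun m => ?_
  have h0 : ∀ a, MvPowerSeries.constantCoeff ((L.limit t).mulVec m a) = 0 := fun a => by
    have h1 : (L.limit t).map MvPowerSeries.constantCoeff = 0 := by
      rw [L.limit_aug, RingHom.mem_ker.mp ht]
    simp only [Matrix.mulVec, dotProduct, map_sum, map_mul]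
    refine Finset.sum_eq_zero fun b _ => ?_
    rw [show MvPowerSeries.constantCoeff (L.limit t a b) = 0 from congrFun (congrFun h1 a) b,
      zero_mul]
  have hspan : ∀ a, (L.limit t).mulVec m a ∈ Ideal.span (Set.range fun i : Fin D =>
      (MvPowerSeries.X i : S)) := fun a => by
    rw [← pow_one (Ideal.span _)]
    refine AV.Series.mem_span_X_pow 1 _ fun d hd => ?_
    obtain rfl := (Finsupp.degree_eq_zero_iff d).mp (by omega)
    rw [MvPowerSeries.coeff_zero_eq_constantCoeff_apply, h0]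
  choose u hu using fun a => Ideal.mem_span_range_iff_exists_fun.mp (hspan a)
  refine ⟨fun i a => u a i, ?_⟩
  show (L.limit t).mulVec m = ∑ i, (L.limit (y i)).mulVec (fun a => u a i)
  funext a
  rw [Finset.sum_apply, ← hu a]
  refine Finset.sum_congr rfl fun i _ => ?_
  rw [hy i, Matrix.scalar_apply, Matrix.mulVec_diagonal, mul_comm]

end Point

end Fermat.Agent.Raising
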