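import Fermat.Agent.LevelLowering.JointRing
import Fermat.Agent.Raising.AuxLevel
import Fermat.Agent.Raising.Coeff.Curve

/-!
# The auxiliary prime

An auxiliary prime of a residual representation is an unramified prime `t` with
`(tr φ) ^ 2 ≠ (t + 1) ^ 2` at Frobenius.  A lift unipotent at `t`, and so the joint representation
of a family of such lifts, is unramified at `t`.  For the torsion of a curve over the coefficient
field, a good prime `t` with `a_t ^ 2 ≠ (t + 1) ^ 2` modulo `p` is auxiliary.
-/

noncomputable section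

namespace Fermat.Agent.Raising

open scoped MatrixGroups
open CongruenceSubgroup IsLocalRing Fermat.Agent.Grp Fermat.Agent.Ihara Fermat.Agent.LevelLowering
  WeierstrassCurve

local notation "Qbar" => AlgebraicClosure ℚ
local notation "GQ" => (AlgebraicClosure ℚ ≃ₐ[ℚ] AlgebraicClosure ℚ)

/-- An auxiliary prime of a residual representation. -/
structure IsAuxPrime {k : Type} [Field k] (ρbar : ResidualGaloisRep k) (p t : ℕ) : Prop where
  prime : t.Prime
  ne_p : t ≠ p
  unramified : ρbar.IsUnramifiedAt t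
  trace_frob : ∀ A : ValuationSubring Qbar, A.LiesOverPrime t → ∀ φ : GQ, A.IsFrobeniusAt φ t →
    LinearMap.trace k ρbar.V (ρbar.ρ φ) ^ 2 ≠ ((t : k) + 1) ^ 2

/-- The residue of the trace of a lift. -/
theorem residue_trace_of_residual {k F : Type} [Field k] [CommRing F] [IsLocalRing F]
    {ρbar : ResidualGaloisRep k} {f : k →+* ResidueField F} {ρ : GaloisRepAdic F}
    (h : ρ.residual.IsEquiv (ρbar.baseChangeAlong f)) (g : GQ) :
    residue F (LinearMap.trace F ρ.V (ρ.ρ g)) = f (LinearMap.trace k ρbar.V (ρbar.ρ g)) := by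
  obtain ⟨e⟩ := h
  let : Algebra k (ResidueField F) := f.toAlgebra
  have hc : e.toLinearEquiv.conj (ρ.residual.ρ g) = (ρbar.baseChangeAlong f).ρ g :=
    LinearMap.ext fun w => by
      rw [LinearEquiv.conj_apply_apply, e.map_apply, LinearEquiv.apply_symm_apply]
  have h1 := LinearMap.trace_conj' (ρ.residual.ρ g) e.toLinearEquiv
  rw [hc] at h1
  exact ((LinearMap.trace_baseChange (ρ.ρ g) (ResidueField F)).symm.trans h1.symm).trans
    (LinearMap.trace_baseChange (ρbar.ρ g) (ResidueField F))

/-- **A lift unipotent at an auxiliary prime is unramified there.** -/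
theorem IsAuxPrime.isUnramifiedAt {k F : Type} [Field k] [CommRing F] [IsLocalRing F]
    [IsNoetherianRing F] [IsDomain F] [CharZero F] {ρbar : ResidualGaloisRep k}
    {f : k →+* ResidueField F} {p t : ℕ} (h : IsAuxPrime ρbar p t) (hp : p.Prime)
    (ρ : GaloisRepAdic F) (hres : ∀ g : GQ,
      residue F (LinearMap.trace F ρ.V (ρ.ρ g)) = f (LinearMap.trace k ρbar.V (ρbar.ρ g)))
    (hdet : ρ.DetIsCyclotomic p) (hunip : ρ.IsUnipotentOnInertiaAt t) :
    ρ.IsUnramifiedAt t :=
  isUnramifiedAt_of_unipotent_of_trace ρ hp h.prime h.ne_p hdet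
    (Nat.cast_ne_zero.2 h.prime.ne_zero) (Nat.cast_ne_one.2 h.prime.ne_one) hunip
    fun A hA φ hφ he => h.trace_frob A hA φ hφ (f.injective (by
      rw [map_pow, ← hres, ← map_pow, he]
      simp))

section Joint

variable {O : Type} [CommRing O] [IsDomain O] [IsDiscreteValuationRing O]
  [IsAdicComplete (maximalIdeal O) O] [Finite (ResidueField O)]
  {p : ℕ} [Fact p.Prime] {ρbar : ResidualGaloisRep (ResidueField O)} {S : Finset ℕ}
  {ι : Type} [Fintype ι] {F : ι → Type} [∀ a, CommRing (F a)] [∀ a, IsDomain (F a)]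
  [∀ a, IsLocalRing (F a)] [∀ a, IsNoetherianRing (F a)] [∀ a, CharZero (F a)]
  [∀ a, Algebra O (F a)] [∀ a, Module.Finite O (F a)] [∀ a, IsLocalHom (algebraMap O (F a))]
  {c : ∀ a, ℕ → F a} {ρpt : ∀ a, GaloisRepAdic (F a)}

omit [IsAdicComplete (maximalIdeal O) O] [Finite (ResidueField O)] [Fintype ι]
  [∀ (a : ι), Module.Finite O (F a)] [∀ (a : ι), IsLocalHom (algebraMap O (F a))] in
/-- The joint representation of points unipotent at an auxiliary prime is unramified there: the
hypothesis at `t` of `exists_raiseGens`. -/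
theorem IsAuxPrime.isUnramifiedAt_joint {t : ℕ} (h : IsAuxPrime ρbar p t)
    (R : JointRing p ρbar S F c ρpt) (hunip : ∀ a, (ρpt a).IsUnipotentOnInertiaAt t) :
    R.ρ.IsUnramifiedAt t := by
  refine Scalar.isUnramifiedAt_of_points (hψ := R.pt_local) R.pt_injective fun a => ?_
  have := R.pt_local a
  refine h.isUnramifiedAt (f := (ResidueField.map (R.pt a).toRingHom).comp
      (ResidueField.map (algebraMap O R.T))) (Fact.out : p.Prime) _ (fun g => ?_)
    (TW.detIsCyclotomic_baseChange _ R.det)
    (Scalar.isUnipotentOnInertiaAt_congr (R.pt_equiv a) (hunip a))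
  let : Algebra R.T (F a) := (R.pt a).toRingHom.toAlgebra
  rw [RingHom.comp_apply, ← residue_trace_of_residual R.residual g]
  show residue (F a) (LinearMap.trace (F a) _ ((R.ρ.ρ g).baseChange (F a))) = _
  rw [LinearMap.trace_baseChange]
  rfl

end Joint

section Curve

variable {p : ℕ} [Fact p.Prime] (C : Coeff.CoeffRing p) {W : WeierstrassCurve ℤ}
  [(W.map (Int.castRingHom ℚ)).IsElliptic]

/-- A good prime with `a_t ^ 2 ≠ (t + 1) ^ 2` modulo `p` is auxiliary. -/
theorem isAuxPrime_curveRbar {t : ℕ} (ht : t.Prime) (htp : t ≠ p) (hgood : W.IsGoodPrimeFor t)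
    (ha : (W.apOfModel t : ZMod p) ^ 2 ≠ ((t : ZMod p) + 1) ^ 2) :
    IsAuxPrime (Coeff.curveRbar C (W.map (Int.castRingHom ℚ))) p t where
  prime := ht
  ne_p := htp
  unramified A hA σ hσ := by
    show ((EC.residualRep (W.map (Int.castRingHom ℚ)) p).ρ σ).baseChange (ResidueField C.O) = 1
    rw [EC.residualRep_isUnramifiedAt_of_good W p t ht htp hgood A hA σ hσ,
      LinearMap.baseChange_one]
  trace_frob A hA φ hφ := by
    classical
    have e : LinearMap.trace (ResidueField C.O) _
        ((Coeff.curveRbar C (W.map (Int.castRingHom ℚ))).ρ φ) =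
          algebraMap (ZMod p) (ResidueField C.O) (W.apOfModel t : ZMod p) := by
      refine (LinearMap.trace_baseChange ((EC.residualRep (W.map (Int.castRingHom ℚ)) p).ρ φ)
        (ResidueField C.O)).trans (congrArg _ ?_)
      exact EC.galoisTrace_frobenius W p t ht htp hgood hA hφ
    rw [e, ← map_pow, ← map_natCast (algebraMap (ZMod p) (ResidueField C.O)) t,
      ← map_one (algebraMap (ZMod p) (ResidueField C.O)), ← map_add, ← map_pow]
    exact (RingHom.injective _).ne ha

end Curve

end Fermat.Agent.Raising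

end
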