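import Fermat.Agent.LevelLowering.JointRing
import Fermat.Agent.LevelLowering.Scalar.Points
import Fermat.Agent.Raising.Inputs
import Fermat.Agent.TW.TangentInj

/-!
# The points of all levels of a step, and the lift to be reached

`PtF` is the family of the eigensystems of the levels `0, …, m` together with one lift `ρw` over
`O`; `exists_pointsRing` is its joint ring and `lift_at_point` its local behaviour at a raised
prime.
-/

noncomputable section

namespace Fermat.Agent.Raising

open IsLocalRing Polynomial Module Matrix Fermat.Agent.LevelLowering Fermat.Agent.Gal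
  Fermat.Agent.TW Fermat.Agent.PT

local notation "Qbar" => AlgebraicClosure ℚ
local notation "GQ" => (AlgebraicClosure ℚ ≃ₐ[ℚ] AlgebraicClosure ℚ)

variable {O : Type} [CommRing O] [IsDomain O] [IsDiscreteValuationRing O]
  [IsAdicComplete (maximalIdeal O) O] [Finite (ResidueField O)]
  {S : Finset ℕ} {c₀ : ℕ → O} {B : Type} [CommRing B] [Algebra O B] {d : ℕ → ℕ}

/-- The points: the eigensystems of the first `m + 1` levels, and the extra lift. -/
abbrev PtIdx (m : ℕ) (L : ∀ j : ℕ, OpLevel O S c₀ B (d j)) : Type :=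
  Option (Σ j : Fin (m + 1), (L j).κ)

variable {m : ℕ} {L : ∀ j : ℕ, OpLevel O S c₀ B (d j)}

variable (L) in
/-- The rings of the points. -/
def PtF : PtIdx m L → Type
  | none => O
  | some a => (L a.1).F a.2

instance instCommRingPtF : ∀ a : PtIdx m L, CommRing (PtF L a)
  | none => inferInstanceAs (CommRing O)
  | some a => inferInstanceAs (CommRing ((L a.1).F a.2))

instance instAlgebraPtF : ∀ a : PtIdx m L, Algebra O (PtF L a)
  | none => inferInstanceAs (Algebra O O)
  | some a => inferInstanceAs (Algebra O ((L a.1).F a.2))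

instance instDomainPtF : ∀ a : PtIdx m L, IsDomain (PtF L a)
  | none => inferInstanceAs (IsDomain O)
  | some a => inferInstanceAs (IsDomain ((L a.1).F a.2))

instance instLocalPtF : ∀ a : PtIdx m L, IsLocalRing (PtF L a)
  | none => inferInstanceAs (IsLocalRing O)
  | some a => inferInstanceAs (IsLocalRing ((L a.1).F a.2))

instance instValuationPtF : ∀ a : PtIdx m L, ValuationRing (PtF L a)
  | none => inferInstanceAs (ValuationRing O)
  | some a => inferInstanceAs (ValuationRing ((L a.1).F a.2))

instance instNoetherianPtF : ∀ a : PtIdx m L, IsNoetherianRing (PtF L a)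
  | none => inferInstanceAs (IsNoetherianRing O)
  | some a => inferInstanceAs (IsNoetherianRing ((L a.1).F a.2))

instance instFinitePtF : ∀ a : PtIdx m L, Module.Finite O (PtF L a)
  | none => inferInstanceAs (Module.Finite O O)
  | some a => inferInstanceAs (Module.Finite O ((L a.1).F a.2))

instance instLocalHomPtF : ∀ a : PtIdx m L, IsLocalHom (algebraMap O (PtF L a))
  | none => ⟨fun _ h => h⟩
  | some a => inferInstanceAs (IsLocalHom (algebraMap O ((L a.1).F a.2)))

instance instCompletePtF : ∀ a : PtIdx m L, IsAdicComplete (maximalIdeal (PtF L a)) (PtF L a)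
  | none => inferInstanceAs (IsAdicComplete (maximalIdeal O) O)
  | some a => inferInstanceAs (IsAdicComplete (maximalIdeal ((L a.1).F a.2)) ((L a.1).F a.2))

instance instCharPtF [CharZero O] : ∀ a : PtIdx m L, CharZero (PtF L a)
  | none => inferInstanceAs (CharZero O)
  | some a => inferInstanceAs (CharZero ((L a.1).F a.2))

variable (L) in
/-- The Frobenius traces at the points. -/
def ptC (cw : ℕ → O) : ∀ a : PtIdx m L, ℕ → PtF L a
  | none => cw
  | some a => fun ℓ => (L a.1).ev a.2 ((L a.1).x ℓ)

variable (L) in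
/-- The representations at the points. -/
def ptRep (ρw : GaloisRepAdic O) : ∀ a : PtIdx m L, GaloisRepAdic (PtF L a)
  | none => ρw
  | some a => (L a.1).ρ a.2

variable {p : ℕ} [Fact p.Prime] {ρbar : ResidualGaloisRep (ResidueField O)} (cw : ℕ → O)
  (ρw : GaloisRepAdic O)

variable (p ρbar L) in
/-- The joint ring of all the points. -/
abbrev PointsRing (m : ℕ) : Type 1 :=
  JointRing p ρbar S (PtF (m := m) L) (ptC L cw) (ptRep L ρw)

variable (L) in
/-- **The joint ring of all the points exists.** -/
theorem exists_pointsRing (h2 : IsUnit (2 : O)) (hp : (p : O) ∈ maximalIdeal O)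
    (habs : ρbar.IsAbsolutelyIrreducible)
    (hodd : ∃ g : GQ, g * g = 1 ∧ LinearMap.det (ρbar.ρ g) = -1)
    (hbar : ∀ ℓ : ℕ, ℓ.Prime → ℓ ∉ S → ∀ P : ValuationSubring Qbar, P.LiesOverPrime ℓ →
      ∀ σ : GQ, P.IsFrobeniusAt σ ℓ → LinearMap.charpoly (ρbar.ρ σ) =
        X ^ 2 - C (residue O (c₀ ℓ)) * X + C (ℓ : ResidueField O))
    (hcw : ∀ ℓ : ℕ, ℓ.Prime → ℓ ∉ S → cw ℓ - c₀ ℓ ∈ maximalIdeal O)
    (hw : ∀ ℓ : ℕ, ℓ.Prime → ℓ ∉ S → ∀ P : ValuationSubring Qbar, P.LiesOverPrime ℓ →
      ∀ σ : GQ, P.IsFrobeniusAt σ ℓ →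
        LinearMap.charpoly (ρw.ρ σ) = X ^ 2 - C (cw ℓ) * X + C (ℓ : O)) :
    Nonempty (PointsRing L p (ρbar := ρbar) cw ρw m) := by
  refine exists_jointRing h2 hp habs hodd c₀ hbar (fun a ℓ hℓ hℓS => ?_) fun a => ?_
  · cases a with
    | none => exact hcw ℓ hℓ hℓS
    | some a => exact (L a.1).residual a.2 ℓ hℓ hℓS
  · cases a with
    | none => exact hw
    | some a => exact (L a.1).frob a.2

section Adapted

variable {O : Type} [CommRing O] [IsLocalRing O] {ρbar : ResidualGaloisRep (ResidueField O)}
  {bbar : Basis (Fin 2) (ResidueField O) ρbar.V} {T : Type} [CommRing T] [IsLocalRing T]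
  [Algebra O T] [IsLocalHom (algebraMap O T)]
  {hres : Function.Surjective (residue T ∘ algebraMap O T)} {ρ : GaloisRepAdic T}
  {b : Basis (Fin 2) T ρ.V} (hb : Adapted bbar hres ρ b)

include hb in
/-- A matrix entry agrees with any lift of the residual one modulo the maximal ideal. -/
theorem mem_maximalIdeal_sub_of_residual {g : GQ} {i j : Fin 2} {o : O}
    (ho : residue O o = rbar bbar g i j) :
    matrixRep b ρ.ρ g i j - algebraMap O T o ∈ maximalIdeal T := by
  refine (toRes_eq_zero_iff hres _).mp ?_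
  rw [map_sub, toRes_entry hb, toRes_algebraMap, ← ho, sub_self]

include hb in
/-- In an adapted basis the residual matrices are those of the residual representation. -/
theorem residue_matrixRep_of_adapted (g : GQ) :
    (matrixRep b ρ.ρ g).map (residue T) =
      (rbar bbar g).map (ResidueField.map (algebraMap O T)) := by
  ext i j
  rw [map_apply, map_apply]
  obtain ⟨o, ho⟩ := residue_surjective (rbar bbar g i j)
  have h := mem_maximalIdeal_sub_of_residual hb ho
  rw [← residue_eq_zero_iff, map_sub, sub_eq_zero] at h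
  rw [h, ← ho]
  rfl

end Adapted

section Local

variable {bbar : Basis (Fin 2) (ResidueField O) ρbar.V} {T : Type} [CommRing T] [IsLocalRing T]
  [Algebra O T] [IsLocalHom (algebraMap O T)] [IsNoetherianRing T]
  {hres : Function.Surjective (residue T ∘ algebraMap O T)} {ρ : GaloisRepAdic T}
  {b : Basis (Fin 2) T ρ.V} (hb : Adapted bbar hres ρ b) (hdet : ρ.DetIsCyclotomic p)
  (P : RaisedPrime p ρbar bbar)

omit [IsAdicComplete (maximalIdeal O) O] [Finite (ResidueField O)] [IsNoetherianRing T]
  [Fact (Nat.Prime p)] in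
include hb in
/-- Inertia at a raised prime is residually trivial. -/
theorem inertia_map_residue {τ : GQ} (hτ : τ ∈ P.A.inertiaSubgroupIn ℚ) :
    (matrixRep b ρ.ρ τ).map (residue T) = 1 := by
  rw [residue_matrixRep_of_adapted hb, P.inertia τ hτ, Matrix.map_one _ (map_zero _) (map_one _)]

omit [IsAdicComplete (maximalIdeal O) O] [Finite (ResidueField O)] in
include hb hdet in
/-- The matrices of Frobenius and monodromy are a lift. -/
theorem isLift_of_adapted :
    P.IsLift (matrixRep b ρ.ρ P.φ) (matrixRep b ρ.ρ P.σ - 1) where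
  loc c hc := map_nonunit (algebraMap O T) c hc
  frob _ _ _ h := mem_maximalIdeal_sub_of_residual hb h
  mono i j := by
    have h := congrFun (congrFun (inertia_map_residue hb P P.tame.1) i) j
    rw [map_apply] at h
    rw [Matrix.sub_apply, ← residue_eq_zero_iff, map_sub, h]
    rcases eq_or_ne i j with rfl | hij <;> simp [*]
  det := Scalar.det_frobenius_eq ρ b (Fact.out : p.Prime) hdet P.prime P.ne_p P.lies P.frob

variable {F : Type} [CommRing F] [IsDomain F] [IsLocalRing F] [IsNoetherianRing F] [Algebra O F]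
  (f : T →ₐ[O] F) [hf : IsLocalHom f.toRingHom] {ρF : GaloisRepAdic F}
  (heq : (ρ.baseChangeAlong f.toRingHom hf).IsEquiv ρF)

omit [IsDomain O] [IsDiscreteValuationRing O] [IsAdicComplete (maximalIdeal O) O]
  [Finite (ResidueField O)] [IsLocalHom (algebraMap O T)] [IsNoetherianRing T] [IsDomain F]
  [IsNoetherianRing F] in
include b heq in
/-- At a point the characteristic polynomial is that of the specialised matrix. -/
theorem charpoly_point (g : GQ) :
    LinearMap.charpoly (ρF.ρ g) = ((matrixRep b ρ.ρ g).map f).charpoly := by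
  obtain ⟨bF, hbF⟩ := exists_basis_adicBaseChange f.toRingHom hf ρ b
  obtain ⟨e⟩ := heq
  have h1 : (e.toLinearEquiv.conj ((ρ.baseChangeAlong f.toRingHom hf).ρ g)) = ρF.ρ g := by
    refine LinearMap.ext fun v => ?_
    rw [LinearEquiv.conj_apply_apply, e.map_apply, LinearEquiv.apply_symm_apply]
  rw [← h1, LinearEquiv.charpoly_conj, ← LinearMap.charpoly_toMatrix _ bF]
  exact congrArg Matrix.charpoly (hbF g)

omit [IsDomain O] [IsDiscreteValuationRing O] [IsAdicComplete (maximalIdeal O) O]
  [Finite (ResidueField O)] [IsLocalHom (algebraMap O T)] [IsNoetherianRing T] [IsDomain F]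
  [IsNoetherianRing F] in
include b heq in
/-- The trace at a point is the value of the trace. -/
theorem trace_point (g : GQ) :
    LinearMap.trace F ρF.V (ρF.ρ g) = f (LinearMap.trace T ρ.V (ρ.ρ g)) := by
  have h := charpoly_point (b := b) f heq g
  rw [LinearMap.charpoly_toMatrix _ (basisTwo ρF.finrank_eq) |>.symm, Matrix.charpoly_fin_two,
    Matrix.charpoly_fin_two] at h
  have h1 := congrArg (fun q => Polynomial.coeff q 1) h
  simp [Polynomial.coeff_X_pow, Polynomial.coeff_C] at h1
  rw [LinearMap.trace_eq_matrix_trace F (basisTwo ρF.finrank_eq) (ρF.ρ g), ← trace_matrixRep b]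
  exact h1.trans (AddMonoidHom.map_trace f.toRingHom.toAddMonoidHom _).symm

omit [IsAdicComplete (maximalIdeal O) O] [Finite (ResidueField O)] [IsDomain F] in
include hb hdet heq in
/-- At a point with unipotent inertia at a raised prime the lift satisfies the relations of a
monodromy; with trivial inertia it has none. -/
theorem lift_at_point (hp : (p : F) ∈ maximalIdeal F) :
    P.IsLift ((matrixRep b ρ.ρ P.φ).map f) ((matrixRep b ρ.ρ P.σ - 1).map f) ∧
    (ρF.IsUnipotentOnInertiaAt P.q →
      ((matrixRep b ρ.ρ P.σ - 1).map f) * ((matrixRep b ρ.ρ P.σ - 1).map f) = 0 ∧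
      (matrixRep b ρ.ρ P.φ).map f * ((matrixRep b ρ.ρ P.σ - 1).map f) =
        (P.q : F) • (((matrixRep b ρ.ρ P.σ - 1).map f) * (matrixRep b ρ.ρ P.φ).map f)) ∧
    (ρF.IsUnramifiedAt P.q → (matrixRep b ρ.ρ P.σ - 1).map f = 0) := by
  have hfm : ∀ x ∈ maximalIdeal T, f x ∈ maximalIdeal F := fun x hx =>
    map_nonunit f.toRingHom x hx
  let M : GQ →* Matrix (Fin 2) (Fin 2) F := f.toRingHom.mapMatrix.toMonoidHom.comp (matrixRep b ρ.ρ)
  have hMN : (matrixRep b ρ.ρ P.σ - 1).map f = M P.σ - 1 := by
    show f.toRingHom.mapMatrix _ = f.toRingHom.mapMatrix _ - 1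
    rw [map_sub, map_one]
  refine ⟨?_, fun huni => ?_, fun hunr => ?_⟩
  · have h := isLift_of_adapted hb hdet P
    refine ⟨fun c hc => ?_, fun i j a ha => ?_, fun i j => hfm _ (h.mono i j), ?_⟩
    · rw [← f.commutes]; exact hfm _ (h.loc c hc)
    · have := hfm _ (h.frob i j a ha)
      rwa [map_sub, AlgHom.commutes] at this
    · rw [show ((matrixRep b ρ.ρ P.φ).map f).det = f (matrixRep b ρ.ρ P.φ).det from
        (AlgHom.map_det f _).symm, h.det, map_natCast]
  · have hchar : (M P.σ).charpoly = (X - 1) ^ 2 :=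
      (charpoly_point (b := b) f heq P.σ).symm.trans (huni P.A P.lies P.σ P.tame.1)
    rw [hMN]
    refine ⟨?_, Scalar.frobenius_mul_inertia_sub (Fact.out : p.Prime) P.prime (Ne.symm P.ne_p) hp M
      (Scalar.AdicCont.map (fun n => Scalar.exists_nearOne ρ b n) _ hfm) P.lies P.frob
      (fun τ hτ => ?_) P.tame.1 hchar⟩
    · have hCH := Matrix.aeval_self_charpoly (M P.σ)
      rwa [hchar, map_pow, map_sub, map_one, aeval_X, sq] at hCH
    · ext i j
      show residue F (f (matrixRep b ρ.ρ τ i j)) = (1 : Matrix (Fin 2) (Fin 2) (ResidueField F)) i j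
      have h := congrFun (congrFun (inertia_map_residue hb P hτ) i) j
      rw [map_apply] at h
      show residue F (f.toRingHom _) = _
      refine (ResidueField.map_residue f.toRingHom _).symm.trans ?_
      rw [h]
      rcases eq_or_ne i j with rfl | hij <;> simp [*]
  · obtain ⟨bF, hbF⟩ := exists_basis_adicBaseChange f.toRingHom hf ρ b
    obtain ⟨e⟩ := heq
    have h1 : (ρ.baseChangeAlong f.toRingHom hf).ρ P.σ = 1 := by
      refine LinearMap.ext fun v => e.toLinearEquiv.injective ?_
      rw [e.map_apply, hunr P.A P.lies P.σ P.tame.1]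
      rfl
    rw [hMN, sub_eq_zero]
    show (matrixRep b ρ.ρ P.σ).map f.toRingHom = 1
    rw [← hbF P.σ]
    show LinearMap.toMatrixAlgEquiv bF ((ρ.baseChangeAlong f.toRingHom hf).ρ P.σ) = 1
    rw [h1, map_one]

end Local

end Fermat.Agent.Raising
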