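import Fermat.Agent.Raising.Coords

/-!
# Components at one prime

A `Block` lists the components of the coordinates at one prime, singles out the unramified one and
the one of the curve, and gives a point of the unramified one together with elements separating the
other components.  `ordBlock` is the case of coordinates `(n, a)` with `n a = 0`.
-/

noncomputable section

namespace Fermat.Agent.Raising

open IsLocalRing Fermat.Agent.LevelLowering

local notation "PS" => MvPowerSeries

variable (𝒪 : Type) [CommRing 𝒪] [IsDomain 𝒪] [IsDiscreteValuationRing 𝒪]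
  [IsAdicComplete (maximalIdeal 𝒪) 𝒪]

/-- The components at one prime with `e` coordinates and at most `w` free parameters. -/
structure Block (e : ℕ) where
  /-- The number of components. -/
  K : ℕ
  /-- The components. -/
  comp : Fin K → LocalMap 𝒪 e
  /-- A bound on the number of free parameters of each component. -/
  w : ℕ
  f_le : ∀ k, (comp k).f ≤ w
  hasParams : ∀ k, (comp k).HasParams
  /-- The index of the unramified component. -/
  ur : Fin K
  /-- The index of the component of the curve. -/
  st : Fin K
  st_ne_ur : st ≠ ur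
  /-- A specialisation of the unramified component, off those other than `ur` and `st`. -/
  pt : LocalMap 𝒪 e
  ur_le_pt : (comp ur).Le pt
  sep : ∀ k, k ≠ st → ∃ x, (comp k).hom x = 0 ∧ (comp st).hom x ≠ 0
  sep_pt : ∀ k, k ≠ st → k ≠ ur → ∃ x, (comp k).hom x = 0 ∧ pt.hom x ≠ 0

variable {𝒪}

/-- The variables go to the values of the local map. -/
lemma LocalMap.hom_X {e : ℕ} (l : LocalMap 𝒪 e) (c : Fin e) :
    l.hom (MvPowerSeries.X c) = l.val c :=
  evalSeries_X _ _ c

omit [IsAdicComplete (maximalIdeal 𝒪) 𝒪] in
/-- The variables are non-zero. -/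
lemma X_series_ne_zero {n : ℕ} (k : Fin n) : (MvPowerSeries.X k : PS (Fin n) 𝒪) ≠ 0 := fun h => by
  classical
  simpa using congrArg (MvPowerSeries.coeff (Finsupp.single k 1)) h

variable (𝒪)

/-- `a = 0`, monodromy free. -/
def ordSt : LocalMap 𝒪 2 where
  f := 1
  val := ![MvPowerSeries.X 0, 0]
  val_mem c := by fin_cases c <;> simp [MvPowerSeries.isUnit_iff_constantCoeff]

/-- `n = 0`, the trace free. -/
def ordUr : LocalMap 𝒪 2 where
  f := 1
  val := ![0, MvPowerSeries.X 0]
  val_mem c := by fin_cases c <;> simp [MvPowerSeries.isUnit_iff_constantCoeff]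

/-- The common point of the two lines. -/
def ordPt : LocalMap 𝒪 2 where
  f := 0
  val := fun _ => 0
  val_mem _ := zero_mem _

/-- Coordinates `(n, a)` with `n a = 0`. -/
def ordBlock : Block 𝒪 2 where
  K := 2
  comp := ![ordUr 𝒪, ordSt 𝒪]
  w := 1
  f_le k := by fin_cases k <;> exact le_rfl
  hasParams k := by
    fin_cases k
    · refine LocalMap.hasParams_of_section (ordUr 𝒪) (fun _ => 1) fun (k : Fin 1) => ?_
      rw [Subsingleton.elim k 0]
      rfl
    · refine LocalMap.hasParams_of_section (ordSt 𝒪) (fun _ => 0) fun (k : Fin 1) => ?_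
      rw [Subsingleton.elim k 0]
      rfl
  ur := 0
  st := 1
  st_ne_ur := by decide
  pt := ordPt 𝒪
  ur_le_pt := ⟨fun _ => 0, fun _ => zero_mem _, fun c => by
    fin_cases c
    · exact map_zero _
    · exact evalSeries_X (𝒪 := 𝒪) (n := 1) (fun _ => 0) _ 0⟩
  sep k hk := by
    fin_cases k
    · exact ⟨MvPowerSeries.X 0, (LocalMap.hom_X _ _).trans rfl, fun h =>
        X_series_ne_zero (0 : Fin 1) ((LocalMap.hom_X (ordSt 𝒪) 0).symm.trans h)⟩
    · exact absurd rfl hk
  sep_pt k hk hk' := by
    fin_cases k
    · exact absurd rfl hk'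
    · exact absurd rfl hk

end Fermat.Agent.Raising
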