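import Fermat.Agent.Raising.Blocks
import Fermat.Agent.Raising.Step

/-!
# Raising a list of primes

`Tower` packages patched levels `0, …, m` over one coordinate ring, with degeneracy maps between
consecutive ones.  `Tower.ker_le_top`: the component on which every prime is raised is in the
support of the top level.
-/

noncomputable section

namespace Fermat.Agent.Raising

open IsLocalRing Fermat.Agent.LevelLowering Matrix

local notation "PS" => MvPowerSeries

variable {𝒪 : Type} [CommRing 𝒪] [IsDomain 𝒪] [IsDiscreteValuationRing 𝒪]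
  [IsAdicComplete (maximalIdeal 𝒪) 𝒪] [Finite (ResidueField 𝒪)]
  {m : ℕ} {e : Fin m → ℕ} (B : ∀ i, Block 𝒪 (e i)) (g : ℕ)

/-- The local map chosen by an index. -/
abbrev pick (c : ∀ i, Fin (B i).K) : ∀ i, LocalMap 𝒪 (e i) := fun i => (B i).comp (c i)

/-- The component raised at the first `j` primes. -/
def curChoice (j : ℕ) (i : Fin m) : Fin (B i).K := if (i : ℕ) < j then (B i).st else (B i).ur

/-- Choices allowed for the new part at the `j`-th prime. -/
def IsNewChoice (j : Fin m) (c : ∀ i, Fin (B i).K) : Prop :=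
  c j ≠ (B j).ur ∧ ∀ i : Fin m, (j : ℕ) < i → c i = (B i).ur

/-- The point where the `j`-th prime is about to be raised. -/
def ptChoice (j : Fin m) (i : Fin m) : LocalMap 𝒪 (e i) :=
  if i = j then (B i).pt else (B i).comp (curChoice B j i)

/-- Patched levels raised at one prime after the other. -/
structure Tower (D : ℕ) : Type 1 where
  /-- The ideals of the diamond variables, eventually inside every truncation ideal. -/
  J : ℕ → Ideal (PS (Fin D) 𝒪)
  J_aug : ∀ n, ∀ s ∈ J n, MvPowerSeries.constantCoeff s = 0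
  J_trunc : ∀ k, ∀ᶠ n in Filter.atTop, J n ≤ trunc 𝒪 D k
  /-- The rank of each level. -/
  d : ℕ → ℕ
  d_pos : 0 < d 0
  /-- The action of the coordinate ring on each finite level. -/
  A : ∀ j, PS (Fin (nVars e g)) 𝒪 →+* Matrix (Fin (d j)) (Fin (d j)) 𝒪
  /-- The action on each level at each index. -/
  act : ∀ j n, PS (Fin (nVars e g)) 𝒪 →+* Matrix (Fin (d j)) (Fin (d j)) (PS (Fin D) 𝒪 ⧸ J n)
  act_aug : ∀ j n f,
    (act j n f).map (Ideal.Quotient.lift (J n) MvPowerSeries.constantCoeff (J_aug n)) = A j f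
  scalar : ∀ j, j ≤ m → ∀ s, ∃ r, (PatchBase.mk J J_aug J_trunc (act j) (act_aug j) :
    PatchBase 𝒪 D (d j) (PS (Fin (nVars e g)) 𝒪) (A j)).limit r = Matrix.scalar (Fin (d j)) s
  params : (∑ i, (B i).w) + g ≤ D
  /-- The two degeneracy maps, from two copies of level `j` to level `j + 1`. -/
  up : ∀ j : Fin m, ∀ n, Matrix (Fin (d (j + 1))) (Fin (d j) ⊕ Fin (d j)) (PS (Fin D) 𝒪 ⧸ J n)
  /-- Their transfers, from level `j + 1` to two copies of level `j`. -/
  down : ∀ j : Fin m, ∀ n, Matrix (Fin (d j) ⊕ Fin (d j)) (Fin (d (j + 1))) (PS (Fin D) 𝒪 ⧸ J n)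
  up_comm : ∀ (j : Fin m) n r, up j n * twoCopies (act j n r) = act (j + 1) n r * up j n
  down_comm : ∀ (j : Fin m) n r, down j n * act (j + 1) n r = twoCopies (act j n r) * down j n
  up_inv : ∀ (j : Fin m) n,
    ∃ X : Matrix (Fin (d j) ⊕ Fin (d j)) (Fin (d (j + 1))) (PS (Fin D) 𝒪 ⧸ J n),
    X * up j n = 1
  down_inv : ∀ (j : Fin m) n,
    ∃ X : Matrix (Fin (d (j + 1))) (Fin (d j) ⊕ Fin (d j)) (PS (Fin D) 𝒪 ⧸ J n),
    down j n * X = 1
  /-- The product `down * up` at each step, as series in the coordinates at that prime. -/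
  G : ∀ j : Fin m, Fin 2 → Fin 2 → PS (Fin (e j)) 𝒪
  G_det : ∀ j, (B j).pt.hom (G j 0 0 * G j 1 1 - G j 0 1 * G j 1 0) = 0
  down_up : ∀ (j : Fin m) n, down j n * up j n = Matrix.fromBlocks
    (act j n (blockEmb g j (G j 0 0))) (act j n (blockEmb g j (G j 0 1)))
    (act j n (blockEmb g j (G j 1 0))) (act j n (blockEmb g j (G j 1 1)))
  kill_base : ∀ t ∈ compIdeal g (pick B (curChoice B 0)), ∀ n, act 0 n t = 0
  kill_new : ∀ (j : Fin m) t, (∀ c, IsNewChoice B j c → t ∈ compIdeal g (pick B c)) →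
    ∀ n, ∃ X : Matrix (Fin (d j) ⊕ Fin (d j)) (Fin (d (j + 1))) (PS (Fin D) 𝒪 ⧸ J n),
      act (j + 1) n t = up j n * X

namespace Tower

variable {B g} {D : ℕ} (𝕋 : Tower B g D)

/-- The patched system of a level. -/
abbrev base (j : ℕ) : PatchBase 𝒪 D (𝕋.d j) (PS (Fin (nVars e g)) 𝒪) (𝕋.A j) :=
  PatchBase.mk 𝕋.J 𝕋.J_aug 𝕋.J_trunc (𝕋.act j) (𝕋.act_aug j)

include 𝕋 in
/-- The ring of a choice of components has dimension at most `D + 1`. -/
theorem dim_le (c : ∀ i, Fin (B i).K) :
    ringKrullDim (PS (Fin (nVars e g)) 𝒪 ⧸ compIdeal g (pick B c)) ≤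
      ((D + 1 : ℕ) : WithBot ℕ∞) := by
  refine (ringKrullDim_quotient_compIdeal_le g _ fun i => (B i).hasParams (c i)).trans ?_
  have h : ∑ i, (pick B c i).f ≤ ∑ i, (B i).w := Finset.sum_le_sum fun i _ => (B i).f_le (c i)
  have hp := 𝕋.params
  exact Nat.cast_le.mpr (by
    show ∑ i, (pick B c i).f + g + 1 ≤ D + 1
    omega)

/-- The raised component is in the support of every level. -/
theorem ker_le (j : ℕ) (hj : j ≤ m) :
    RingHom.ker (𝕋.base j).limit ≤ compIdeal g (pick B (curChoice B j)) := by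
  classical
  induction j with
  | zero =>
    have : IsDomain (PS (Fin D) 𝒪) := NoZeroDivisors.to_isDomain _
    refine ker_le_of_component 𝕋.d_pos _ (𝕋.scalar 0 (Nat.zero_le _))
      (ringKrullDim_powerSeries 𝒪 D).ge _ (𝕋.dim_le _) fun t ht => ?_
    rw [← matLim_act (𝕋.base 0) t,
      show (fun n => 𝕋.act 0 n t) = fun n => 0 from funext fun n => 𝕋.kill_base t ht n]
    exact matLim_zero
  | succ j ih =>
    let i₀ : Fin m := ⟨j, hj⟩
    have hQle : compIdeal g (pick B (curChoice B j)) ≤ compIdeal g (ptChoice B i₀) := by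
      refine compIdeal_mono g _ _ fun i => ?_
      unfold pick ptChoice
      by_cases h : i = i₀
      · subst h
        rw [if_pos rfl, curChoice, if_neg (lt_irrefl j)]
        exact (B i₀).ur_le_pt
      · rw [if_neg h]
        exact LocalMap.le_refl _
    let ι := {c : ∀ i, Fin (B i).K // IsNewChoice B i₀ c}
    have hnew : IsNewChoice B i₀ (curChoice B (j + 1)) := by
      refine ⟨?_, fun i hi => ?_⟩
      · rw [curChoice, if_pos (Nat.lt_succ_self j)]
        exact (B i₀).st_ne_ur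
      · rw [curChoice, if_neg (by have : j < i := hi; omega)]
    have h := ker_le_step (J := 𝕋.J) (haug := 𝕋.J_aug) (hJ := 𝕋.J_trunc) (A' := 𝕋.A j)
      (A'' := 𝕋.A (j + 1)) (h' := 𝕋.act_aug j) (h'' := 𝕋.act_aug (j + 1)) (RingHom.id _)
      (fun n => 𝕋.up i₀ n) (fun n => 𝕋.down i₀ n)
      (fun n r => 𝕋.up_comm i₀ n r) (fun n r => 𝕋.down_comm i₀ n r)
      (fun n => 𝕋.up_inv i₀ n) (fun n => 𝕋.down_inv i₀ n)
      (blockEmb g i₀ (𝕋.G i₀ 0 0)) (blockEmb g i₀ (𝕋.G i₀ 0 1))
      (blockEmb g i₀ (𝕋.G i₀ 1 0)) (blockEmb g i₀ (𝕋.G i₀ 1 1))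
      (fun n => 𝕋.down_up i₀ n) (𝕋.scalar j (Nat.le_of_succ_le hj)) (𝕋.scalar (j + 1) hj)
      (fun c : ι => compIdeal g (pick B c.1)) (fun c => compIdeal_isPrime g _)
      (fun c => 𝕋.dim_le c.1)
      (fun t ht n => 𝕋.kill_new i₀ t (fun c hc => ht ⟨c, hc⟩) n)
      (compIdeal g (ptChoice B i₀)) ((ih (Nat.le_of_succ_le hj)).trans hQle) ?_
      ⟨curChoice B (j + 1), hnew⟩ ?_
    · exact h
    · rw [← map_mul, ← map_mul, ← map_sub]
      refine blockEmb_mem_compIdeal g (ptChoice B i₀) (?_ : (ptChoice B i₀ i₀).hom _ = 0)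
      rw [ptChoice, if_pos rfl]
      exact 𝕋.G_det i₀
    · rintro ⟨c, hc⟩ hne
      obtain ⟨i, hi⟩ : ∃ i, c i ≠ curChoice B (j + 1) i := by
        by_contra hall
        push Not at hall
        exact hne (Subtype.ext (funext hall))
      rcases lt_trichotomy (i : ℕ) j with hij | hij | hij
      · rw [curChoice, if_pos (by omega)] at hi
        obtain ⟨x, hx, hx'⟩ := (B i).sep (c i) hi
        refine ⟨blockEmb g i x, blockEmb_mem_compIdeal g (pick B c) hx, ?_⟩
        refine blockEmb_notMem_compIdeal g (ptChoice B i₀) (?_ : (ptChoice B i₀ i).hom x ≠ 0)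
        rw [ptChoice, if_neg (fun h => by rw [h] at hij; exact lt_irrefl _ hij), curChoice,
          if_pos (show (i : ℕ) < (i₀ : ℕ) from hij)]
        exact hx'
      · obtain rfl : i = i₀ := Fin.ext hij
        rw [curChoice, if_pos (Nat.lt_succ_self j)] at hi
        obtain ⟨x, hx, hx'⟩ := (B i₀).sep_pt (c i₀) hi hc.1
        refine ⟨blockEmb g i₀ x, blockEmb_mem_compIdeal g (pick B c) hx, ?_⟩
        refine blockEmb_notMem_compIdeal g (ptChoice B i₀) (?_ : (ptChoice B i₀ i₀).hom x ≠ 0)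
        rw [ptChoice, if_pos rfl]
        exact hx'
      · exact absurd ((hc.2 i hij).trans (by rw [curChoice, if_neg (by omega)])) hi

/-- The component raised at every prime is in the support of the top level. -/
theorem ker_le_top :
    RingHom.ker (𝕋.base m).limit ≤ compIdeal g (pick B fun i => (B i).st) := by
  have h : curChoice B m = fun i => (B i).st := funext fun i => by rw [curChoice, if_pos i.2]
  exact h ▸ 𝕋.ker_le m le_rfl

end Tower

end Fermat.Agent.Raising
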