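import Fermat.Agent.LevelLowering.Lift
import Fermat.Agent.LevelLowering.MinimalRT
import Fermat.Agent.Raising.Reach
import Fermat.Agent.Raising.Tower

/-!
# Taylor–Wiles levels at every step of the raising

`RaiseLevel` is what one Taylor–Wiles index provides: a ring with the coordinates at the raised
primes, acting on the levels `0, …, m`, with degeneracy maps and points.  A family of them, with a
point `w` of the ring at the top, gives a `Tower` (`RaiseSys.tower`), hence `RaiseSys.ker_le_point`: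
`w` is a point of the top finite level as soon as it lies on the component raised everywhere.
-/

noncomputable section

namespace Fermat.Agent.Raising

open IsLocalRing Fermat.Agent.LevelLowering Filter

local notation "PS" => MvPowerSeries

variable {𝒪 : Type} [CommRing 𝒪] [IsDomain 𝒪] [IsDiscreteValuationRing 𝒪]
  [IsAdicComplete (maximalIdeal 𝒪) 𝒪] [Finite (ResidueField 𝒪)]
  {m : ℕ} {e : Fin m → ℕ} (B : ∀ i, Block 𝒪 (e i)) {h g D : ℕ}
  {R₀ : Type} [CommRing R₀] [Algebra 𝒪 R₀]

/-- The coordinates at every raised prime and the prescribed ones, at the finite level. -/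
structure RaiseBase (h : ℕ) (R₀ : Type) [CommRing R₀] [Algebra 𝒪 R₀] : Type where
  /-- The rank of each level. -/
  d : ℕ → ℕ
  /-- The action on each level. -/
  A : ∀ j, R₀ →+* Matrix (Fin (d j)) (Fin (d j)) 𝒪
  /-- The coordinates at each raised prime. -/
  coord : ∀ i, Fin (e i) → R₀
  /-- The prescribed coordinates. -/
  extra : Fin h → R₀
  /-- The product `down * up` at each step, as series in the coordinates at that prime. -/
  G : ∀ j : Fin m, Fin 2 → Fin 2 → PS (Fin (e j)) 𝒪
  G_det : ∀ j, (B j).pt.hom (G j 0 0 * G j 1 1 - G j 0 1 * G j 1 0) = 0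

variable {B}

/-- One Taylor–Wiles index. -/
structure RaiseLevel (S₀ : RaiseBase B h R₀) (g D : ℕ) : Type 1 where
  /-- The local ring at this index. -/
  R : Type
  [instCommRing : CommRing R]
  [instLocal : IsLocalRing R]
  [instNoetherian : IsNoetherianRing R]
  [instComplete : IsAdicComplete (maximalIdeal R) R]
  [instAlgebra : Algebra 𝒪 R]
  [instLocalHom : IsLocalHom (algebraMap 𝒪 R)]
  residue_surjective : Function.Surjective (residue R ∘ algebraMap 𝒪 R)
  /-- The map onto the finite ring. -/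
  proj : R →ₐ[𝒪] R₀
  proj_surjective : Function.Surjective proj
  /-- The coordinates at each raised prime. -/
  coord : ∀ i, Fin (e i) → R
  coord_mem : ∀ i c, coord i c ∈ maximalIdeal R
  proj_coord : ∀ i c, proj (coord i c) = S₀.coord i c
  /-- The prescribed coordinates. -/
  extra : Fin h → R
  extra_mem : ∀ j, extra j ∈ maximalIdeal R
  proj_extra : ∀ j, proj (extra j) = S₀.extra j
  /-- `g` elements generating the maximal ideal with the `relIdeal` of all the coordinates. -/
  gens : Fin g → R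
  gens_mem : ∀ j, gens j ∈ maximalIdeal R
  gens_le : maximalIdeal R ≤
    relIdeal (𝒪 := 𝒪) (blockTuple coord extra) ⊔ Ideal.span (Set.range gens)
  /-- The ideal of the power series ring cutting out the diamond ring. -/
  J : Ideal (PS (Fin D) 𝒪)
  J_aug : ∀ s ∈ J, MvPowerSeries.constantCoeff s = 0
  /-- The action on each level over the diamond ring. -/
  act : ∀ j, R →+* Matrix (Fin (S₀.d j)) (Fin (S₀.d j)) (PS (Fin D) 𝒪 ⧸ J)
  act_algebraMap : ∀ j c, act j (algebraMap 𝒪 R c) =
    Matrix.scalar (Fin (S₀.d j)) (Ideal.Quotient.mk J (MvPowerSeries.C c))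
  act_aug : ∀ j x, (act j x).map (Ideal.Quotient.lift J MvPowerSeries.constantCoeff J_aug) =
    S₀.A j (proj x)
  /-- Elements of the ring acting as the diamond variables. -/
  dia : Fin D → R
  dia_mem : ∀ i, dia i ∈ maximalIdeal R
  proj_dia : ∀ i, proj (dia i) = 0
  act_dia : ∀ j, j ≤ m → ∀ i, act j (dia i) =
    Matrix.scalar (Fin (S₀.d j)) (Ideal.Quotient.mk J (MvPowerSeries.X i))
  /-- The two degeneracy maps, from two copies of level `j` to level `j + 1`. -/
  up : ∀ j : Fin m,
    Matrix (Fin (S₀.d (j + 1))) (Fin (S₀.d j) ⊕ Fin (S₀.d j)) (PS (Fin D) 𝒪 ⧸ J)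
  /-- Their transfers, from level `j + 1` to two copies of level `j`. -/
  down : ∀ j : Fin m,
    Matrix (Fin (S₀.d j) ⊕ Fin (S₀.d j)) (Fin (S₀.d (j + 1))) (PS (Fin D) 𝒪 ⧸ J)
  up_comm : ∀ (j : Fin m) x, up j * twoCopies (act j x) = act (j + 1) x * up j
  down_comm : ∀ (j : Fin m) x, down j * act (j + 1) x = twoCopies (act j x) * down j
  up_inv : ∀ j : Fin m, ∃ X : Matrix (Fin (S₀.d j) ⊕ Fin (S₀.d j)) (Fin (S₀.d (j + 1)))
    (PS (Fin D) 𝒪 ⧸ J), X * up j = 1
  down_inv : ∀ j : Fin m, ∃ X : Matrix (Fin (S₀.d (j + 1))) (Fin (S₀.d j) ⊕ Fin (S₀.d j))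
    (PS (Fin D) 𝒪 ⧸ J), down j * X = 1
  down_up : ∀ j : Fin m, down j * up j = Matrix.fromBlocks
    (act j (evalSeries (coord j) (coord_mem j) (S₀.G j 0 0)))
    (act j (evalSeries (coord j) (coord_mem j) (S₀.G j 0 1)))
    (act j (evalSeries (coord j) (coord_mem j) (S₀.G j 1 0)))
    (act j (evalSeries (coord j) (coord_mem j) (S₀.G j 1 1)))
  /-- The index type of the points of each level. -/
  ι : ℕ → Type
  /-- The ring of each point. -/
  F : ∀ j, ι j → Type
  [instCommRingF : ∀ j a, CommRing (F j a)]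
  [instLocalF : ∀ j a, IsLocalRing (F j a)]
  [instAlgebraF : ∀ j a, Algebra 𝒪 (F j a)]
  [instCompleteF : ∀ j a, IsAdicComplete (maximalIdeal (F j a)) (F j a)]
  /-- The points of each level, maps out of the ring. -/
  pt : ∀ j a, R →ₐ[𝒪] F j a
  pt_mem : ∀ j a, ∀ x ∈ maximalIdeal R, pt j a x ∈ maximalIdeal (F j a)
  kills : ∀ x, (∀ a, pt 0 a x = 0) → act 0 x = 0
  base_reach : ∀ a i, ((B i).comp (curChoice B 0 i)).Reaches fun c => pt 0 a (coord i c)
  /-- The points of level `j + 1` new at the prime just raised. -/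
  IsNew : ∀ j : Fin m, ι (j + 1) → Prop
  new_reach : ∀ (j : Fin m) a, IsNew j a → ∃ c, IsNewChoice B j c ∧
    ∀ i, ((B i).comp (c i)).Reaches fun x => pt (j + 1) a (coord i x)
  kill_new : ∀ (j : Fin m) x, (∀ a, IsNew j a → pt (j + 1) a x = 0) →
    ∃ X : Matrix (Fin (S₀.d j) ⊕ Fin (S₀.d j)) (Fin (S₀.d (j + 1))) (PS (Fin D) 𝒪 ⧸ J),
      act (j + 1) x = up j * X

attribute [instance] RaiseLevel.instCommRing RaiseLevel.instLocal RaiseLevel.instNoetherian
  RaiseLevel.instComplete RaiseLevel.instAlgebra RaiseLevel.instLocalHom RaiseLevel.instCommRingF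
  RaiseLevel.instLocalF RaiseLevel.instAlgebraF RaiseLevel.instCompleteF

/-- A family of Taylor–Wiles indices. -/
structure RaiseSys (S₀ : RaiseBase B h R₀) (g D : ℕ) : Type 1 where
  /-- The data at each index. -/
  L : ℕ → RaiseLevel S₀ g D
  trunc_le : ∀ k, ∀ᶠ n in atTop, (L n).J ≤ trunc 𝒪 D k
  d_pos : 0 < S₀.d 0
  params : (∑ i, (B i).w) + (h + g) ≤ D

namespace RaiseSys

variable [IsLocalRing R₀] [IsNoetherianRing R₀] [IsAdicComplete (maximalIdeal R₀) R₀]
  [IsLocalHom (algebraMap 𝒪 R₀)] {S₀ : RaiseBase B h R₀} (Y : RaiseSys S₀ g D)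

omit [Finite (ResidueField 𝒪)] [IsNoetherianRing R₀] [IsAdicComplete (maximalIdeal R₀) R₀]
  [IsLocalHom (algebraMap 𝒪 R₀)] in
/-- The projections respect the maximal ideals. -/
theorem map_mem_maximalIdeal_proj (n : ℕ) {x : (Y.L n).R} (hx : x ∈ maximalIdeal (Y.L n).R) :
    (Y.L n).proj x ∈ maximalIdeal R₀ :=
  map_maximalIdeal_of_surjective ((Y.L n).proj : (Y.L n).R →+* R₀) (Y.L n).proj_surjective ▸
    Ideal.mem_map_of_mem _ hx

omit [IsNoetherianRing R₀] [Finite (ResidueField 𝒪)] [IsAdicComplete (maximalIdeal R₀) R₀] in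
include Y in
/-- Free coordinates can be chosen over fixed elements of the base. -/
theorem exists_coordinates : ∃ (x₀ : Fin g → R₀) (x : ∀ n, Fin g → (Y.L n).R),
    ∀ n, (∀ j, x n j ∈ maximalIdeal (Y.L n).R) ∧ (∀ j, (Y.L n).proj (x n j) = x₀ j) ∧
      maximalIdeal (Y.L n).R ≤ relIdeal (𝒪 := 𝒪) (blockTuple (Y.L n).coord (Y.L n).extra) ⊔
        Ideal.span (Set.range (x n)) := by
  have hc₀ : ∀ k, blockTuple S₀.coord S₀.extra k ∈ maximalIdeal R₀ :=
    blockTuple_mem
      (fun i c => (Y.L 0).proj_coord i c ▸ Y.map_mem_maximalIdeal_proj 0 ((Y.L 0).coord_mem i c))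
      fun j => (Y.L 0).proj_extra j ▸ Y.map_mem_maximalIdeal_proj 0 ((Y.L 0).extra_mem j)
  obtain ⟨x₀, hx₀⟩ := exists_universal_lift (𝒪 := 𝒪) (g := g) _ hc₀
  choose x hx using fun n => hx₀ (Y.L n).R (Y.L n).residue_surjective (Y.L n).proj
    (Y.L n).proj_surjective (blockTuple (Y.L n).coord (Y.L n).extra)
    (fun k => by
      obtain ⟨⟨i, c⟩ | j, rfl⟩ := varIdx_cases k
      · simp [(Y.L n).proj_coord]
      · simp [(Y.L n).proj_extra])
    (blockTuple_mem (Y.L n).coord_mem (Y.L n).extra_mem)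
    (Y.L n).gens (Y.L n).gens_mem (Y.L n).gens_le
  exact ⟨x₀, x, hx⟩

/-- The lifts of the fixed free coordinates. -/
def free (n : ℕ) : Fin g → (Y.L n).R := Y.exists_coordinates.choose_spec.choose n

omit [IsNoetherianRing R₀] [Finite (ResidueField 𝒪)] [IsAdicComplete (maximalIdeal R₀) R₀] in
/-- The free values lie in the maximal ideal. -/
theorem free_mem (n : ℕ) (j : Fin g) : Y.free n j ∈ maximalIdeal (Y.L n).R :=
  (Y.exists_coordinates.choose_spec.choose_spec n).1 j

/-- The images of the variables. -/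
def vals (n : ℕ) : Fin (nVars e (h + g)) → (Y.L n).R :=
  blockTuple (Y.L n).coord (Fin.append (Y.L n).extra (Y.free n))

omit [IsNoetherianRing R₀] [Finite (ResidueField 𝒪)] [IsAdicComplete (maximalIdeal R₀) R₀] in
/-- The values lie in the maximal ideal. -/
theorem vals_mem (n : ℕ) (k : Fin (nVars e (h + g))) : Y.vals n k ∈ maximalIdeal (Y.L n).R :=
  blockTuple_mem (Y.L n).coord_mem (fun j => by
    induction j using Fin.addCases with
    | left j => rw [Fin.append_left]; exact (Y.L n).extra_mem j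
    | right j => rw [Fin.append_right]; exact Y.free_mem n j) k

/-- The coordinates on the `n`-th ring. -/
def coords (n : ℕ) : PS (Fin (nVars e (h + g))) 𝒪 →ₐ[𝒪] (Y.L n).R :=
  evalSeries (Y.vals n) (Y.vals_mem n)

omit [IsNoetherianRing R₀] [Finite (ResidueField 𝒪)] [IsAdicComplete (maximalIdeal R₀) R₀] in
/-- The coordinates send the variables to the values. -/
@[simp]
theorem coords_X (n : ℕ) (k : Fin (nVars e (h + g))) :
    Y.coords n (MvPowerSeries.X k) = Y.vals n k :=
  evalSeries_X _ _ k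

omit [IsNoetherianRing R₀] [Finite (ResidueField 𝒪)] [IsAdicComplete (maximalIdeal R₀) R₀] in
/-- The coordinates generate the ring of each level. -/
theorem coords_surjective (n : ℕ) : Function.Surjective (Y.coords n) := by
  refine surjective_of_maximalIdeal_le (Y.L n).residue_surjective _
    (fun k => by rw [coords_X]; exact Y.vals_mem n k)
    ((Y.exists_coordinates.choose_spec.choose_spec n).2.2.trans ?_)
  simp only [coords_X, relIdeal]
  refine sup_le (sup_le (sup_le ?_ (le_sup_right.trans le_sup_left)) le_sup_right) ?_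
  · refine le_trans (Ideal.span_mono ?_) (le_sup_left.trans le_sup_left)
    rintro _ ⟨k, rfl⟩
    obtain ⟨⟨i, c⟩ | j, rfl⟩ := varIdx_cases k
    · exact ⟨varIdx (.inl ⟨i, c⟩), by simp [vals]⟩
    · exact ⟨varIdx (.inr (Fin.castAdd g j)), by simp [vals]⟩
  · refine le_trans (Ideal.span_mono ?_) (le_sup_left.trans le_sup_left)
    rintro _ ⟨j, rfl⟩
    exact ⟨varIdx (.inr (Fin.natAdd h j)), by simp [vals]; rfl⟩

omit [IsNoetherianRing R₀] [Finite (ResidueField 𝒪)] [IsAdicComplete (maximalIdeal R₀) R₀] in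
/-- On a block the coordinates evaluate at the local coordinates. -/
theorem coords_blockEmb (n : ℕ) (i : Fin m) (s : PS (Fin (e i)) 𝒪) :
    Y.coords n (blockEmb (h + g) i s) = evalSeries ((Y.L n).coord i) ((Y.L n).coord_mem i) s := by
  have hl : ∀ c ∈ maximalIdeal 𝒪, algebraMap 𝒪 (Y.L n).R c ∈ maximalIdeal (Y.L n).R :=
    fun c hc => map_nonunit (algebraMap 𝒪 (Y.L n).R) c hc
  exact AlgHom.congr_fun (evalSeries_comp hl _ _ (Y.coords n)
    (fun k => by rw [coords_X]; exact Y.vals_mem n k) _ ((Y.L n).coord_mem i)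
    fun c => by simp [vals]) s

/-- The coordinates on the finite level. -/
def aug : PS (Fin (nVars e (h + g))) 𝒪 →ₐ[𝒪] R₀ := (Y.L 0).proj.comp (Y.coords 0)

omit [IsNoetherianRing R₀] [Finite (ResidueField 𝒪)] [IsAdicComplete (maximalIdeal R₀) R₀] in
/-- The reduction to the base ring is surjective. -/
theorem aug_surjective : Function.Surjective Y.aug :=
  (Y.L 0).proj_surjective.comp (Y.coords_surjective 0)

omit [IsNoetherianRing R₀] [Finite (ResidueField 𝒪)] in
/-- The coordinates of all levels have one reduction to the base ring. -/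
theorem proj_coords (n : ℕ) (f : PS (Fin (nVars e (h + g))) 𝒪) :
    (Y.L n).proj (Y.coords n f) = Y.aug f := by
  have H : (Y.L n).proj.comp (Y.coords n) = Y.aug := by
    refine algHom_ext_series (fun k => ?_) fun k => ?_
    · rw [AlgHom.comp_apply, coords_X]
      exact Y.map_mem_maximalIdeal_proj n (Y.vals_mem n k)
    · simp only [aug, AlgHom.comp_apply, coords_X, vals]
      obtain ⟨⟨i, c⟩ | j, rfl⟩ := varIdx_cases k
      · rw [blockTuple_inl, blockTuple_inl, (Y.L n).proj_coord, (Y.L 0).proj_coord]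
      · rw [blockTuple_inr, blockTuple_inr]
        induction j using Fin.addCases with
        | left j =>
          rw [Fin.append_left, Fin.append_left, (Y.L n).proj_extra, (Y.L 0).proj_extra]
        | right j =>
          rw [Fin.append_right, Fin.append_right]
          exact ((Y.exists_coordinates.choose_spec.choose_spec n).2.1 j).trans
            ((Y.exists_coordinates.choose_spec.choose_spec 0).2.1 j).symm
  exact AlgHom.congr_fun H f

omit [IsNoetherianRing R₀] [Finite (ResidueField 𝒪)] [IsAdicComplete (maximalIdeal R₀) R₀] in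
/-- The augmentation sends block variables to the coordinates of the base. -/
theorem aug_coord (i : Fin m) (c : Fin (e i)) :
    Y.aug (MvPowerSeries.X (varIdx (.inl ⟨i, c⟩))) = S₀.coord i c := by
  simp [aug, vals, (Y.L 0).proj_coord]

/-- The patched system of a level. -/
def sys (j : ℕ) : PatchBase 𝒪 D (S₀.d j) (PS (Fin (nVars e (h + g))) 𝒪)
    ((S₀.A j).comp Y.aug.toRingHom) where
  J n := (Y.L n).J
  J_aug n := (Y.L n).J_aug
  J_trunc := Y.trunc_le
  act n := ((Y.L n).act j).comp (Y.coords n).toRingHom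
  act_aug n f := by
    show ((Y.L n).act j (Y.coords n f)).map _ = S₀.A j (Y.aug f)
    rw [(Y.L n).act_aug, proj_coords]

omit [Finite (ResidueField 𝒪)] [IsLocalRing R₀] [IsNoetherianRing R₀]
  [IsAdicComplete (maximalIdeal R₀) R₀] [IsLocalHom (algebraMap 𝒪 R₀)] in
/-- The action of a series in the diamonds is scalar. -/
theorem act_evalSeries_dia (n j : ℕ) (hj : j ≤ m) (s : PS (Fin D) 𝒪) :
    (Y.L n).act j (evalSeries (Y.L n).dia (Y.L n).dia_mem s) =
      Matrix.scalar (Fin (S₀.d j)) (Ideal.Quotient.mk (Y.L n).J s) := by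
  have hJ : (Y.L n).J ≤ maximalIdeal (PS (Fin D) 𝒪) := fun x hx => by
    rw [mem_maximalIdeal, mem_nonunits_iff, MvPowerSeries.isUnit_iff_constantCoeff,
      (Y.L n).J_aug x hx]
    exact not_isUnit_zero
  have : Nontrivial (PS (Fin D) 𝒪 ⧸ (Y.L n).J) :=
    Ideal.Quotient.nontrivial_iff.mpr fun htop => (maximalIdeal.isMaximal _).ne_top
      (top_le_iff.mp (htop ▸ hJ))
  have : IsLocalRing (PS (Fin D) 𝒪 ⧸ (Y.L n).J) :=
    .of_surjective' (Ideal.Quotient.mk _) Ideal.Quotient.mk_surjective
  have H : ((Y.L n).act j).comp (evalSeries (Y.L n).dia (Y.L n).dia_mem).toRingHom =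
      (Matrix.scalar (Fin (S₀.d j))).comp (Ideal.Quotient.mk (Y.L n).J) := by
    refine matrixHom_ext _ _ (fun c => ?_) (fun i => ?_) fun i a b => ?_
    · simp [MvPowerSeries.c_eq_algebraMap, (Y.L n).act_algebraMap]
    · simp [(Y.L n).act_dia j hj]
    · show (Y.L n).act j (evalSeries _ _ (MvPowerSeries.X i)) a b ∈ _
      rw [evalSeries_X, (Y.L n).act_dia j hj, Matrix.scalar_apply, Matrix.diagonal_apply]
      split_ifs
      · have : IsLocalHom (Ideal.Quotient.mk (Y.L n).J) :=
          IsLocalHom.of_surjective _ Ideal.Quotient.mk_surjective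
        exact map_nonunit _ _ (X_mem_maximalIdeal_series i)
      · exact zero_mem _
  exact RingHom.congr_fun H s

/-- A series in the diamonds is a scalar of every patched level, by one element, killed by the
augmentation when the series has no constant term. -/
theorem exists_scalar (s : PS (Fin D) 𝒪) : ∃ r,
    (∀ j, j ≤ m → (Y.sys j).limit r = Matrix.scalar (Fin (S₀.d j)) s) ∧
      (MvPowerSeries.constantCoeff s = 0 → Y.aug r = 0) := by
  classical
  have : Finite (ResidueField (PS (Fin (nVars e (h + g))) 𝒪)) := finite_residueField_series _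
  choose f hf using fun n => Y.coords_surjective n (evalSeries (Y.L n).dia (Y.L n).dia_mem s)
  obtain ⟨r, hclose, -⟩ := (Y.sys 0).exists_limit_of_seq f
  refine ⟨r, fun j hj => ?_, fun hs => ?_⟩
  · obtain ⟨r', hclose', hr'⟩ := (Y.sys j).exists_limit_of_seq f
    have hrr : r' = r := by
      refine sub_eq_zero.mp (IsHausdorff.haus'
        (I := maximalIdeal (PS (Fin (nVars e (h + g))) 𝒪)) _ fun k => ?_)
      rw [SModEq.zero, smul_eq_mul, Ideal.mul_top]
      obtain ⟨n, h1, h2⟩ := ((hclose k).and (hclose' k)).exists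
      simpa using sub_mem h1 h2
    subst hrr
    refine PatchBase.matrix_ext fun k => ?_
    obtain ⟨n, hle, hn⟩ := (hr' k).exists
    rw [hn, show (Y.sys j).act n (f n) = (Y.L n).act j (Y.coords n (f n)) from rfl, hf,
      act_evalSeries_dia Y n j hj]
    ext a b
    show Ideal.Quotient.factor hle
        (Matrix.scalar (Fin (S₀.d j)) (Ideal.Quotient.mk ((Y.sys j).J n) s) a b) =
      Ideal.Quotient.mk _ (Matrix.scalar (Fin (S₀.d j)) s a b)
    by_cases hab : a = b
    · subst hab
      simp only [Matrix.scalar_apply, Matrix.diagonal_apply_eq]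
      exact Ideal.Quotient.factor_mk hle s
    · simp only [Matrix.scalar_apply, Matrix.diagonal_apply_ne _ hab]
      exact (map_zero (Ideal.Quotient.factor hle)).trans (map_zero _).symm
  · have h0 : ∀ n, Y.aug (f n) = 0 := fun n => by
      rw [← proj_coords Y n, hf]
      have H : (Y.L n).proj.comp (evalSeries (Y.L n).dia (Y.L n).dia_mem) =
          (Algebra.ofId 𝒪 R₀).comp (evalSeries (fun _ : Fin D => (0 : 𝒪)) fun _ => zero_mem _) := by
        refine algHom_ext_series (fun i => ?_) fun i => ?_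
        · rw [AlgHom.comp_apply, evalSeries_X, (Y.L n).proj_dia]
          exact zero_mem _
        · simp [(Y.L n).proj_dia]
      rw [← AlgHom.comp_apply, H, AlgHom.comp_apply]
      have hev : evalSeries (fun _ : Fin D => (0 : 𝒪)) (fun _ => zero_mem _) s =
          MvPowerSeries.constantCoeff s := by
        let cc : PS (Fin D) 𝒪 →ₐ[𝒪] 𝒪 :=
          { MvPowerSeries.constantCoeff (σ := Fin D) (R := 𝒪) with
            commutes' := fun c => MvPowerSeries.constantCoeff_C c }
        have hcc : evalSeries (fun _ : Fin D => (0 : 𝒪)) (fun _ => zero_mem _) = cc :=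
          algHom_ext_series (fun i => by rw [evalSeries_X]; exact zero_mem _)
            fun i => by rw [evalSeries_X]; exact (MvPowerSeries.constantCoeff_X i).symm
        exact AlgHom.congr_fun hcc s
      rw [hev, hs, map_zero]
    refine IsHausdorff.haus' (I := maximalIdeal R₀) _ fun k => ?_
    rw [SModEq.zero, smul_eq_mul, Ideal.mul_top]
    obtain ⟨n, hn⟩ := (hclose k).exists
    have hm := Ideal.mem_map_of_mem (Y.aug : PS (Fin (nVars e (h + g))) 𝒪 →+* R₀) hn
    rw [Ideal.map_pow, map_maximalIdeal_of_surjective (Y.aug : PS (Fin (nVars e (h + g))) 𝒪 →+* R₀)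
      Y.aug_surjective] at hm
    have : Y.aug (f n - r) ∈ maximalIdeal R₀ ^ k := hm
    rwa [map_sub, h0, zero_sub, neg_mem_iff] at this

/-- The tower of the family. -/
def tower : Tower B (h + g) D where
  J n := (Y.L n).J
  J_aug n := (Y.L n).J_aug
  J_trunc := Y.trunc_le
  d := S₀.d
  d_pos := Y.d_pos
  A j := (S₀.A j).comp Y.aug.toRingHom
  act j n := ((Y.L n).act j).comp (Y.coords n).toRingHom
  act_aug j n f := (Y.sys j).act_aug n f
  scalar j hj s := (Y.exists_scalar s).imp fun _ hr => hr.1 j hj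
  params := Y.params
  up j n := (Y.L n).up j
  down j n := (Y.L n).down j
  up_comm j n r := (Y.L n).up_comm j _
  down_comm j n r := (Y.L n).down_comm j _
  up_inv j n := (Y.L n).up_inv j
  down_inv j n := (Y.L n).down_inv j
  G := S₀.G
  G_det := S₀.G_det
  down_up j n := by
    simp only [RingHom.comp_apply, AlgHom.toRingHom_eq_coe, RingHom.coe_coe, coords_blockEmb]
    exact (Y.L n).down_up j
  kill_base t ht n := (Y.L n).kills _ fun a =>
    map_eq_zero_of_reaches (F := (Y.L n).F 0 a) (fun i => (B i).comp (curChoice B 0 i))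
      (fun c hc => by
        rw [← ((Y.L n).pt 0 a).commutes]
        exact (Y.L n).pt_mem 0 a _ (map_nonunit (algebraMap 𝒪 (Y.L n).R) c hc))
      (((Y.L n).pt 0 a).comp (Y.coords n))
      (fun k => by rw [AlgHom.comp_apply, coords_X]; exact (Y.L n).pt_mem 0 a _ (Y.vals_mem n k))
      (fun i => by simpa [vals] using (Y.L n).base_reach a i) ht
  kill_new j t ht n := (Y.L n).kill_new j _ fun a ha => by
    obtain ⟨c, hc, hr⟩ := (Y.L n).new_reach j a ha
    exact map_eq_zero_of_reaches (F := (Y.L n).F (j + 1) a) (fun i => (B i).comp (c i))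
      (fun z hz => by
        rw [← ((Y.L n).pt (j + 1) a).commutes]
        exact (Y.L n).pt_mem (j + 1) a _ (map_nonunit (algebraMap 𝒪 (Y.L n).R) z hz))
      (((Y.L n).pt (j + 1) a).comp (Y.coords n))
      (fun k => by
        rw [AlgHom.comp_apply, coords_X]
        exact (Y.L n).pt_mem (j + 1) a _ (Y.vals_mem n k))
      (fun i => by simpa [vals] using hr i) (ht c hc)

include Y in
/-- **A point on the component raised everywhere is a point of the top finite level.** -/
theorem ker_le_point (w : R₀ →ₐ[𝒪] 𝒪) (hwm : ∀ x ∈ maximalIdeal R₀, w x ∈ maximalIdeal 𝒪)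
    (hreach : ∀ i, ((B i).comp (B i).st).Reaches fun c => w (S₀.coord i c))
    {x : R₀} (hx : S₀.A m x = 0) : w x = 0 := by
  classical
  let ψ : PS (Fin (nVars e (h + g))) 𝒪 →ₐ[𝒪] 𝒪 := w.comp Y.aug
  let Q : Ideal (PS (Fin (nVars e (h + g))) 𝒪) := RingHom.ker ψ
  have : Q.IsPrime := RingHom.ker_isPrime _
  have hψ : ∀ k, ψ (MvPowerSeries.X k) ∈ maximalIdeal 𝒪 := fun k =>
    hwm _ (Y.map_mem_maximalIdeal_proj 0 (show Y.coords 0 (MvPowerSeries.X k) ∈ _ by
      rw [coords_X]; exact Y.vals_mem 0 k))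
  have hQ : RingHom.ker (Y.sys m).limit ≤ Q := fun t ht =>
    RingHom.mem_ker.mpr (map_eq_zero_of_reaches (F := 𝒪) (fun i => (B i).comp (B i).st)
      (fun c hc => hc) ψ hψ
      (fun i => by simpa [ψ, aug_coord] using hreach i) (Y.tower.ker_le_top ht))
  obtain ⟨f, rfl⟩ := Y.aug_surjective x
  refine ker_aug_le (Y.sys m) (fun s => (Y.exists_scalar s).imp fun _ hr => hr.1 m le_rfl) Q hQ
    (fun i => ?_) (RingHom.mem_ker.mpr hx)
  obtain ⟨r, hr, hr0⟩ := Y.exists_scalar (MvPowerSeries.X i)
  refine ⟨r, RingHom.mem_ker.mpr ?_, hr m le_rfl⟩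
  show w (Y.aug r) = 0
  rw [hr0 (MvPowerSeries.constantCoeff_X i), map_zero]

end RaiseSys

end Fermat.Agent.Raising
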