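import Fermat.Agent.Raising.BuilderAux
import Fermat.Agent.Raising.Levels

/-!
# Raising levels from the modular inputs

`BaseRing` is the joint ring of the levels without auxiliary primes and the lift `ρw`, with its
actions; `exists_raiseLevel` turns `RaiseInputs` into a `RaiseLevel` over it.  The prescribed
coordinates and the generators are supplied by the caller for the ring of the level.
-/

noncomputable section

namespace Fermat.Agent.Raising

open IsLocalRing Polynomial Module Matrix Fermat.Agent.LevelLowering Fermat.Agent.Gal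
  Fermat.Agent.TW Fermat.Agent.PT

local notation "Qbar" => AlgebraicClosure ℚ
local notation "GQ" => (AlgebraicClosure ℚ ≃ₐ[ℚ] AlgebraicClosure ℚ)

variable {O : Type} [CommRing O] [IsDomain O] [IsDiscreteValuationRing O]
  [IsAdicComplete (maximalIdeal O) O] [Finite (ResidueField O)]
  {p : ℕ} [Fact p.Prime] {ρbar : ResidualGaloisRep (ResidueField O)}
  {bbar : Basis (Fin 2) (ResidueField O) ρbar.V} {m : ℕ}

section Base

variable (ρbar bbar) {S₀ : Finset ℕ} {c₀ : ℕ → O} {d : ℕ → ℕ}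
  (Tm : ∀ j, ℕ → Matrix (Fin (d j)) (Fin (d j)) O) (L₀ : ∀ j : ℕ, OpLevel O S₀ c₀ O (d j))
  (cw : ℕ → O) (ρw : GaloisRepAdic O)

variable (p m) in
/-- The joint ring at the finite levels with its actions. -/
structure BaseRing : Type 1 where
  /-- The joint ring of the levels and of the lift. -/
  R : PointsRing L₀ p (ρbar := ρbar) cw ρw m
  /-- An adapted basis of its representation. -/
  b : Basis (Fin 2) R.T R.ρ.V
  adapted : Adapted bbar R.residue_surjective R.ρ b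
  /-- The action on each level. -/
  A : ∀ j : Fin (m + 1), R.T →ₐ[O] Matrix (Fin (d j)) (Fin (d j)) O
  A_τ : ∀ j : Fin (m + 1), ∀ ℓ : ℕ, ℓ.Prime → ℓ ∉ S₀ → A j (R.τ ℓ) = Tm j ℓ

variable {Tm L₀}

/-- **The base ring exists.** -/
theorem exists_baseRing (h2 : IsUnit (2 : O)) (hp : (p : O) ∈ maximalIdeal O)
    (habs : ρbar.IsAbsolutelyIrreducible)
    (hodd : ∃ g : GQ, g * g = 1 ∧ LinearMap.det (ρbar.ρ g) = -1)
    (hbar : ∀ ℓ : ℕ, ℓ.Prime → ℓ ∉ S₀ → ∀ P : ValuationSubring Qbar, P.LiesOverPrime ℓ →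
      ∀ σ : GQ, P.IsFrobeniusAt σ ℓ → LinearMap.charpoly (ρbar.ρ σ) =
        X ^ 2 - C (residue O (c₀ ℓ)) * X + C (ℓ : ResidueField O))
    (hTm : ∀ j, ∀ ℓ : ℕ, ℓ.Prime → ℓ ∉ S₀ → (L₀ j).Φ ((L₀ j).x ℓ) = Tm j ℓ)
    (hcw : ∀ ℓ : ℕ, ℓ.Prime → ℓ ∉ S₀ → cw ℓ - c₀ ℓ ∈ maximalIdeal O)
    (hw : ∀ ℓ : ℕ, ℓ.Prime → ℓ ∉ S₀ → ∀ P : ValuationSubring Qbar, P.LiesOverPrime ℓ →
      ∀ σ : GQ, P.IsFrobeniusAt σ ℓ →
        LinearMap.charpoly (ρw.ρ σ) = X ^ 2 - C (cw ℓ) * X + C (ℓ : O)) :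
    Nonempty (BaseRing p ρbar bbar m Tm L₀ cw ρw) := by
  obtain ⟨R⟩ := exists_pointsRing L₀ cw ρw (m := m) h2 hp habs hodd hbar hcw hw
  obtain ⟨b, hb⟩ := exists_adapted (bbar := bbar) R.residue_surjective R.ρ R.residual
  choose A hA1 _hA2 _hA3 using fun j : Fin (m + 1) =>
    R.exists_act (L₀ j).Φ (L₀ j).x (κ := (L₀ j).κ) (fun a => some ⟨j, a⟩)
      (fun a => (L₀ j).ev a) (fun _ _ _ _ => rfl) fun z hz => ((L₀ j).ker_iff z).mpr hz
  exact ⟨⟨R, b, hb, A, fun j ℓ hℓ hℓS => (hA1 j ℓ hℓ hℓS).trans (hTm j ℓ hℓ hℓS)⟩⟩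

variable {ρbar bbar} {cw ρw} (Z : BaseRing p ρbar bbar m Tm L₀ cw ρw)

/-- The lift as a point of the base ring. -/
def BaseRing.w : Z.R.T →ₐ[O] O := Z.R.pt none

variable {P : Fin m → RaisedPrime p ρbar bbar} (Kd : ∀ i, LocalKind (P i))

/-- The base of a raising system, with prescribed coordinates `e₀`. -/
def BaseRing.raiseBase {h : ℕ} (e₀ : Fin h → Z.R.T) : RaiseBase (fun i => (Kd i).B) h Z.R.T where
  d := d
  A j := if hj : j < m + 1 then (Z.A ⟨j, hj⟩).toRingHom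
    else (Matrix.scalar (Fin (d j))).comp Z.w.toRingHom
  coord i := (Kd i).coord Z.R.T (matrixRep Z.b Z.R.ρ.ρ (P i).φ)
    (matrixRep Z.b Z.R.ρ.ρ (P i).σ - 1)
  extra := e₀
  G j := (Kd j).G
  G_det j := (Kd j).G_det

end Base

section Points

variable {S₀ : Finset ℕ} {c₀ : ℕ → O} {d : ℕ → ℕ}
  {Tm : ∀ j, ℕ → Matrix (Fin (d j)) (Fin (d j)) O}
  {cw : ℕ → O} {ρw : GaloisRepAdic O}
  {P : Fin m → RaisedPrime p ρbar bbar} (Kd : ∀ i, LocalKind (P i))
  {K : Type} [Field K] [Algebra O K] {Smin : Finset ℕ} {D : ℕ} {qv lv : Fin D → ℕ}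
  (I : RaiseInputs K P Smin c₀ d Tm S₀ qv lv)
  (R : PointsRing I.L p (ρbar := ρbar) cw ρw m) {b : Basis (Fin 2) R.T R.ρ.V}

local notation "augD" =>
  Ideal.Quotient.lift (diamondIdeal (𝒪 := O) p lv) MvPowerSeries.constantCoeff
    (diamondIdeal_aug p lv)

omit [IsAdicComplete (maximalIdeal O) O] [Finite (ResidueField O)] [Fact (Nat.Prime p)] in
/-- An eigencharacter of the action on a level at a character of the diamonds has the kernel of an
eigensystem, with the behaviour of that eigensystem at the auxiliary primes. -/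
theorem exists_point_of_eigen [IsAlgClosed K]
    (act : ∀ j : Fin (m + 1), R.T →ₐ[O] Matrix (Fin (d j)) (Fin (d j)) (DiaCoords O p lv))
    (hact : ∀ (j : Fin (m + 1)) (t : R.T), ∃ z : (I.L j).A,
      (I.L j).Φ z = act j t ∧ ∀ a, (I.L j).ev a z = R.pt (some ⟨j, a⟩) t)
    (j : Fin (m + 1)) (φ : DiaCoords O p lv →ₐ[O] K) (lam : R.T →+* K)
    (hlam : ∃ w : Fin (d j) → K, w ≠ 0 ∧ ∀ t, ((act j t).map φ).mulVec w = lam t • w) :
    ∃ a : (I.L j).κ, (∀ t, lam t = 0 ↔ R.pt (some ⟨j, a⟩) t = 0) ∧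
      (∀ i, φ (diaX O p lv i) = 0 → ((I.L j).ρ a).IsUnipotentOnInertiaAt (qv i)) ∧
      ∀ i, (∀ i', i' ≠ i → φ (diaX O p lv i') = 0) →
        IsPrimitiveRoot (1 + φ (diaX O p lv i)) p →
        ¬ ((I.L j).ρ a).IsUnipotentOnInertiaAt (qv i) := by
  obtain ⟨w, hw0, hw⟩ := hlam
  choose z hz hzev using hact j
  obtain ⟨e, hev, hez⟩ := exists_eigenChar_extend (φ.mapMatrix.comp (I.L j).Φ).toRingHom z lam
    hw0 fun t => by
      show (((I.L j).Φ (z t)).map φ).mulVec w = _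
      rw [hz]
      exact hw t
  obtain ⟨a, hae, huni, hnon⟩ := I.tw_point j φ e hev
  refine ⟨a, fun t => ?_, huni, hnon⟩
  rw [← hez t, hae]
  exact iff_of_eq (congrArg (· = 0) (hzev t a))

variable {A : ValuationSubring Qbar} {q : ℕ} (hA : A.LiesOverPrime q) (j : Fin (m + 1))
  (a : (I.L j).κ) (lam : R.T →+* K) (hker : ∀ t, lam t = 0 ↔ R.pt (some ⟨j, a⟩) t = 0)

omit [IsAdicComplete (maximalIdeal O) O] [Finite (ResidueField O)] [Fact (Nat.Prime p)] in
include hA hker in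
/-- Inertia where the eigensystem is unipotent acts with characteristic polynomial `(X - 1)²`. -/
theorem charpoly_map_eq_of_unipotent (huni : ((I.L j).ρ a).IsUnipotentOnInertiaAt q) {σ : GQ}
    (hσ : σ ∈ A.inertiaSubgroupIn ℚ) :
    (matrixRep b R.ρ.ρ σ).charpoly.map lam = (X - 1) ^ 2 := by
  refine (map_eq_sq_iff_of_ker _ lam (R.pt (some ⟨j, a⟩)).toRingHom hker).mpr ?_
  have := R.pt_local (some ⟨j, a⟩)
  refine Eq.trans ?_ (huni A hA σ hσ)
  rw [← Matrix.charpoly_map]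
  exact (charpoly_point (b := b) _ (R.pt_equiv (some ⟨j, a⟩)) σ).symm

omit [IsAdicComplete (maximalIdeal O) O] [Finite (ResidueField O)] [Fact (Nat.Prime p)] in
include hA hker in
/-- Where the eigensystem is not unipotent some inertia element has another characteristic
polynomial. -/
theorem exists_charpoly_map_ne (hq : q.Prime) (hnon : ¬ ((I.L j).ρ a).IsUnipotentOnInertiaAt q) :
    ∃ σ ∈ A.inertiaSubgroupIn ℚ, (matrixRep b R.ρ.ρ σ).charpoly.map lam ≠ (X - 1) ^ 2 := by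
  by_contra hall
  push Not at hall
  refine hnon fun Q hQ σ hσ => ?_
  have := R.pt_local (some ⟨j, a⟩)
  obtain ⟨γ, hγ⟩ := Gal.exists_smul_eq hq hQ hA
  have hc : γ * σ * γ⁻¹ ∈ A.inertiaSubgroupIn ℚ := hγ ▸ Gal.conj_mem_inertia hσ γ
  have h1 := (map_eq_sq_iff_of_ker _ lam (R.pt (some ⟨j, a⟩)).toRingHom hker).mp (hall _ hc)
  rw [← Matrix.charpoly_map] at h1
  have h2 := (charpoly_point (b := b) _ (R.pt_equiv (some ⟨j, a⟩)) (γ * σ * γ⁻¹)).trans h1
  refine Eq.trans ?_ h2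
  let u : ((I.L j).ρ a).V ≃ₗ[(I.L j).F a] ((I.L j).ρ a).V :=
    LinearEquiv.ofLinearMap (((I.L j).ρ a).ρ γ) (((I.L j).ρ a).ρ γ⁻¹)
      (by rw [← Module.End.mul_eq_comp, ← map_mul, mul_inv_cancel, map_one]; rfl)
      (by rw [← Module.End.mul_eq_comp, ← map_mul, inv_mul_cancel, map_one]; rfl)
  rw [← LinearEquiv.charpoly_conj u (((I.L j).ρ a).ρ σ)]
  refine congrArg LinearMap.charpoly ?_
  show u.conj (((I.L j).ρ a).ρ σ) = ((I.L j).ρ a).ρ (γ * σ * γ⁻¹)
  rw [map_mul, map_mul, Module.End.mul_eq_comp, Module.End.mul_eq_comp]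
  rfl

omit [Finite (ResidueField O)] in
/-- **The points of the levels reach the local components.**  At a raised prime the coordinates
of an eigensystem reach some component, the unramified one below the raising step, and the one
singled out by the trace of Frobenius. -/
theorem reach_at_level [CharZero O] (hb : Adapted bbar R.residue_surjective R.ρ b)
    (hP : Function.Injective fun i => (P i).q) (hPS : ∀ i, (P i).q ∉ Smin)
    (hPqv : ∀ i k, (P i).q ≠ qv k) (j : Fin (m + 1)) (a : (I.L j).κ) (i : Fin m) :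
    let F := PtF I.L (some (⟨j, a⟩ : Σ j : Fin (m + 1), (I.L j).κ))
    let pc : Fin (Kd i).e → F := fun c => R.pt (some ⟨j, a⟩)
      ((Kd i).coord R.T (matrixRep b R.ρ.ρ (P i).φ) (matrixRep b R.ρ.ρ (P i).σ - 1) c)
    ((i : ℕ) < j → ∃ k, ((Kd i).B.comp k).Reaches pc) ∧
    ((j : ℕ) ≤ i → ((Kd i).B.comp (Kd i).B.ur).Reaches pc) ∧
    ((i : ℕ) < j → LinearMap.trace _ _ (((I.L j).ρ a).ρ (P i).φ) =
        algebraMap O ((I.L j).F a) (P i).ε * (((P i).q : (I.L j).F a) + 1) →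
      ((Kd i).B.comp (Kd i).B.st).Reaches pc) ∧
    ((i : ℕ) < j → LinearMap.trace _ _ (((I.L j).ρ a).ρ (P i).φ) =
        -(algebraMap O ((I.L j).F a) (P i).ε * (((P i).q : (I.L j).F a) + 1)) →
      ∃ k, k ≠ (Kd i).B.ur ∧ ((Kd i).B.comp k).Reaches pc) := by
  intro F pc
  have := R.pt_local (some ⟨j, a⟩)
  let M : GQ →* Matrix (Fin 2) (Fin 2) R.T := matrixRep b R.ρ.ρ
  have hpF : (p : F) ∈ maximalIdeal F := by
    rw [← map_natCast (R.pt (some ⟨j, a⟩)).toRingHom]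
    exact map_nonunit (R.pt (some ⟨j, a⟩)).toRingHom _ R.det.1
  obtain ⟨hL, huni, hunr⟩ := lift_at_point (bbar := bbar) hb R.det (P i) (R.pt (some ⟨j, a⟩))
    (R.pt_equiv (some ⟨j, a⟩)) hpF
  have hpc : pc = (Kd i).coord _ ((M (P i).φ).map (R.pt (some ⟨j, a⟩)))
      ((M (P i).σ - 1).map (R.pt (some ⟨j, a⟩))) :=
    funext fun c => (Kd i).coord_map R.T _ (R.pt (some ⟨j, a⟩))
      (fun x hx => map_nonunit (R.pt (some ⟨j, a⟩)).toRingHom x hx)
      (isLift_of_adapted hb R.det (P i)) c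
  have hu : (i : ℕ) < j → ((I.L j).ρ a).IsUnipotentOnInertiaAt (P i).q := fun hij =>
    I.unipotent j a _ (Finset.mem_union_right _ (Finset.mem_image_of_mem _
      (Finset.mem_filter.mpr ⟨Finset.mem_univ i, hij⟩))) (P i).prime (P i).ne_p
  have ht : ((M (P i).φ).map (R.pt (some ⟨j, a⟩))).trace =
      LinearMap.trace _ _ (((I.L j).ρ a).ρ (P i).φ) := by
    refine Eq.trans ?_ (trace_point (b := b) (R.pt (some ⟨j, a⟩)) (R.pt_equiv _) (P i).φ).symm
    rw [← trace_matrixRep b]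
    exact (AddMonoidHom.map_trace (R.pt (some ⟨j, a⟩)).toRingHom.toAddMonoidHom _).symm
  have hr := fun hij => (Kd i).reach F hL (huni (hu hij)).1 (huni (hu hij)).2
  rw [hpc]
  refine ⟨fun hij => (hr hij).1, fun hji => ?_,
    fun hij h => (hr hij).2.2.1 (ht.trans h), fun hij h => (hr hij).2.2.2 (ht.trans h)⟩
  have h0' : ((I.L j).ρ a).IsUnramifiedAt (P i).q := by
    refine I.unramified j a _ (P i).prime fun hm => ?_
    rcases Finset.mem_insert.mp hm with h | h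
    · exact (P i).ne_p h
    rcases Finset.mem_union.mp h with h | h
    · rcases Finset.mem_union.mp h with h | h
      · exact hPS i h
      · obtain ⟨i', hi', he⟩ := Finset.mem_image.mp h
        have := (Finset.mem_filter.mp hi').2
        rw [hP he] at this
        omega
    · obtain ⟨k, -, he⟩ := Finset.mem_image.mp h
      exact hPqv i k he.symm
  exact ((Kd i).reach F hL (by rw [hunr h0', mul_zero])
    (by rw [hunr h0', mul_zero, zero_mul, smul_zero])).2.1 (hunr h0')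

omit [IsAdicComplete (maximalIdeal O) O] [Finite (ResidueField O)] [Fact (Nat.Prime p)] in
/-- The composites of the degeneracy maps of a step are the images of `q + 1` and of the trace of
Frobenius at the prime `q` raised by it. -/
theorem down_up_act
    (act : ∀ j : Fin (m + 1), R.T →ₐ[O] Matrix (Fin (d j)) (Fin (d j)) (DiaCoords O p lv))
    (hact : ∀ (j : Fin (m + 1)) (t : R.T), ∃ z : (I.L j).A,
      (I.L j).Φ z = act j t ∧ ∀ a, (I.L j).ev a z = R.pt (some ⟨j, a⟩) t) (j : Fin m) :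
    I.downA j * I.upA j = act j.castSucc (((P j).q : R.T) + 1) ∧
      I.downA j * I.upB j = act j.castSucc (matrixRep b R.ρ.ρ (P j).φ).trace ∧
      I.downB j * I.upA j = act j.castSucc (matrixRep b R.ρ.ρ (P j).φ).trace ∧
      I.downB j * I.upB j = act j.castSucc (((P j).q : R.T) + 1) := by
  have htq : act j.castSucc (matrixRep b R.ρ.ρ (P j).φ).trace = (I.L j).Φ (I.tq j) := by
    obtain ⟨z, hz, hzev⟩ : ∃ z : (I.L (j : ℕ)).A,
        (I.L (j : ℕ)).Φ z = act j.castSucc (matrixRep b R.ρ.ρ (P j).φ).trace ∧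
          ∀ a, (I.L (j : ℕ)).ev a z =
            R.pt (some ⟨j.castSucc, a⟩) (matrixRep b R.ρ.ρ (P j).φ).trace :=
      hact j.castSucc (matrixRep b R.ρ.ρ (P j).φ).trace
    refine hz.symm.trans ?_
    rw [← sub_eq_zero, ← map_sub]
    refine ((I.L j).ker_iff _).mpr fun a => ?_
    have := R.pt_local (some ⟨j.castSucc, a⟩)
    rw [map_sub, sub_eq_zero, I.tq_ev j a]
    refine (hzev a).trans ?_
    rw [trace_matrixRep b]
    exact (trace_point (b := b) (R.pt (some ⟨j.castSucc, a⟩)) (R.pt_equiv _) (P j).φ).symm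
  have hdd : act j.castSucc (((P j).q : R.T) + 1) =
      (((P j).q + 1 : DiaCoords O p lv) •
        (1 : Matrix (Fin (d j)) (Fin (d j)) (DiaCoords O p lv))) := by
    rw [map_add, map_natCast, map_one, add_smul, one_smul, Nat.cast_smul_eq_nsmul, nsmul_one]
  obtain ⟨h1, h2, h3, h4⟩ := I.down_up j
  exact ⟨h1.trans hdd.symm, h2.trans htq.symm, h3.trans htq.symm, h4.trans hdd.symm⟩

omit [Finite (ResidueField O)] in
/-- Components reached by a point new at the prime raised by step `j`. -/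
theorem exists_choice_of_reach {F : Type} [CommRing F] [IsLocalRing F] [Algebra O F]
    [IsAdicComplete (maximalIdeal F) F]
    {pc : ∀ i : Fin m, Fin (Kd i).e → F} {j : Fin m} {A B' : Fin m → Prop}
    (h : ∀ i : Fin m, ((i : ℕ) < (j : ℕ) + 1 → ∃ k, ((Kd i).B.comp k).Reaches (pc i)) ∧
      ((j : ℕ) + 1 ≤ i → ((Kd i).B.comp (Kd i).B.ur).Reaches (pc i)) ∧
      ((i : ℕ) < (j : ℕ) + 1 → A i → ((Kd i).B.comp (Kd i).B.st).Reaches (pc i)) ∧
      ((i : ℕ) < (j : ℕ) + 1 → B' i → ∃ k, k ≠ (Kd i).B.ur ∧ ((Kd i).B.comp k).Reaches (pc i)))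
    (hj : A j ∨ B' j) :
    ∃ c : ∀ i, Fin (Kd i).B.K, IsNewChoice (fun i => (Kd i).B) j c ∧
      ∀ i, ((Kd i).B.comp (c i)).Reaches (pc i) := by
  have hmain : ∀ i : Fin m, ∃ k, ((i = j → k ≠ (Kd i).B.ur) ∧
      ((j : ℕ) < i → k = (Kd i).B.ur)) ∧ ((Kd i).B.comp k).Reaches (pc i) := by
    intro i
    obtain ⟨h1, h2, h3, h4⟩ := h i
    rcases lt_trichotomy (i : ℕ) j with hij | hij | hij
    · obtain ⟨k, hk⟩ := h1 (Nat.lt_succ_of_lt hij)
      exact ⟨k, ⟨fun h => absurd (congrArg Fin.val h) (by omega), fun h => absurd h (by omega)⟩,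
        hk⟩
    · obtain rfl : i = j := Fin.ext hij
      rcases hj with h | h
      · exact ⟨(Kd i).B.st, ⟨fun _ => (Kd i).B.st_ne_ur, fun h => absurd h (lt_irrefl _)⟩,
          h3 (Nat.lt_succ_self _) h⟩
      · obtain ⟨k, hk, hk'⟩ := h4 (Nat.lt_succ_self _) h
        exact ⟨k, ⟨fun _ => hk, fun h => absurd h (lt_irrefl _)⟩, hk'⟩
    · exact ⟨_, ⟨fun h => absurd (congrArg Fin.val h) (by omega), fun _ => rfl⟩,
        h2 (Nat.succ_le_of_lt hij)⟩
  choose c hc hr using hmain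
  exact ⟨c, ⟨(hc j).1 rfl, fun i hi => (hc i).2 hi⟩, hr⟩

variable {L₀ : ∀ j : ℕ, OpLevel O S₀ c₀ O (d j)} (Z : BaseRing p ρbar bbar m Tm L₀ cw ρw)

omit [IsAdicComplete (maximalIdeal O) O] [Finite (ResidueField O)] [Fact (Nat.Prime p)] in
/-- The ring of the levels maps onto the base ring, compatibly with the reductions of the actions
and with the traces. -/
theorem exists_baseProj
    (hTm : ∀ j, ∀ ℓ : ℕ, ℓ.Prime → ℓ ∉ S₀ → (L₀ j).Φ ((L₀ j).x ℓ) = Tm j ℓ)
    (act : ∀ j : Fin (m + 1), R.T →ₐ[O] Matrix (Fin (d j)) (Fin (d j)) (DiaCoords O p lv))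
    (hact : ∀ (j : Fin (m + 1)) (ℓ : ℕ), ℓ.Prime → ℓ ∉ I.S →
      act j (R.τ ℓ) = (I.L j).Φ ((I.L j).x ℓ)) :
    ∃ π : R.T →ₐ[O] Z.R.T, Function.Surjective π ∧
      (∀ x, π (LinearMap.trace R.T R.ρ.V (R.ρ.ρ x)) =
        LinearMap.trace Z.R.T Z.R.ρ.V (Z.R.ρ.ρ x)) ∧
      (∀ t, Z.R.pt none (π t) = R.pt none t) ∧
      ∀ (j : Fin (m + 1)) t, (act j t).map augD = Z.A j (π t) := by
  let aug : DiaCoords O p lv →ₐ[O] O :=
    { Ideal.Quotient.lift (diamondIdeal (𝒪 := O) p lv) MvPowerSeries.constantCoeff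
        (diamondIdeal_aug p lv) with
      commutes' := fun c => by
        show Ideal.Quotient.lift _ MvPowerSeries.constantCoeff _ (algebraMap O _ c) = c
        rw [algebraMap_S, Ideal.Quotient.lift_mk, MvPowerSeries.constantCoeff_C] }
  let red : ∀ j : Fin (m + 1), R.T →ₐ[O] Matrix (Fin (d j)) (Fin (d j)) O := fun j =>
    aug.mapMatrix.comp (act j)
  have hred : ∀ j : Fin (m + 1), ∀ ℓ : ℕ, ℓ.Prime → ℓ ∉ I.S → red j (R.τ ℓ) = Tm j ℓ := by
    intro j ℓ hℓ hℓS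
    show aug.mapMatrix (act j (R.τ ℓ)) = _
    rw [hact j ℓ hℓ hℓS]
    exact I.aug_x j ℓ hℓ hℓS
  have hfac : ∀ (j : Fin (m + 1)) (a : (L₀ j).κ), ∃ χ : R.T →ₐ[O] (L₀ j).F a,
      ∀ t z, (L₀ j).Φ z = red j t → χ t = (L₀ j).ev a z := fun j a =>
    exists_factor_hom (red j) (L₀ j).Φ ((L₀ j).ev a) (fun z hz => ((L₀ j).ker_iff z).mp hz a) R.gen
      (by
        rintro _ ⟨ℓ, ⟨hℓ, hℓS⟩, rfl⟩
        exact ⟨(L₀ j).x ℓ, ((hred j ℓ hℓ hℓS).trans
          (hTm j ℓ hℓ fun hm => hℓS (I.subset hm)).symm).symm⟩)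
  choose χ₀ hχ₀ using hfac
  let χ : ∀ a : PtIdx m L₀, R.T →ₐ[O] PtF L₀ a := fun a => match a with
    | none => R.pt none
    | some a => χ₀ a.1 a.2
  have hχ : ∀ a ℓ, ℓ.Prime → ℓ ∉ I.S → χ a (R.τ ℓ) = ptC L₀ cw a ℓ := fun a ℓ hℓ hℓS => by
    cases a with
    | none => exact R.pt_τ ℓ hℓ hℓS none
    | some a =>
      obtain ⟨j, a⟩ := a
      exact hχ₀ j a _ _ ((hTm j ℓ hℓ fun hm => hℓS (I.subset hm)).trans (hred j ℓ hℓ hℓS).symm)
  obtain ⟨π, hπs, hπpt, hπtr⟩ := R.exists_proj I.subset Z.R χ hχ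
  have hπτ : ∀ ℓ : ℕ, ℓ.Prime → ℓ ∉ I.S → π (R.τ ℓ) = Z.R.τ ℓ := fun ℓ hℓ hℓS =>
    sub_eq_zero.mp (Z.R.pt_injective _ fun a => by
      rw [map_sub, hπpt, Z.R.pt_τ ℓ hℓ fun hm => hℓS (I.subset hm), sub_eq_zero]
      exact hχ a ℓ hℓ hℓS)
  refine ⟨π, hπs, hπtr, fun t => hπpt none t, fun j t => ?_⟩
  have he : red j = (Z.A j).comp π := R.hom_ext fun ℓ hℓ hℓS => by
    rw [hred _ ℓ hℓ hℓS, AlgHom.comp_apply, hπτ ℓ hℓ hℓS,
      Z.A_τ _ ℓ hℓ fun hm => hℓS (I.subset hm)]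
  exact AlgHom.congr_fun he t

omit [IsAdicComplete (maximalIdeal O) O] [Finite (ResidueField O)] [Fact (Nat.Prime p)] in
/-- An adapted basis of the joint ring of the levels lying over the basis of the base ring. -/
theorem exists_adapted_over (habs : ρbar.IsAbsolutelyIrreducible) (π : R.T →ₐ[O] Z.R.T)
    (hπs : Function.Surjective π)
    (hπtr : ∀ x, π (LinearMap.trace R.T R.ρ.V (R.ρ.ρ x)) =
      LinearMap.trace Z.R.T Z.R.ρ.V (Z.R.ρ.ρ x)) :
    ∃ b : Basis (Fin 2) R.T R.ρ.V, Adapted bbar R.residue_surjective R.ρ b ∧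
      ∀ σ, (matrixRep b R.ρ.ρ σ).map π = matrixRep Z.b Z.R.ρ.ρ σ := by
  obtain ⟨gb, hgb⟩ := hasTraceBasis_of_isAbsolutelyIrreducible ρbar habs
  obtain ⟨b, hbπ⟩ := Scalar.exists_basis_map_eq R.ρ.ρ (basisTwo R.ρ.finrank_eq) π.toRingHom hπs
    (matrixRep Z.b Z.R.ρ.ρ) gb (isUnit_gram_of_adapted Z.adapted hgb)
    fun x => (hπtr x).trans (trace_matrixRep Z.b _ _).symm
  have hπm : ∀ x ∈ maximalIdeal R.T, π x ∈ maximalIdeal Z.R.T := fun x hx =>
    Scalar.map_mem_maximalIdeal Z.R.residue_surjective π hx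
  refine ⟨b, fun σ => ?_, hbπ⟩
  rw [← Z.adapted σ, ← hbπ σ]
  ext i j
  simp only [Matrix.map_apply]
  exact (Scalar.toRes_map R.residue_surjective Z.R.residue_surjective π hπm _).symm

omit [Finite (ResidueField O)] in
/-- The coordinates at a raised prime reduce to those of the base. -/
theorem coord_map_over (hb : Adapted bbar R.residue_surjective R.ρ b) (π : R.T →ₐ[O] Z.R.T)
    (hbπ : ∀ σ, (matrixRep b R.ρ.ρ σ).map π = matrixRep Z.b Z.R.ρ.ρ σ) {h : ℕ}
    (e₀ : Fin h → Z.R.T) (i : Fin m) (c : Fin (Kd i).e) :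
    π ((Kd i).coord R.T (matrixRep b R.ρ.ρ (P i).φ) (matrixRep b R.ρ.ρ (P i).σ - 1) c) =
      (Z.raiseBase Kd e₀).coord i c := by
  have hπm : ∀ x ∈ maximalIdeal R.T, π x ∈ maximalIdeal Z.R.T := fun x hx =>
    Scalar.map_mem_maximalIdeal Z.R.residue_surjective π hx
  show _ = (Kd i).coord Z.R.T _ _ c
  rw [show π ((Kd i).coord R.T _ _ c) = _ from
    (Kd i).coord_map R.T Z.R.T π hπm (isLift_of_adapted hb R.det (P i)) c]
  congr 1
  · exact hbπ (P i).φ
  · show π.toRingHom.mapMatrix (matrixRep b R.ρ.ρ (P i).σ - 1) = _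
    rw [map_sub, map_one]
    exact congrArg (· - 1) (hbπ (P i).σ)

omit [IsAdicComplete (maximalIdeal O) O] [Finite (ResidueField O)] [Fact (Nat.Prime p)] in
/-- A map killing whatever is trivial at inertia of the auxiliary primes kills it in the base,
where the points are unramified there. -/
theorem map_eq_zero_of_unramified (π : R.T →ₐ[O] Z.R.T)
    (hbπ : ∀ σ, (matrixRep b R.ρ.ρ σ).map π = matrixRep Z.b Z.R.ρ.ρ σ)
    {A : ValuationSubring Qbar} {q : ℕ} (hA : A.LiesOverPrime q) (hw : ρw.IsUnramifiedAt q)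
    (h0 : ∀ (j : Fin (m + 1)) (a : (L₀ j).κ), ((L₀ j).ρ a).IsUnramifiedAt q) {δ : R.T}
    (hδ : ∀ (F : Type) [CommRing F] [IsDomain F] (lam : R.T →+* F),
      (∀ σ ∈ A.inertiaSubgroupIn ℚ, (matrixRep b R.ρ.ρ σ).charpoly.map lam = (X - 1) ^ 2) →
      lam δ = 0) : π δ = 0 := by
  refine Z.R.pt_injective _ fun a => hδ (PtF L₀ a) ((Z.R.pt a).comp π).toRingHom fun σ hσ => ?_
  have := Z.R.pt_local a
  have e1 : (matrixRep b R.ρ.ρ σ).charpoly.map ((Z.R.pt a).comp π).toRingHom =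
      ((matrixRep Z.b Z.R.ρ.ρ σ).map (Z.R.pt a)).charpoly := by
    rw [← Matrix.charpoly_map, ← hbπ σ, Matrix.map_map]
    rfl
  rw [e1, ← charpoly_point (b := Z.b) (Z.R.pt a) (Z.R.pt_equiv a) σ]
  have hunr : (ptRep L₀ ρw a).IsUnramifiedAt q := by
    cases a with
    | none => exact hw
    | some a => exact h0 a.1 a.2
  rw [hunr A hA σ hσ, LinearMap.charpoly_one, (ptRep L₀ ρw a).finrank_eq]

variable (act : ∀ j : Fin (m + 1), R.T →ₐ[O] Matrix (Fin (d j)) (Fin (d j)) (DiaCoords O p lv))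

omit [IsAdicComplete (maximalIdeal O) O] [Finite (ResidueField O)] [Fact (Nat.Prime p)] in
/-- What intertwines the operators at the good primes intertwines the actions. -/
theorem intertwine_act
    (hact : ∀ (j : Fin (m + 1)) (ℓ : ℕ), ℓ.Prime → ℓ ∉ I.S →
      act j (R.τ ℓ) = (I.L j).Φ ((I.L j).x ℓ))
    (j k : Fin (m + 1)) (F : Matrix (Fin (d k)) (Fin (d j)) (DiaCoords O p lv))
    (hF : ∀ ℓ : ℕ, ℓ.Prime → ℓ ∉ I.S →
      F * (I.L j).Φ ((I.L j).x ℓ) = (I.L k).Φ ((I.L k).x ℓ) * F) (t : R.T) :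
    F * act j t = act k t * F :=
  intertwine_of_adjoin (act j) (act k) F R.gen (by
    rintro _ ⟨ℓ, ⟨hℓ, hℓS⟩, rfl⟩
    rw [hact j ℓ hℓ hℓS, hact k ℓ hℓ hℓS]
    exact hF ℓ hℓ hℓS) t

/-- New coordinates of the levels: the diamonds `δ`, trivial in the base ring, act as the variables,
and the intertwiners between the levels carry over by `τ`. -/
structure LevelCoords (π : R.T →ₐ[O] Z.R.T) where
  /-- The diamonds in the ring, in the kernel of `π`. -/
  δ : Fin D → R.T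
  δ_mem : ∀ k, δ k ∈ maximalIdeal R.T
  proj_δ : ∀ k, π (δ k) = 0
  /-- The action in the new coordinates, with the kernel of the old one. -/
  act' : ∀ j : Fin (m + 1), R.T →+* Matrix (Fin (d j)) (Fin (d j)) (DiaCoords O p lv)
  /-- The change of coordinates on matrices from level `j` to level `k`. -/
  τ : ∀ j k : Fin (m + 1), Matrix (Fin (d k)) (Fin (d j)) (DiaCoords O p lv) →
    Matrix (Fin (d k)) (Fin (d j)) (DiaCoords O p lv)
  act'_algebraMap : ∀ j c,
    act' j (algebraMap O R.T c) = Matrix.scalar (Fin (d j)) (algebraMap O (DiaCoords O p lv) c)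
  act'_δ : ∀ j k, act' j (δ k) = Matrix.scalar (Fin (d j)) (diaX O p lv k)
  act'_eq_zero : ∀ j x, act' j x = 0 ↔ act j x = 0
  act'_aug : ∀ j x, (act' j x).map augD = (act j x).map augD
  τ_act : ∀ j x, τ j j (act j x) = act' j x
  τ_add : ∀ j k F G, τ j k (F + G) = τ j k F + τ j k G
  τ_aug : ∀ j k F, (τ j k F).map augD = F.map augD
  τ_comp : ∀ j k l F G, (∀ x, G * act k x = act l x * G) → τ j l (G * F) = τ k l G * τ j k F
  τ_intertwine : ∀ j k F, (∀ x, F * act j x = act k x * F) →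
    ∀ x, τ j k F * act' j x = act' k x * τ j k F

/-- The coordinates exist where the auxiliary primes are Taylor–Wiles primes. -/
theorem exists_levelCoords [IsAlgClosed K] [CharZero K]
    (hK : Function.Injective (algebraMap O K)) (hp : (p : O) ∈ maximalIdeal O)
    (hqv : ∀ k, (qv k).Prime ∧ qv k ≠ p)
    (hlv : ∀ k, 1 ≤ lv k ∧ p ^ lv k ∣ qv k - 1 ∧ ¬ p ^ (lv k + 1) ∣ qv k - 1)
    (hqbar : ∀ k, ∀ A : ValuationSubring Qbar, A.LiesOverPrime (qv k) →
      (∀ τ ∈ A.inertiaSubgroupIn ℚ, rbar bbar τ = 1) ∧ ∀ φ : GQ, A.IsFrobeniusAt φ (qv k) →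
        ∃ α β : ResidueField O, α ≠ β ∧ (rbar bbar φ).charpoly = (X - C α) * (X - C β))
    (hw0 : ∀ k, ρw.IsUnramifiedAt (qv k))
    (h0 : ∀ (j : Fin (m + 1)) (a : (L₀ j).κ) k, ((L₀ j).ρ a).IsUnramifiedAt (qv k))
    (hb : Adapted bbar R.residue_surjective R.ρ b) (π : R.T →ₐ[O] Z.R.T)
    (hbπ : ∀ σ, (matrixRep b R.ρ.ρ σ).map π = matrixRep Z.b Z.R.ρ.ρ σ)
    (hact : ∀ (j : Fin (m + 1)) (t : R.T), ∃ z : (I.L j).A,
      (I.L j).Φ z = act j t ∧ ∀ a, (I.L j).ev a z = R.pt (some ⟨j, a⟩) t) :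
    Nonempty (LevelCoords I R Z act π) := by
  have : Finite (ResidueField R.T) := by
    refine Finite.of_surjective (ResidueField.map (algebraMap O R.T)) fun y => ?_
    obtain ⟨o, rfl⟩ := R.residue_surjective y
    exact ⟨residue O o, ResidueField.map_residue _ o⟩
  have hAex : ∀ k, ∃ A : ValuationSubring Qbar, A.LiesOverPrime (qv k) := fun k => by
    have : Fact (qv k).Prime := ⟨(hqv k).1⟩
    exact ⟨_, padicPlace_liesOverPrime (q := qv k)⟩
  choose A hA using hAex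
  choose Φq hΦq using fun k => Gal.exists_isFrobeniusAt (hqv k).1 (hA k)
  choose α β hαβ hFq using fun k => (hqbar k (A k) (hA k)).2 (Φq k) (hΦq k)
  let f := ResidueField.map (algebraMap O R.T)
  obtain ⟨δ, act', τ, hδ, hC', hX', hker', haug', hτact, hτadd, -, hτaug, hτcomp, hτint,
      htriv⟩ := exists_twDiamond_family hK hp (J := Fin (m + 1)) (fun j => d j)
    (fun j => (act j).toRingHom)
    (fun j c => by
      show act j (algebraMap O R.T c) = _
      rw [AlgHom.commutes, Matrix.algebraMap_eq_diagonal]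
      rfl)
    qv (fun k => (hqv k).1) (fun k => Ne.symm (hqv k).2) (fun k => (hlv k).1)
    (fun k => (hlv k).2.1) (fun k => (hlv k).2.2)
    (fun k => finite_roots_of_points (fun a => (R.pt a).toRingHom) R.pt_injective
      (pow_pos (Fact.out : p.Prime).pos _))
    (matrixRep b R.ρ.ρ) (fun n => Scalar.exists_nearOne R.ρ b n) A hA Φq hΦq
    (fun k σ hσ => by
      rw [residue_matrixRep_of_adapted hb, (hqbar k (A k) (hA k)).1 σ hσ,
        Matrix.map_one _ (map_zero _) (map_one _)])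
    (fun k σ hσ =>
      det_inertia_eq_one R.ρ b (Fact.out : p.Prime) R.det (hqv k).1 (hqv k).2 (hA k) hσ)
    (fun k => f (α k)) (fun k => f (β k)) (fun k e => hαβ k (f.injective e))
    (fun k => by
      rw [residue_matrixRep_of_adapted hb, Matrix.charpoly_map, hFq]
      simp [f])
    (fun j k φ hφ lam hlam σ hσ => by
      obtain ⟨a, hker, huni, -⟩ := exists_point_of_eigen I R act hact j φ lam hlam
      exact charpoly_map_eq_of_unipotent I R (hA k) j a lam hker (huni k hφ) hσ)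
    (fun j k φ hφ hprim lam hlam => by
      obtain ⟨a, hker, -, hnon⟩ := exists_point_of_eigen I R act hact j φ lam hlam
      exact exists_charpoly_map_ne I R (hA k) j a lam hker (hqv k).1 (hnon k hφ hprim))
  exact ⟨⟨δ, hδ,
    fun k => map_eq_zero_of_unramified I R Z π hbπ (hA k) (hw0 k) (fun j a => h0 j a k) (htriv k),
    act', τ, hC', hX', hker', haug', hτact, hτadd, hτaug, hτcomp, hτint⟩⟩

namespace LevelCoords

variable {I R Z act} {π : R.T →ₐ[O] Z.R.T} (C' : LevelCoords I R Z act π)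

/-- The actions in the new coordinates, by the lift past the last level. -/
def actAll (j : ℕ) : R.T →+* Matrix (Fin (d j)) (Fin (d j)) (DiaCoords O p lv) :=
  if hj : j < m + 1 then C'.act' ⟨j, hj⟩
  else (Matrix.scalar (Fin (d j))).comp
    ((algebraMap O (DiaCoords O p lv)).comp (R.pt none).toRingHom)

omit [IsAdicComplete (maximalIdeal O) O] [Finite (ResidueField O)] [Fact (Nat.Prime p)] in
/-- Below the top the actions are those in the new coordinates. -/
theorem actAll_of_lt {j : ℕ} (hj : j < m + 1) : C'.actAll j = C'.act' ⟨j, hj⟩ := dif_pos hj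

omit [IsAdicComplete (maximalIdeal O) O] [Finite (ResidueField O)] [Fact (Nat.Prime p)] in
/-- The action at the lower level of a step. -/
theorem actAll_castSucc (j : Fin m) : C'.actAll (j : ℕ) = C'.act' j.castSucc :=
  C'.actAll_of_lt (lt_trans j.2 (Nat.lt_succ_self m))

omit [IsAdicComplete (maximalIdeal O) O] [Finite (ResidueField O)] [Fact (Nat.Prime p)] in
/-- The action at the upper level of a step. -/
theorem actAll_succ (j : Fin m) : C'.actAll ((j : ℕ) + 1) = C'.act' j.succ :=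
  C'.actAll_of_lt (Nat.succ_lt_succ j.2)

omit [IsAdicComplete (maximalIdeal O) O] [Finite (ResidueField O)] [Fact (Nat.Prime p)] in
/-- Constants act as scalars. -/
theorem actAll_algebraMap (j : ℕ) (c : O) :
    C'.actAll j (algebraMap O R.T c) =
      Matrix.scalar (Fin (d j)) (Ideal.Quotient.mk _ (MvPowerSeries.C c)) := by
  by_cases hj : j < m + 1
  · rw [C'.actAll_of_lt hj, C'.act'_algebraMap]
    rfl
  · simp only [actAll, dif_neg hj, RingHom.comp_apply]
    show Matrix.scalar (Fin (d j))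
      (algebraMap O (DiaCoords O p lv) (R.pt none (algebraMap O R.T c))) = _
    rw [AlgHom.commutes]
    rfl

omit [Finite (ResidueField O)] in
/-- Modulo the variables the actions are those of the base ring. -/
theorem actAll_aug {h : ℕ} (e₀ : Fin h → Z.R.T) (hπnone : ∀ t, Z.R.pt none (π t) = R.pt none t)
    (hπA : ∀ (j : Fin (m + 1)) t, (act j t).map augD = Z.A j (π t))
    (j : ℕ) (x : R.T) :
    (C'.actAll j x).map augD = (Z.raiseBase Kd e₀).A j (π x) := by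
  by_cases hj : j < m + 1
  · rw [C'.actAll_of_lt hj,
      show (Z.raiseBase Kd e₀).A j = (Z.A ⟨j, hj⟩).toRingHom from dif_pos hj, C'.act'_aug]
    exact hπA ⟨j, hj⟩ x
  · rw [show (Z.raiseBase Kd e₀).A j = (Matrix.scalar (Fin (d j))).comp Z.w.toRingHom from
      dif_neg hj]
    simp only [actAll, dif_neg hj, RingHom.comp_apply]
    show (Matrix.scalar (Fin (d j))
      (algebraMap O (DiaCoords O p lv) (R.pt none x))).map _ = _
    rw [Matrix.scalar_apply, Matrix.diagonal_map (map_zero _)]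
    refine congrArg Matrix.diagonal (funext fun _ => ?_)
    show Ideal.Quotient.lift _ MvPowerSeries.constantCoeff _
      (algebraMap O (DiaCoords O p lv) (R.pt none x)) = Z.R.pt none (π x)
    rw [hπnone, algebraMap_S, Ideal.Quotient.lift_mk, MvPowerSeries.constantCoeff_C]

/-- The two degeneracy maps upwards in the new coordinates. -/
def up (j : Fin m) :
    Matrix (Fin (d ((j : ℕ) + 1))) (Fin (d j) ⊕ Fin (d j)) (DiaCoords O p lv) :=
  Matrix.fromCols (C'.τ j.castSucc j.succ (I.upA j)) (C'.τ j.castSucc j.succ (I.upB j))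

/-- The two degeneracy maps downwards in the new coordinates. -/
def down (j : Fin m) :
    Matrix (Fin (d j) ⊕ Fin (d j)) (Fin (d ((j : ℕ) + 1))) (DiaCoords O p lv) :=
  Matrix.fromRows (C'.τ j.succ j.castSucc (I.downA j)) (C'.τ j.succ j.castSucc (I.downB j))

omit [IsAdicComplete (maximalIdeal O) O] [Finite (ResidueField O)] [Fact (Nat.Prime p)] in
/-- The maps upwards have a common left inverse. -/
theorem up_inv (j : Fin m) :
    ∃ X : Matrix (Fin (d j) ⊕ Fin (d j)) (Fin (d ((j : ℕ) + 1))) (DiaCoords O p lv),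
      X * C'.up j = 1 :=
  exists_leftInverse_of_augS_eq _ _ (by
    ext a (c | c)
    · exact congrFun (congrFun (C'.τ_aug j.castSucc j.succ (I.upA j)) a) c
    · exact congrFun (congrFun (C'.τ_aug j.castSucc j.succ (I.upB j)) a) c) (I.up_inv j)

omit [IsAdicComplete (maximalIdeal O) O] [Finite (ResidueField O)] [Fact (Nat.Prime p)] in
/-- The maps downwards have a common right inverse. -/
theorem down_inv (j : Fin m) :
    ∃ X : Matrix (Fin (d ((j : ℕ) + 1))) (Fin (d j) ⊕ Fin (d j)) (DiaCoords O p lv),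
      C'.down j * X = 1 :=
  exists_rightInverse_of_augS_eq _ _ (by
    ext (c | c) a
    · exact congrFun (congrFun (C'.τ_aug j.succ j.castSucc (I.downA j)) c) a
    · exact congrFun (congrFun (C'.τ_aug j.succ j.castSucc (I.downB j)) c) a) (I.down_inv j)

variable (hact1 : ∀ (j : Fin (m + 1)) (ℓ : ℕ), ℓ.Prime → ℓ ∉ I.S →
    act j (R.τ ℓ) = (I.L j).Φ ((I.L j).x ℓ))
  (hact : ∀ (j : Fin (m + 1)) (t : R.T), ∃ z : (I.L j).A,
    (I.L j).Φ z = act j t ∧ ∀ a, (I.L j).ev a z = R.pt (some ⟨j, a⟩) t)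

omit [IsAdicComplete (maximalIdeal O) O] [Finite (ResidueField O)] [Fact (Nat.Prime p)] in
include hact1 in
/-- The maps upwards intertwine the actions. -/
theorem up_comm (j : Fin m) (x : R.T) :
    C'.up j * twoCopies (C'.actAll (j : ℕ) x) = C'.actAll ((j : ℕ) + 1) x * C'.up j := by
  have hA := intertwine_act I R act hact1 j.castSucc j.succ (I.upA j) fun ℓ hℓ hℓS =>
    (I.up_comm j ℓ hℓ hℓS).1
  have hB := intertwine_act I R act hact1 j.castSucc j.succ (I.upB j) fun ℓ hℓ hℓS =>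
    (I.up_comm j ℓ hℓ hℓS).2
  rw [C'.actAll_castSucc, C'.actAll_succ]
  show Matrix.fromCols _ _ * Matrix.fromBlocks _ _ _ _ = _ * Matrix.fromCols _ _
  rw [Matrix.fromCols_mul_fromBlocks, Matrix.mul_fromCols]
  simp [C'.τ_intertwine _ _ _ hA x, C'.τ_intertwine _ _ _ hB x]

omit [IsAdicComplete (maximalIdeal O) O] [Finite (ResidueField O)] [Fact (Nat.Prime p)] in
include hact1 in
/-- The maps downwards intertwine the actions. -/
theorem down_comm (j : Fin m) (x : R.T) :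
    C'.down j * C'.actAll ((j : ℕ) + 1) x = twoCopies (C'.actAll (j : ℕ) x) * C'.down j := by
  have hA := intertwine_act I R act hact1 j.succ j.castSucc (I.downA j) fun ℓ hℓ hℓS =>
    (I.down_comm j ℓ hℓ hℓS).1
  have hB := intertwine_act I R act hact1 j.succ j.castSucc (I.downB j) fun ℓ hℓ hℓS =>
    (I.down_comm j ℓ hℓ hℓS).2
  rw [C'.actAll_castSucc, C'.actAll_succ]
  show Matrix.fromRows _ _ * _ = Matrix.fromBlocks _ _ _ _ * Matrix.fromRows _ _
  rw [Matrix.fromBlocks_mul_fromRows, Matrix.fromRows_mul]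
  simp [C'.τ_intertwine _ _ _ hA x, C'.τ_intertwine _ _ _ hB x]

omit [Finite (ResidueField O)] in
include hact1 hact in
/-- The composites of the degeneracy maps are the values of the relation series at the local
coordinates. -/
theorem down_up (hb : Adapted bbar R.residue_surjective R.ρ b) (j : Fin m)
    (hc : ∀ c, (Kd j).coord R.T (matrixRep b R.ρ.ρ (P j).φ) (matrixRep b R.ρ.ρ (P j).σ - 1) c ∈
      maximalIdeal R.T) :
    C'.down j * C'.up j = Matrix.fromBlocks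
      (C'.actAll (j : ℕ) (evalSeries _ hc ((Kd j).G 0 0)))
      (C'.actAll (j : ℕ) (evalSeries _ hc ((Kd j).G 0 1)))
      (C'.actAll (j : ℕ) (evalSeries _ hc ((Kd j).G 1 0)))
      (C'.actAll (j : ℕ) (evalSeries _ hc ((Kd j).G 1 1))) := by
  rw [C'.actAll_castSucc]
  show Matrix.fromRows _ _ * Matrix.fromCols _ _ = _
  let M : GQ →* Matrix (Fin 2) (Fin 2) R.T := matrixRep b R.ρ.ρ
  have hG : ∀ a c, evalSeries _ hc ((Kd j).G a c) =
      !![((P j).q : R.T) + 1, (M (P j).φ).trace; (M (P j).φ).trace, ((P j).q : R.T) + 1] a c :=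
    fun a c => (Kd j).G_val R.T (isLift_of_adapted hb R.det (P j)) a c
  obtain ⟨h1, h2, h3, h4⟩ := down_up_act (b := b) I R act hact j
  have hA := intertwine_act I R act hact1 j.succ j.castSucc (I.downA j) fun ℓ hℓ hℓS =>
    (I.down_comm j ℓ hℓ hℓS).1
  have hB := intertwine_act I R act hact1 j.succ j.castSucc (I.downB j) fun ℓ hℓ hℓS =>
    (I.down_comm j ℓ hℓ hℓS).2
  rw [Matrix.fromRows_mul_fromCols, hG, hG, hG, hG]
  simp only [Matrix.cons_val', Matrix.cons_val_zero, Matrix.cons_val_one, Matrix.of_apply,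
    Matrix.cons_val_fin_one, Fin.isValue]
  congr 1
  · rw [← C'.τ_comp _ _ _ _ _ hA, ← C'.τ_act]; exact congrArg _ h1
  · rw [← C'.τ_comp _ _ _ _ _ hA, ← C'.τ_act]; exact congrArg _ h2
  · rw [← C'.τ_comp _ _ _ _ _ hB, ← C'.τ_act]; exact congrArg _ h3
  · rw [← C'.τ_comp _ _ _ _ _ hB, ← C'.τ_act]; exact congrArg _ h4

omit [IsAdicComplete (maximalIdeal O) O] [Finite (ResidueField O)] [Fact (Nat.Prime p)] in
include hact1 hact in
/-- An element killed by the new eigensystems comes from the level below. -/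
theorem exists_factor (j : Fin m) (x : R.T)
    (hx : ∀ a : (I.L ((j : ℕ) + 1)).κ,
      (LinearMap.trace _ _ (((I.L (j + 1)).ρ a).ρ (P j).φ) =
          algebraMap O ((I.L (j + 1)).F a) ((P j).ε) * (((P j).q : (I.L (j + 1)).F a) + 1) ∨
        LinearMap.trace _ _ (((I.L (j + 1)).ρ a).ρ (P j).φ) =
          -(algebraMap O ((I.L (j + 1)).F a) ((P j).ε) * (((P j).q : (I.L (j + 1)).F a) + 1))) →
      R.pt (some ⟨⟨(j : ℕ) + 1, Nat.succ_lt_succ j.2⟩, a⟩) x = 0) :
    ∃ W : Matrix (Fin (d j) ⊕ Fin (d j)) (Fin (d ((j : ℕ) + 1))) (DiaCoords O p lv),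
      C'.actAll ((j : ℕ) + 1) x = C'.up j * W := by
  obtain ⟨z, hz, hzev⟩ : ∃ z : (I.L ((j : ℕ) + 1)).A,
      (I.L ((j : ℕ) + 1)).Φ z = act j.succ x ∧ ∀ a, (I.L ((j : ℕ) + 1)).ev a z =
        R.pt (some ⟨j.succ, a⟩) x := hact j.succ x
  obtain ⟨XA, XB, hX⟩ := I.saturated j z fun a ha => (hzev a).trans (hx a ha)
  have hA := intertwine_act I R act hact1 j.castSucc j.succ (I.upA j) fun ℓ hℓ hℓS =>
    (I.up_comm j ℓ hℓ hℓS).1
  have hB := intertwine_act I R act hact1 j.castSucc j.succ (I.upB j) fun ℓ hℓ hℓS =>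
    (I.up_comm j ℓ hℓ hℓS).2
  refine ⟨Matrix.fromRows (C'.τ j.succ j.castSucc XA) (C'.τ j.succ j.castSucc XB), ?_⟩
  rw [C'.actAll_succ]
  show _ = Matrix.fromCols _ _ * Matrix.fromRows _ _
  rw [Matrix.fromCols_mul_fromRows, ← C'.τ_act]
  exact ((congrArg _ (hz.symm.trans hX)).trans (C'.τ_add _ _ _ _)).trans
    (congrArg₂ (· + ·) (C'.τ_comp j.succ j.castSucc j.succ XA (I.upA j) hA)
      (C'.τ_comp j.succ j.castSucc j.succ XB (I.upB j) hB))

end LevelCoords

end Points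

section Level

variable {S₀ : Finset ℕ} {c₀ : ℕ → O} {d : ℕ → ℕ}
  {Tm : ∀ j, ℕ → Matrix (Fin (d j)) (Fin (d j)) O} {L₀ : ∀ j : ℕ, OpLevel O S₀ c₀ O (d j)}
  {cw : ℕ → O} {ρw : GaloisRepAdic O} (Z : BaseRing p ρbar bbar m Tm L₀ cw ρw)
  {P : Fin m → RaisedPrime p ρbar bbar} (Kd : ∀ i, LocalKind (P i))
  {K : Type} [Field K] [Algebra O K] {Smin : Finset ℕ} {D : ℕ} {qv lv : Fin D → ℕ}
  (I : RaiseInputs K P Smin c₀ d Tm S₀ qv lv)

/-- **A raising level**: the inputs at one choice of auxiliary primes give a level over the base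
ring, with the diamond ideal of the choice. -/
theorem exists_raiseLevel [CharZero O] [IsAlgClosed K] [CharZero K]
    (hK : Function.Injective (algebraMap O K)) (h2 : IsUnit (2 : O))
    (hp : (p : O) ∈ maximalIdeal O) (habs : ρbar.IsAbsolutelyIrreducible)
    (hodd : ∃ g : GQ, g * g = 1 ∧ LinearMap.det (ρbar.ρ g) = -1)
    (hbar : ∀ ℓ : ℕ, ℓ.Prime → ℓ ∉ S₀ → ∀ P : ValuationSubring Qbar, P.LiesOverPrime ℓ →
      ∀ σ : GQ, P.IsFrobeniusAt σ ℓ → LinearMap.charpoly (ρbar.ρ σ) =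
        X ^ 2 - C (residue O (c₀ ℓ)) * X + C (ℓ : ResidueField O))
    (hTm : ∀ j, ∀ ℓ : ℕ, ℓ.Prime → ℓ ∉ S₀ → (L₀ j).Φ ((L₀ j).x ℓ) = Tm j ℓ)
    (hcw : ∀ ℓ : ℕ, ℓ.Prime → ℓ ∉ S₀ → cw ℓ - c₀ ℓ ∈ maximalIdeal O)
    (hw : ∀ ℓ : ℕ, ℓ.Prime → ℓ ∉ S₀ → ∀ P : ValuationSubring Qbar, P.LiesOverPrime ℓ →
      ∀ σ : GQ, P.IsFrobeniusAt σ ℓ →
        LinearMap.charpoly (ρw.ρ σ) = X ^ 2 - C (cw ℓ) * X + C (ℓ : O))
    (hP : Function.Injective fun i => (P i).q) (hPS : ∀ i, (P i).q ∉ Smin)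
    (hPqv : ∀ i k, (P i).q ≠ qv k)
    (hqv : ∀ k, (qv k).Prime ∧ qv k ≠ p)
    (hlv : ∀ k, 1 ≤ lv k ∧ p ^ lv k ∣ qv k - 1 ∧ ¬ p ^ (lv k + 1) ∣ qv k - 1)
    (hqbar : ∀ k, ∀ A : ValuationSubring Qbar, A.LiesOverPrime (qv k) →
      (∀ τ ∈ A.inertiaSubgroupIn ℚ, rbar bbar τ = 1) ∧ ∀ φ : GQ, A.IsFrobeniusAt φ (qv k) →
        ∃ α β : ResidueField O, α ≠ β ∧ (rbar bbar φ).charpoly = (X - C α) * (X - C β))
    (hw0 : ∀ k, ρw.IsUnramifiedAt (qv k))
    (h0 : ∀ (j : Fin (m + 1)) (a : (L₀ j).κ) k, ((L₀ j).ρ a).IsUnramifiedAt (qv k))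
    {h g : ℕ} (e₀ : Fin h → Z.R.T)
    (hgens : ∀ (R : PointsRing I.L p (ρbar := ρbar) cw ρw m) (b : Basis (Fin 2) R.T R.ρ.V),
      Adapted bbar R.residue_surjective R.ρ b → ∀ π : R.T →ₐ[O] Z.R.T, Function.Surjective π →
      (∀ σ, (matrixRep b R.ρ.ρ σ).map π = matrixRep Z.b Z.R.ρ.ρ σ) →
      ∃ extra : Fin h → R.T, (∀ j, extra j ∈ maximalIdeal R.T) ∧ (∀ j, π (extra j) = e₀ j) ∧
        ∃ gens : Fin g → R.T, (∀ j, gens j ∈ maximalIdeal R.T) ∧
          maximalIdeal R.T ≤ relIdeal (𝒪 := O) (blockTuple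
            (fun i => (Kd i).coord R.T (matrixRep b R.ρ.ρ (P i).φ) (matrixRep b R.ρ.ρ (P i).σ - 1))
            extra) ⊔ Ideal.span (Set.range gens)) :
    ∃ Y : RaiseLevel (Z.raiseBase Kd e₀) g D, Y.J = diamondIdeal (𝒪 := O) p lv := by
  classical
  have hbarS : ∀ ℓ : ℕ, ℓ.Prime → ℓ ∉ I.S → ∀ P : ValuationSubring Qbar, P.LiesOverPrime ℓ →
      ∀ σ : GQ, P.IsFrobeniusAt σ ℓ → LinearMap.charpoly (ρbar.ρ σ) =
        X ^ 2 - C (residue O (c₀ ℓ)) * X + C (ℓ : ResidueField O) :=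
    fun ℓ hℓ hℓS => hbar ℓ hℓ fun hm => hℓS (I.subset hm)
  obtain ⟨R⟩ := exists_pointsRing I.L cw ρw (m := m) h2 hp habs hodd hbarS
    (fun ℓ hℓ hℓS => hcw ℓ hℓ fun hm => hℓS (I.subset hm))
    fun ℓ hℓ hℓS => hw ℓ hℓ fun hm => hℓS (I.subset hm)
  choose act hact1 hact2 hact3 using fun j : Fin (m + 1) =>
    R.exists_act (I.L j).Φ (I.L j).x (κ := (I.L j).κ) (fun a => some ⟨j, a⟩)
      (fun a => (I.L j).ev a) (fun _ _ _ _ => rfl) fun z hz => ((I.L j).ker_iff z).mpr hz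
  obtain ⟨π, hπs, hπtr, hπnone, hπA⟩ := exists_baseProj I R Z hTm act hact1
  obtain ⟨b, hb, hbπ⟩ := exists_adapted_over I R Z habs π hπs hπtr
  obtain ⟨C'⟩ := exists_levelCoords I R Z act hK hp hqv hlv hqbar hw0 h0 hb π hbπ hact3
  have hcoord : ∀ i c, (Kd i).coord R.T (matrixRep b R.ρ.ρ (P i).φ)
      (matrixRep b R.ρ.ρ (P i).σ - 1) c ∈ maximalIdeal R.T := fun i =>
    (Kd i).coord_mem R.T (isLift_of_adapted hb R.det (P i))
  obtain ⟨extra, hextra, hπextra, gens, hgensm, hgensle⟩ := hgens R b hb π hπs hbπ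
  have hptm : ∀ a, ∀ x ∈ maximalIdeal R.T, R.pt a x ∈ maximalIdeal (PtF I.L a) := fun a x hx => by
    have := R.pt_local a
    exact map_nonunit (R.pt a).toRingHom x hx
  have hreach := reach_at_level Kd I R hb hP hPS hPqv
  refine ⟨{
    R := R.T
    residue_surjective := R.residue_surjective
    proj := π
    proj_surjective := hπs
    coord := fun i => (Kd i).coord R.T (matrixRep b R.ρ.ρ (P i).φ) (matrixRep b R.ρ.ρ (P i).σ - 1)
    coord_mem := hcoord
    proj_coord := coord_map_over Kd I R Z hb π hbπ e₀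
    extra := extra
    extra_mem := hextra
    proj_extra := hπextra
    gens := gens
    gens_mem := hgensm
    gens_le := hgensle
    J := diamondIdeal (𝒪 := O) p lv
    J_aug := diamondIdeal_aug p lv
    act := C'.actAll
    act_algebraMap := C'.actAll_algebraMap
    act_aug := C'.actAll_aug Kd e₀ hπnone hπA
    dia := C'.δ
    dia_mem := C'.δ_mem
    proj_dia := C'.proj_δ
    act_dia := fun j hj k => ?_
    up := C'.up
    down := C'.down
    up_comm := C'.up_comm hact1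
    down_comm := C'.down_comm hact1
    up_inv := C'.up_inv
    down_inv := C'.down_inv
    down_up := fun j => C'.down_up Kd hact1 hact3 hb j (hcoord j)
    ι := fun j => Σ' _ : j < m + 1, (I.L j).κ
    F := fun j a => PtF I.L (some (⟨⟨j, a.1⟩, a.2⟩ : Σ j : Fin (m + 1), (I.L j).κ))
    pt := fun j a => R.pt (some ⟨⟨j, a.1⟩, a.2⟩)
    pt_mem := fun j a => hptm _
    kills := fun x hx => ?_
    base_reach := fun a i => ?_
    IsNew := fun j a =>
      LinearMap.trace _ _ (((I.L (j + 1)).ρ a.2).ρ (P j).φ) =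
          algebraMap O ((I.L (j + 1)).F a.2) ((P j).ε) * (((P j).q : (I.L (j + 1)).F a.2) + 1) ∨
        LinearMap.trace _ _ (((I.L (j + 1)).ρ a.2).ρ (P j).φ) =
          -(algebraMap O ((I.L (j + 1)).F a.2) ((P j).ε) * (((P j).q : (I.L (j + 1)).F a.2) + 1))
    new_reach := fun j a ha => exists_choice_of_reach Kd (fun i => hreach ⟨_, a.1⟩ a.2 i) ha
    kill_new := fun j x hx =>
      C'.exists_factor hact1 hact3 j x fun a ha => hx ⟨Nat.succ_lt_succ j.2, a⟩ ha }, rfl⟩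
  · rw [C'.actAll_of_lt (Nat.lt_succ_of_le hj)]
    exact C'.act'_δ _ k
  · show C'.actAll 0 x = 0
    rw [C'.actAll_of_lt (Nat.succ_pos m), C'.act'_eq_zero]
    exact hact2 _ x fun a => hx ⟨Nat.succ_pos m, a⟩
  · show ((Kd i).B.comp (curChoice (fun i => (Kd i).B) 0 i)).Reaches _
    rw [curChoice, if_neg (Nat.not_lt_zero _)]
    exact (hreach ⟨0, a.1⟩ a.2 i).2.1 (Nat.zero_le _)

end Level

end Fermat.Agent.Raising
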