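import Fermat.Agent.LevelLowering.TWEigenPoint
import Fermat.Agent.Raising.PointSet

/-!
# Lemmas for the builder

Intertwiners on generators intertwine everything, a character of operators factors through a map
into their range, a residual trace basis is one in an adapted basis, and inertia at `q ≠ p` has
determinant one.
-/

noncomputable section

namespace Fermat.Agent.Raising

open IsLocalRing Polynomial Module Matrix Fermat.Agent.LevelLowering Fermat.Agent.Gal
  Fermat.Agent.TW Fermat.Agent.PT

local notation "Qbar" => AlgebraicClosure ℚ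
local notation "GQ" => (AlgebraicClosure ℚ ≃ₐ[ℚ] AlgebraicClosure ℚ)

section Algebraic

variable {O T R : Type} [CommRing O] [CommRing T] [Algebra O T] [CommRing R] [Algebra O R]

/-- Intertwining the generators intertwines everything. -/
theorem intertwine_of_adjoin {m n : Type} [Fintype m] [DecidableEq m] [Fintype n] [DecidableEq n]
    (f : T →ₐ[O] Matrix m m R) (g : T →ₐ[O] Matrix n n R) (F : Matrix n m R) {s : Set T}
    (hs : Algebra.adjoin O s = ⊤) (h : ∀ t ∈ s, F * f t = g t * F) (t : T) :
    F * f t = g t * F := by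
  have ht : t ∈ Algebra.adjoin O s := hs ▸ Algebra.mem_top
  induction ht using Algebra.adjoin_induction with
  | mem t ht => exact h t ht
  | algebraMap r =>
    rw [AlgHom.commutes, AlgHom.commutes, Algebra.algebraMap_eq_smul_one,
      Algebra.algebraMap_eq_smul_one, Matrix.mul_smul, Matrix.smul_mul, Matrix.mul_one,
      Matrix.one_mul]
  | add u v _ _ hu hv => rw [map_add, map_add, Matrix.mul_add, Matrix.add_mul, hu, hv]
  | mul u v _ _ hu hv =>
    rw [map_mul, map_mul, ← Matrix.mul_assoc, hu, Matrix.mul_assoc, hv, ← Matrix.mul_assoc]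

variable {A F : Type} [CommRing A] [Algebra O A] [CommRing F] [Algebra O F] {d : ℕ}

/-- A character of operators factors through a map into their range. -/
theorem exists_factor_hom (g : T →ₐ[O] Matrix (Fin d) (Fin d) R)
    (Φ : A →ₐ[O] Matrix (Fin d) (Fin d) R) (ev : A →ₐ[O] F)
    (hker : ∀ z, Φ z = 0 → ev z = 0) {s : Set T} (hs : Algebra.adjoin O s = ⊤)
    (h : ∀ t ∈ s, g t ∈ Φ.range) :
    ∃ χ : T →ₐ[O] F, ∀ t z, Φ z = g t → χ t = ev z := by
  classical
  have hr : ∀ t, ∃ z, Φ z = g t := fun t => by
    have hle : Algebra.adjoin O s ≤ Φ.range.comap g := Algebra.adjoin_le h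
    exact hle (hs ▸ Algebra.mem_top)
  choose z hz using hr
  have hwd : ∀ t w, Φ w = g t → ev (z t) = ev w := fun t w hw => by
    rw [← sub_eq_zero, ← map_sub]
    exact hker _ (by rw [map_sub, hz, hw, sub_self])
  refine ⟨{ toFun := fun t => ev (z t)
            map_one' := (hwd 1 1 (by rw [map_one, map_one])).trans (map_one ev)
            map_mul' := fun u v =>
              (hwd _ (z u * z v) (by rw [map_mul, map_mul, hz, hz])).trans (map_mul ev _ _)
            map_zero' := (hwd 0 0 (by rw [map_zero, map_zero])).trans (map_zero ev)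
            map_add' := fun u v =>
              (hwd _ (z u + z v) (by rw [map_add, map_add, hz, hz])).trans (map_add ev _ _)
            commutes' := fun r =>
              (hwd _ (algebraMap O A r) (by rw [AlgHom.commutes, AlgHom.commutes])).trans
                (ev.commutes r) }, fun t w hw => hwd t w hw⟩

end Algebraic

section Adapted

variable {O : Type} [CommRing O] [IsLocalRing O] {ρbar : ResidualGaloisRep (ResidueField O)}
  {bbar : Basis (Fin 2) (ResidueField O) ρbar.V} {T : Type} [CommRing T] [IsLocalRing T]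
  [Algebra O T] [IsLocalHom (algebraMap O T)]
  {hres : Function.Surjective (residue T ∘ algebraMap O T)} {ρ : GaloisRepAdic T}
  {b : Basis (Fin 2) T ρ.V} (hb : Adapted bbar hres ρ b)

include hb in
/-- A trace basis of the reduction is a trace basis in an adapted basis. -/
theorem isUnit_gram_of_adapted {gb : Fin 4 → GQ}
    (hgb : IsUnit (Matrix.of fun i j =>
      LinearMap.trace (ResidueField O) ρbar.V (ρbar.ρ (gb i) * ρbar.ρ (gb j))).det) :
    IsUnit (Matrix.of fun i j =>
      Matrix.trace (matrixRep b ρ.ρ (gb i) * matrixRep b ρ.ρ (gb j))).det := by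
  have : IsLocalHom (toRes hres) := ⟨fun x hx => by
    by_contra hxu
    rw [(toRes_eq_zero_iff hres x).mpr hxu] at hx
    exact not_isUnit_zero hx⟩
  refine IsUnit.of_map (toRes hres) _ ?_
  rw [RingHom.map_det]
  refine (congrArg (fun X => IsUnit (Matrix.det X)) ?_).mpr hgb
  ext i j
  rw [RingHom.mapMatrix_apply, Matrix.map_apply, Matrix.of_apply, Matrix.of_apply, ← map_mul,
    ← map_mul, ← trace_matrixRep bbar ρbar.ρ]
  exact (AddMonoidHom.map_trace (toRes hres).toAddMonoidHom _).trans
    (congrArg Matrix.trace (hb _))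

end Adapted

variable {T : Type} [CommRing T] [IsLocalRing T] [IsNoetherianRing T]

/-- Inertia at a prime other than `p` has determinant one. -/
theorem det_inertia_eq_one (ρ : GaloisRepAdic T) (b : Basis (Fin 2) T ρ.V) {p q : ℕ}
    (hp : p.Prime) (hdet : ρ.DetIsCyclotomic p) (hq : q.Prime) (hqp : q ≠ p)
    {A : ValuationSubring Qbar} (hA : A.LiesOverPrime q) {σ : GQ}
    (hσ : σ ∈ A.inertiaSubgroupIn ℚ) : (matrixRep b ρ.ρ σ).det = 1 := by
  rw [show (matrixRep b ρ.ρ σ).det = LinearMap.det (ρ.ρ σ) from LinearMap.det_toMatrix b _]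
  refine sub_eq_zero.mp ?_
  rw [← Ideal.mem_bot, ← Ideal.iInf_pow_eq_bot_of_isLocalRing (maximalIdeal T)
    (maximalIdeal.isMaximal T).ne_top, Submodule.mem_iInf]
  intro n
  have h := hdet.2 n σ 1 fun μ hμ => by
    rw [pow_one]
    exact Gal.inertia_rootOfUnity hq hA hσ
      (fun hd => hqp ((Nat.prime_dvd_prime_iff_eq hq hp).mp (hq.dvd_of_dvd_pow hd))) hμ
  rw [Nat.cast_one] at h
  refine (Ideal.span_le.mpr ?_) h
  rw [Set.singleton_subset_iff, SetLike.mem_coe, Nat.cast_pow]
  exact Ideal.pow_mem_pow hdet.1 n

end Fermat.Agent.Raising
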