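import Mathlib.LinearAlgebra.Matrix.ToLin
import Mathlib.RingTheory.Localization.Integer
import Fermat.Prelude.Def_WeierstrassCurve_Mlc1RowStatement
import Fermat.Agent.Level.Main
import Fermat.Agent.Raising.Coeff.Eigen
import Fermat.Agent.SquareLevel.Core
import Fermat.Agent.SquareLevel.Descent

/-!
# The conclusion of lifting

`exactConductor_of_eigenclass`: an eigenclass of squarefree level `N`, divisible by the bad primes,
with the traces of a semistable curve outside a finite set gives modularity at the conductor.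
-/

noncomputable section

namespace Fermat.Agent.Raising.Conclude

open scoped MatrixGroups
open CongruenceSubgroup ModularFormClass ModularCurve WeierstrassCurve Fermat.Agent.Grp
  Fermat.Agent.Hecke Fermat.Agent.Ihara

/-- A common eigenvector in `Hom_cl(Γ₀(N), ℂ)` gives a normalised eigenform. -/
theorem exists_eigenform_of_eigenclass {N : ℕ} [NeZero N] {S : Set ℕ} (hS : ∀ ℓ ∈ S, ℓ.Prime)
    (c : ℕ → ℂ) {v : clH ℂ N} (hv0 : v ≠ 0)
    (hv : ∀ (ℓ : ℕ) [NeZero ℓ], ℓ ∈ S → clT ℂ N ℓ v = c ℓ • v) :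
    ∃ g : CuspForm (Gamma0 N) 2, g.IsNormalizedEigenform ∧ ∀ ℓ ∈ S, qCoeff g ℓ = c ℓ := by
  let V := CuspForm (Gamma0 N) 2
  have := Eis.finiteDimensional_cuspForm N 2
  let ρ : CuspForm.heckeAlgebra N 2 ∅ →+* Module.End ℂ V :=
    (CuspForm.heckeAlgebra N 2 ∅).val.toRingHom
  let W : Submodule ℂ V := ⨅ ℓ : S, LinearMap.ker (formT N (hS ℓ ℓ.2) - c ℓ • 1)
  have hmem : ∀ f : V, f ∈ W ↔ ∀ ℓ : S, formT N (hS ℓ ℓ.2) f = c ℓ • f := fun f => by
    simp [W, Submodule.mem_iInf, sub_eq_zero]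
  have hW : Eis.IsStableSub ρ W := by
    intro t f hf
    rw [hmem] at hf ⊢
    intro ℓ
    show formT N _ ((t : Module.End ℂ V) f) = c ℓ • (t : Module.End ℂ V) f
    rw [formT, ← Module.End.mul_apply, ← map_smul, ← hf ℓ, formT, ← Module.End.mul_apply]
    exact congrArg (fun x : CuspForm.heckeAlgebra N 2 ∅ => (x : Module.End ℂ V) f) (mul_comm _ _)
  have hne : W ≠ ⊥ := by
    obtain ⟨⟨f₁, f₂⟩, hx⟩ := exists_periodHomPair_eq v
    have h1 : ∀ ℓ : S, formT N (hS ℓ ℓ.2) f₁ = c ℓ • f₁ ∧ formT N (hS ℓ ℓ.2) f₂ = c ℓ • f₂ := by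
      rintro ⟨ℓ, hℓ⟩
      have : NeZero ℓ := ⟨(hS ℓ hℓ).ne_zero⟩
      have h : periodHomPair N (formT N (hS ℓ hℓ) f₁, formT N (hS ℓ hℓ) f₂) =
          periodHomPair N (c ℓ • (f₁, f₂)) := by
        rw [periodHomPair_formT (hS ℓ hℓ) (f₁, f₂), map_smul, hx]
        exact congrArg Subtype.val (hv ℓ hℓ)
      exact ⟨congrArg Prod.fst (Periods.periodHomPair_injective h),
        congrArg Prod.snd (Periods.periodHomPair_injective h)⟩
    intro hbot
    have hf₁ : f₁ = 0 :=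
      (Submodule.mem_bot ℂ).mp (hbot ▸ (hmem f₁).mpr fun ℓ => (h1 ℓ).1)
    have hf₂ : f₂ = 0 :=
      (Submodule.mem_bot ℂ).mp (hbot ▸ (hmem f₂).mpr fun ℓ => (h1 ℓ).2)
    refine hv0 (Subtype.ext ?_)
    rw [← hx, hf₁, hf₂]
    exact map_zero (periodHomPair N)
  obtain ⟨u, huW, hu0, hu⟩ := Eis.exists_common_eigenvector ρ W hW hne
  obtain ⟨χ, hχ⟩ := Eis.exists_character_of_eigenvector ρ hu0 hu
  obtain ⟨g, hg, hgℓ⟩ := Eis.exists_normalizedEigenform_of_eigen hu0 hχ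
  refine ⟨g, hg, fun ℓ hℓ => ?_⟩
  rw [hgℓ ℓ (hS ℓ hℓ)]
  exact smul_left_injective ℂ hu0 ((hχ _).symm.trans ((hmem u).mp huW ⟨ℓ, hℓ⟩))

variable {W : WeierstrassCurve ℤ} {N : ℕ} [NeZero N]

/-- An eigenclass with the traces of the curve outside a finite set gives modularity of its
level. -/
theorem isModularModelOfLevel_of_eigenclass {K : Type} [Field K] [CharZero K] (hΔ : W.Δ ≠ 0)
    (S : Finset ℕ) {φ : clH K N} (hφ : φ ≠ 0)
    (hT : ∀ (ℓ : ℕ) [NeZero ℓ], ℓ.Prime → ℓ ∉ S → clT K N ℓ φ = (W.apOfModel ℓ : K) • φ) :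
    W.IsModularModelOfLevel N := by
  classical
  let S₀ : Finset ℕ := S ∪ N.primeFactors ∪ W.Δ.natAbs.primeFactors
  have hgood : ∀ ℓ, ℓ.Prime → ℓ ∉ S₀ → W.IsGoodPrimeFor ℓ := fun ℓ hℓ h hd =>
    h (Finset.mem_union_right _ (Nat.mem_primeFactors.mpr
      ⟨hℓ, Int.natCast_dvd.mp hd, Int.natAbs_ne_zero.mpr hΔ⟩))
  have hMS : ∀ q, q.Prime → q ∣ N → q ∈ S₀ := fun q hq h =>
    Finset.mem_union_left _ (Finset.mem_union_right _
      (Nat.mem_primeFactors.mpr ⟨hq, h, NeZero.ne N⟩))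
  let s : Set ℕ := {ℓ | ℓ.Prime ∧ ℓ ∉ S₀}
  obtain ⟨ψ, hψ, hψT⟩ := Coeff.exists_clH_of_intCast (K' := ℂ) hφ s (fun ℓ => W.apOfModel ℓ)
    fun ℓ _ hℓ => hT ℓ hℓ.1 fun h =>
      hℓ.2 (Finset.mem_union_left _ (Finset.mem_union_left _ h))
  obtain ⟨g, hg, hgℓ⟩ :=
    exists_eigenform_of_eigenclass (S := s) (fun ℓ h => h.1) (fun ℓ => (W.apOfModel ℓ : ℂ)) hψ hψT
  exact ⟨g, hg, fun q hq hqW hqN => Level.qCoeff_eq_apOfModel hg hΔ hMS hgood
    (fun ℓ hℓ h => hgℓ ℓ ⟨hℓ, h⟩) hq hqN hqW⟩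

omit [NeZero N] in
/-- Modularity of squarefree level divisible by the bad primes gives exact conductor level. -/
theorem exactConductor_of_isModularModelOfLevel (hΔ : W.Δ ≠ 0) (hW : W.IsSemistableModel)
    (hN : Squarefree N) (hbad : ∀ ℓ : ℕ, ℓ.Prime → (ℓ : ℤ) ∣ W.Δ → ℓ ∣ N)
    (hmod : W.IsModularModelOfLevel N) : Mlc1IsModularModelOfExactConductorLevel W :=
  ⟨W.conductorLevel, W.conductorLevel_pos, W.squarefree_conductorLevel,
    fun _ hq => W.prime_dvd_conductorLevel_iff hΔ hq,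
    Level.isModularModelOfLevel_conductorLevel
      (fun N q _ _ hq hqN hq2 => SquareLevel.inertiaFixedBounded_of_core N q hq
        (SquareLevel.coreBounded N q hq hqN hq2))
      W hW N hmod hbad fun q hq h => Nat.squarefree_iff_prime_squarefree.mp hN q hq
        ((mul_dvd_mul_left q (dvd_mul_right q q)).trans (by rwa [pow_three] at h))⟩

/-- An eigenclass of squarefree level divisible by the bad primes with the traces of
a semistable curve outside a finite set gives exact conductor modularity. -/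
theorem exactConductor_of_eigenclass {K : Type} [Field K] [CharZero K] (hΔ : W.Δ ≠ 0)
    (hW : W.IsSemistableModel) (hN : Squarefree N)
    (hbad : ∀ ℓ : ℕ, ℓ.Prime → (ℓ : ℤ) ∣ W.Δ → ℓ ∣ N) (S : Finset ℕ) {φ : clH K N} (hφ : φ ≠ 0)
    (hT : ∀ (ℓ : ℕ) [NeZero ℓ], ℓ.Prime → ℓ ∉ S → clT K N ℓ φ = (W.apOfModel ℓ : K) • φ) :
    Mlc1IsModularModelOfExactConductorLevel W :=
  exactConductor_of_isModularModelOfLevel hΔ hW hN hbad
    (isModularModelOfLevel_of_eigenclass hΔ S hφ hT)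

end Fermat.Agent.Raising.Conclude
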