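import Mathlib.Data.Fintype.Sigma
import Mathlib.RingTheory.MvPowerSeries.NoZeroDivisors
import Fermat.Agent.LevelLowering.StRing

/-!
# Components of `O⟦coordinates, x⟧`

At each of finitely many primes a block of coordinates; a local map sends a block to series in
fresh variables.  A choice of local maps gives the prime kernel of the product map; if every
coordinate is integral over as many parameters as there are fresh variables, the quotient has
dimension at most one plus the number of fresh and free variables.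
-/

noncomputable section

namespace Fermat.Agent.Raising

open IsLocalRing Fermat.Agent.LevelLowering

local notation "PS" => MvPowerSeries

variable {𝒪 : Type} [CommRing 𝒪] [IsDomain 𝒪] [IsDiscreteValuationRing 𝒪]
  [IsAdicComplete (maximalIdeal 𝒪) 𝒪]

/-- The block indices together with `g` free indices. -/
abbrev BlockIdx {m : ℕ} (e : Fin m → ℕ) (g : ℕ) : Type := (Σ i : Fin m, Fin (e i)) ⊕ Fin g

/-- The number of variables. -/
def nVars {m : ℕ} (e : Fin m → ℕ) (g : ℕ) : ℕ := Fintype.card (BlockIdx e g)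

/-- The numbering of the variables. -/
def varIdx {m : ℕ} {e : Fin m → ℕ} {g : ℕ} (a : BlockIdx e g) : Fin (nVars e g) :=
  Fintype.equivFin (BlockIdx e g) a

/-- Every variable comes from a block or is free. -/
lemma varIdx_cases {m : ℕ} {e : Fin m → ℕ} {g : ℕ} (k : Fin (nVars e g)) :
    ∃ a : BlockIdx e g, k = varIdx a :=
  ⟨(Fintype.equivFin _).symm k, ((Fintype.equivFin _).apply_symm_apply k).symm⟩

/-- A tuple from blocks and free entries. -/
def blockTuple {α : Type} {m : ℕ} {e : Fin m → ℕ} {g : ℕ} (b : ∀ i, Fin (e i) → α) (x : Fin g → α) :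
    Fin (nVars e g) → α :=
  fun k => Sum.elim (fun a => b a.1 a.2) x ((Fintype.equivFin (BlockIdx e g)).symm k)

/-- The entries at the blocks. -/
@[simp]
lemma blockTuple_inl {α : Type} {m : ℕ} {e : Fin m → ℕ} {g : ℕ} (b : ∀ i, Fin (e i) → α)
    (x : Fin g → α) (i : Fin m) (c : Fin (e i)) :
    blockTuple b x (varIdx (.inl ⟨i, c⟩)) = b i c := by
  simp [blockTuple, varIdx]

/-- The entries at the free variables. -/
@[simp]
lemma blockTuple_inr {α : Type} {m : ℕ} {e : Fin m → ℕ} {g : ℕ} (b : ∀ i, Fin (e i) → α)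
    (x : Fin g → α) (j : Fin g) : blockTuple b x (varIdx (e := e) (.inr j)) = x j := by
  simp [blockTuple, varIdx]

/-- A tuple lies in an ideal when all its parts do. -/
lemma blockTuple_mem {α : Type} [Semiring α] {m : ℕ} {e : Fin m → ℕ} {g : ℕ} {I : Ideal α}
    {b : ∀ i, Fin (e i) → α} {x : Fin g → α} (hb : ∀ i c, b i c ∈ I) (hx : ∀ j, x j ∈ I)
    (k : Fin (nVars e g)) : blockTuple b x k ∈ I := by
  obtain ⟨a | a, rfl⟩ := varIdx_cases k
  · rw [blockTuple_inl]; exact hb _ _
  · rw [blockTuple_inr]; exact hx _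

variable (𝒪) in
/-- A map of one block of coordinates into series in fresh variables. -/
structure LocalMap (e : ℕ) where
  /-- The number of fresh variables. -/
  f : ℕ
  /-- The image of each coordinate, in the maximal ideal. -/
  val : Fin e → PS (Fin f) 𝒪
  val_mem : ∀ c, val c ∈ maximalIdeal (PS (Fin f) 𝒪)

/-- Evaluation along a local map. -/
def LocalMap.hom {e : ℕ} (l : LocalMap 𝒪 e) : PS (Fin e) 𝒪 →ₐ[𝒪] PS (Fin l.f) 𝒪 :=
  evalSeries l.val l.val_mem

/-- `l'` is a specialisation of `l`. -/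
def LocalMap.Le {e : ℕ} (l l' : LocalMap 𝒪 e) : Prop :=
  ∃ σ : Fin l.f → PS (Fin l'.f) 𝒪, ∃ hσ : ∀ k, σ k ∈ maximalIdeal _,
    ∀ c, evalSeries σ hσ (l.val c) = l'.val c

/-- Every local map is a specialisation of itself. -/
lemma LocalMap.le_refl {e : ℕ} (l : LocalMap 𝒪 e) : l.Le l :=
  ⟨MvPowerSeries.X, X_mem_maximalIdeal_series, fun c => by
    have h : evalSeries (𝒪 := 𝒪) (T := PS (Fin l.f) 𝒪) MvPowerSeries.X X_mem_maximalIdeal_series =
        AlgHom.id 𝒪 _ :=
      algHom_ext_series (fun k => by rw [evalSeries_X]; exact X_mem_maximalIdeal_series k)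
        fun k => by rw [evalSeries_X]; rfl
    rw [h]; rfl⟩

omit [IsAdicComplete (maximalIdeal 𝒪) 𝒪] in
/-- A non-unit series has non-unit constant coefficient. -/
lemma constantCoeff_mem_maximalIdeal {n : ℕ} {f : PS (Fin n) 𝒪} (hf : f ∈ maximalIdeal _) :
    MvPowerSeries.constantCoeff f ∈ maximalIdeal 𝒪 := by
  rw [mem_maximalIdeal, mem_nonunits_iff] at hf ⊢
  rwa [MvPowerSeries.isUnit_iff_constantCoeff] at hf

omit [IsAdicComplete (maximalIdeal 𝒪) 𝒪] in
/-- An algebra map sending the variables into the maximal ideal is local. -/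
lemma map_mem_maximalIdeal_series {n : ℕ} {T : Type} [CommRing T] [IsLocalRing T] [Algebra 𝒪 T]
    (hloc : ∀ c ∈ maximalIdeal 𝒪, algebraMap 𝒪 T c ∈ maximalIdeal T)
    (ψ : PS (Fin n) 𝒪 →ₐ[𝒪] T) (hψ : ∀ k, ψ (MvPowerSeries.X k) ∈ maximalIdeal T)
    {f : PS (Fin n) 𝒪} (hf : f ∈ maximalIdeal _) : ψ f ∈ maximalIdeal T := by
  have h : ψ (f - MvPowerSeries.C (MvPowerSeries.constantCoeff f)) ∈ maximalIdeal T :=
    (Ideal.span_le (I := (maximalIdeal T).comap ψ)).mpr
      (by rintro _ ⟨k, rfl⟩; exact hψ k) (AV.Series.sub_C_constantCoeff_mem f)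
  rw [map_sub, MvPowerSeries.c_eq_algebraMap, AlgHom.commutes] at h
  simpa using add_mem h (hloc _ (constantCoeff_mem_maximalIdeal hf))

omit [IsAdicComplete (maximalIdeal 𝒪) 𝒪] in
/-- The maximal ideal of the series ring is generated by constants and variables. -/
lemma maximalIdeal_series_le {n : ℕ} {ϖ : 𝒪} (hϖ : maximalIdeal 𝒪 = Ideal.span {ϖ}) :
    maximalIdeal (PS (Fin n) 𝒪) ≤
      Ideal.span (insert (MvPowerSeries.C ϖ) (Set.range MvPowerSeries.X)) := by
  intro f hf
  have h := AV.Series.sub_C_constantCoeff_mem f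
  have hc := constantCoeff_mem_maximalIdeal hf
  obtain ⟨d, hd⟩ := Ideal.mem_span_singleton'.mp (hϖ ▸ hc)
  have := add_mem (Ideal.span_mono (Set.subset_insert _ _) h)
    (show MvPowerSeries.C (MvPowerSeries.constantCoeff f) ∈
        Ideal.span (insert (MvPowerSeries.C ϖ) (Set.range MvPowerSeries.X)) by
      rw [← hd, map_mul]
      exact Ideal.mul_mem_left _ _ (Ideal.subset_span (Set.mem_insert _ _)))
  rwa [sub_add_cancel] at this

/-- Evaluations compose. -/
lemma evalSeries_comp {a b : ℕ} {T : Type} [CommRing T] [IsLocalRing T] [Algebra 𝒪 T]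
    [IsAdicComplete (maximalIdeal T) T]
    (hloc : ∀ c ∈ maximalIdeal 𝒪, algebraMap 𝒪 T c ∈ maximalIdeal T)
    (v : Fin a → PS (Fin b) 𝒪) (hv : ∀ i, v i ∈ maximalIdeal _)
    (ψ : PS (Fin b) 𝒪 →ₐ[𝒪] T) (hψ : ∀ k, ψ (MvPowerSeries.X k) ∈ maximalIdeal T)
    (w : Fin a → T) (hw : ∀ i, w i ∈ maximalIdeal T) (h : ∀ i, ψ (v i) = w i) :
    ψ.comp (evalSeries v hv) = evalSeries w hw :=
  algHom_ext_series
    (fun i => by
      rw [AlgHom.comp_apply, evalSeries_X]
      exact map_mem_maximalIdeal_series hloc ψ hψ (hv i))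
    fun i => by rw [AlgHom.comp_apply, evalSeries_X, evalSeries_X, h]

omit [IsAdicComplete (maximalIdeal 𝒪) 𝒪] in
/-- Constants in the maximal ideal lie in that of the series ring. -/
lemma algebraMap_series_mem {n : ℕ} :
    ∀ c ∈ maximalIdeal 𝒪, algebraMap 𝒪 (PS (Fin n) 𝒪) c ∈ maximalIdeal _ :=
  fun _ hc => algebraMap_mem_maximalIdeal_series hc

section Product

variable {m : ℕ} {e : Fin m → ℕ} (g : ℕ) (l : ∀ i, LocalMap 𝒪 (e i))

/-- The fresh variables of a choice. -/
abbrev freshN : ℕ := nVars (fun i => (l i).f) g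

/-- The fresh variables of the `i`-th block. -/
def freshVar (i : Fin m) (k : Fin (l i).f) : PS (Fin (freshN g l)) 𝒪 :=
  MvPowerSeries.X (varIdx (.inl ⟨i, k⟩))

/-- The embedding of the `i`-th block of fresh variables. -/
def freshEmb (i : Fin m) : PS (Fin (l i).f) 𝒪 →ₐ[𝒪] PS (Fin (freshN g l)) 𝒪 :=
  evalSeries (freshVar g l i) fun _ => X_mem_maximalIdeal_series _

/-- The embedding of a block sends variables to variables. -/
@[simp]
lemma freshEmb_X (i : Fin m) (k : Fin (l i).f) :
    freshEmb g l i (MvPowerSeries.X k) = MvPowerSeries.X (varIdx (.inl ⟨i, k⟩)) :=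
  evalSeries_X _ _ k

/-- The values of the variables. -/
def compVals : Fin (nVars e g) → PS (Fin (freshN g l)) 𝒪 :=
  blockTuple (fun i c => freshEmb g l i ((l i).val c))
    fun j => MvPowerSeries.X (varIdx (e := fun i => (l i).f) (.inr j))

/-- The component values lie in the maximal ideal. -/
lemma compVals_mem (k : Fin (nVars e g)) : compVals g l k ∈ maximalIdeal _ :=
  blockTuple_mem
    (fun i c => map_mem_maximalIdeal_series algebraMap_series_mem _
      (fun k => by rw [freshEmb_X]; exact X_mem_maximalIdeal_series _) ((l i).val_mem c))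
    (fun _ => X_mem_maximalIdeal_series _) k

/-- The product map. -/
def compMap : PS (Fin (nVars e g)) 𝒪 →ₐ[𝒪] PS (Fin (freshN g l)) 𝒪 :=
  evalSeries (compVals g l) (compVals_mem g l)

/-- **The prime of a choice of local maps.** -/
def compIdeal : Ideal (PS (Fin (nVars e g)) 𝒪) := RingHom.ker (compMap g l)

instance compIdeal_isPrime : (compIdeal g l).IsPrime := RingHom.ker_isPrime _

/-- The variables of the `i`-th block. -/
def blockEmb (i : Fin m) : PS (Fin (e i)) 𝒪 →ₐ[𝒪] PS (Fin (nVars e g)) 𝒪 :=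
  evalSeries (fun c => MvPowerSeries.X (varIdx (.inl ⟨i, c⟩))) fun _ => X_mem_maximalIdeal_series _

/-- The product map on a block of coordinates is the local map in fresh variables. -/
lemma compMap_blockEmb (i : Fin m) (s : PS (Fin (e i)) 𝒪) :
    compMap g l (blockEmb g i s) = freshEmb g l i ((l i).hom s) := by
  have h : (compMap g l).comp (blockEmb g i) = (freshEmb g l i).comp (l i).hom := by
    refine algHom_ext_series (fun c => ?_) fun c => ?_
    · rw [AlgHom.comp_apply, blockEmb, evalSeries_X, compMap, evalSeries_X]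
      exact compVals_mem g l _
    · rw [AlgHom.comp_apply, AlgHom.comp_apply, blockEmb, evalSeries_X, compMap, evalSeries_X,
        LocalMap.hom, evalSeries_X]
      simp [compVals]
  exact AlgHom.congr_fun h s

/-- A local relation lies in the prime. -/
lemma blockEmb_mem_compIdeal {i : Fin m} {s : PS (Fin (e i)) 𝒪} (hs : (l i).hom s = 0) :
    blockEmb g i s ∈ compIdeal g l := by
  rw [compIdeal, RingHom.mem_ker, compMap_blockEmb, hs, map_zero]

/-- Fresh variables are independent. -/
lemma freshEmb_injective (i : Fin m) : Function.Injective (freshEmb g l i) := by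
  classical
  let back : Fin (freshN g l) → PS (Fin (l i).f) 𝒪 :=
    blockTuple (fun i' k => if h : i' = i then MvPowerSeries.X (h ▸ k) else 0) fun _ => 0
  have hback : ∀ k, back k ∈ maximalIdeal _ :=
    blockTuple_mem
      (fun i' k => by
        split_ifs with h
        · exact X_mem_maximalIdeal_series _
        · exact zero_mem _)
      (fun _ => zero_mem _)
  have h : (evalSeries back hback).comp (freshEmb g l i) = AlgHom.id 𝒪 _ := by
    refine algHom_ext_series (fun k => ?_) fun k => ?_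
    · simpa [back] using X_mem_maximalIdeal_series (𝒪 := 𝒪) k
    · simp [back]
  exact Function.LeftInverse.injective (g := evalSeries back hback) fun s => AlgHom.congr_fun h s

/-- A series nonzero on the `i`-th local map is outside the prime. -/
lemma blockEmb_notMem_compIdeal {i : Fin m} {s : PS (Fin (e i)) 𝒪} (hs : (l i).hom s ≠ 0) :
    blockEmb g i s ∉ compIdeal g l := by
  rw [compIdeal, RingHom.mem_ker, compMap_blockEmb]
  exact fun h => hs (freshEmb_injective g l i (h.trans (map_zero _).symm))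

/-- Specialisation enlarges the prime. -/
lemma compIdeal_mono (l' : ∀ i, LocalMap 𝒪 (e i)) (h : ∀ i, (l i).Le (l' i)) :
    compIdeal g l ≤ compIdeal g l' := by
  choose σ hσ hv using h
  let w : Fin (freshN g l) → PS (Fin (freshN g l')) 𝒪 :=
    blockTuple (fun i k => freshEmb g l' i (σ i k))
      fun j => MvPowerSeries.X (varIdx (e := fun i => (l' i).f) (.inr j))
  have hw : ∀ k, w k ∈ maximalIdeal _ :=
    blockTuple_mem
      (fun i k => map_mem_maximalIdeal_series algebraMap_series_mem _
        (fun k => by rw [freshEmb_X]; exact X_mem_maximalIdeal_series _) (hσ i k))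
      (fun _ => X_mem_maximalIdeal_series _)
  have hblock : ∀ i, (evalSeries w hw).comp (freshEmb g l i) =
      (freshEmb g l' i).comp (evalSeries (σ i) (hσ i)) := fun i => by
    refine algHom_ext_series (fun k => ?_) fun k => ?_
    · rw [AlgHom.comp_apply, freshEmb_X, evalSeries_X]
      exact hw _
    · simp [w]
  have heq : (evalSeries w hw).comp (compMap g l) = compMap g l' := by
    refine algHom_ext_series (fun k => ?_) fun k => ?_
    · rw [AlgHom.comp_apply, compMap, evalSeries_X]
      exact map_mem_maximalIdeal_series algebraMap_series_mem _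
        (fun a => by rw [evalSeries_X]; exact hw a) (compVals_mem g l k)
    · obtain ⟨a | a, rfl⟩ := varIdx_cases k
      · rw [AlgHom.comp_apply, compMap, compMap, evalSeries_X, evalSeries_X, compVals, compVals]
        obtain ⟨i, c⟩ := a
        rw [blockTuple_inl, ← AlgHom.comp_apply, hblock, AlgHom.comp_apply, hv, blockTuple_inl]
      · rw [AlgHom.comp_apply, compMap, compMap, evalSeries_X, evalSeries_X, compVals, compVals,
          blockTuple_inr, blockTuple_inr]
        simp [w]
  intro x hx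
  rw [compIdeal, RingHom.mem_ker] at hx ⊢
  rw [← heq, AlgHom.comp_apply, hx, map_zero]

/-- A point given block by block through the local maps kills the prime. -/
theorem map_eq_zero_of_block_params {F : Type} [CommRing F] [IsLocalRing F] [Algebra 𝒪 F]
    [IsAdicComplete (maximalIdeal F) F]
    (hloc : ∀ c ∈ maximalIdeal 𝒪, algebraMap 𝒪 F c ∈ maximalIdeal F)
    (ψ : PS (Fin (nVars e g)) 𝒪 →ₐ[𝒪] F) (hψ : ∀ k, ψ (MvPowerSeries.X k) ∈ maximalIdeal F)
    (u : ∀ i, Fin (l i).f → F) (hu : ∀ i k, u i k ∈ maximalIdeal F)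
    (hval : ∀ i c, ψ (MvPowerSeries.X (varIdx (.inl ⟨i, c⟩))) =
      evalSeries (u i) (hu i) ((l i).val c)) {s : PS (Fin (nVars e g)) 𝒪}
    (hs : s ∈ compIdeal g l) : ψ s = 0 := by
  let w : Fin (freshN g l) → F :=
    blockTuple u fun j => ψ (MvPowerSeries.X (varIdx (e := e) (.inr j)))
  have hw : ∀ k, w k ∈ maximalIdeal F :=
    blockTuple_mem hu fun j => hψ _
  have hblock : ∀ i, (evalSeries w hw).comp (freshEmb g l i) = evalSeries (u i) (hu i) := fun i =>
    evalSeries_comp hloc _ _ _ (fun a => by rw [evalSeries_X]; exact hw a) _ _ fun k => by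
      simp [w, freshVar]
  have heq : (evalSeries w hw).comp (compMap g l) = ψ := by
    refine (algHom_ext_series hψ fun k => ?_).symm
    obtain ⟨a | a, rfl⟩ := varIdx_cases k
    · rw [AlgHom.comp_apply, compMap, evalSeries_X, compVals]
      obtain ⟨i, c⟩ := a
      rw [blockTuple_inl, ← AlgHom.comp_apply, hblock, hval]
    · rw [AlgHom.comp_apply, compMap, evalSeries_X, compVals, blockTuple_inr]
      simp [w]
  rw [← heq, AlgHom.comp_apply, (RingHom.mem_ker).mp hs, map_zero]

/-- Every coordinate of the block is integral over `(l.f)` parameters modulo the relations. -/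
def LocalMap.HasParams {e : ℕ} (l : LocalMap 𝒪 e) : Prop :=
  ∃ par : Fin l.f → PS (Fin e) 𝒪, (∀ k, par k ∈ maximalIdeal _) ∧
    ∀ c, MvPowerSeries.X c ∈ (Ideal.map (algebraMap 𝒪 _) (maximalIdeal 𝒪) ⊔
      Ideal.span (Set.range par) ⊔ RingHom.ker l.hom).radical

/-- A surjective substitution has parameters. -/
lemma LocalMap.hasParams_of_section {e : ℕ} (l : LocalMap 𝒪 e) (pick : Fin l.f → Fin e)
    (h : ∀ k, l.val (pick k) = MvPowerSeries.X k) : l.HasParams := by
  refine ⟨fun k => MvPowerSeries.X (pick k), fun k => X_mem_maximalIdeal_series _, fun c => ?_⟩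
  let sec : PS (Fin l.f) 𝒪 →ₐ[𝒪] PS (Fin e) 𝒪 :=
    evalSeries (fun k => MvPowerSeries.X (pick k)) fun _ => X_mem_maximalIdeal_series _
  have hsec : ∀ s, l.hom (sec s) = s := fun s => AlgHom.congr_fun
    (show l.hom.comp sec = AlgHom.id 𝒪 _ from algHom_ext_series
      (fun k => by
        simpa [sec, LocalMap.hom, h] using X_mem_maximalIdeal_series (𝒪 := 𝒪) k)
      fun k => by simp [sec, LocalMap.hom, h]) s
  refine Ideal.le_radical ?_
  have hmem : sec (l.val c) ∈ Ideal.map (algebraMap 𝒪 _) (maximalIdeal 𝒪) ⊔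
      Ideal.span (Set.range fun k => MvPowerSeries.X (pick k)) := by
    obtain ⟨ϖ, hϖ⟩ := IsDiscreteValuationRing.exists_irreducible 𝒪
    have h1 := Ideal.mem_map_of_mem sec (maximalIdeal_series_le hϖ.maximalIdeal_eq (l.val_mem c))
    rw [Ideal.map_span] at h1
    refine Ideal.span_le.mpr ?_ h1
    rintro _ ⟨x, rfl | ⟨k, rfl⟩, rfl⟩
    · rw [MvPowerSeries.c_eq_algebraMap, AlgHom.commutes]
      exact Ideal.mem_sup_left (Ideal.mem_map_of_mem _
        ((mem_maximalIdeal ϖ).mpr hϖ.not_isUnit))
    · simp only [sec, evalSeries_X]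
      exact Ideal.mem_sup_right (Ideal.subset_span ⟨k, rfl⟩)
  have hker : MvPowerSeries.X c - sec (l.val c) ∈ RingHom.ker l.hom := by
    rw [RingHom.mem_ker, map_sub, hsec]
    simp [LocalMap.hom]
  simpa using add_mem (Ideal.mem_sup_left (T := RingHom.ker l.hom) hmem) (Ideal.mem_sup_right hker)

/-- **The dimension of a component.** -/
theorem ringKrullDim_quotient_compIdeal_le (hl : ∀ i, (l i).HasParams) :
    ringKrullDim (PS (Fin (nVars e g)) 𝒪 ⧸ compIdeal g l) ≤
      (((∑ i, (l i).f) + g + 1 : ℕ) : WithBot ℕ∞) := by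
  classical
  choose par hpar hrad using hl
  obtain ⟨ϖ, hϖ⟩ := IsDiscreteValuationRing.exists_irreducible 𝒪
  set A := PS (Fin (nVars e g)) 𝒪 ⧸ compIdeal g l
  set π : PS (Fin (nVars e g)) 𝒪 →+* A := Ideal.Quotient.mk (compIdeal g l)
  have hsurj : Function.Surjective π := Ideal.Quotient.mk_surjective
  have : IsLocalRing A := .of_surjective' π hsurj
  have : IsLocalHom π := IsLocalHom.of_surjective _ hsurj
  let gens : (Fin 1 ⊕ (Σ i, Fin (l i).f)) ⊕ Fin g → PS (Fin (nVars e g)) 𝒪 :=
    Sum.elim (Sum.elim (fun _ => MvPowerSeries.C ϖ) fun a => blockEmb g a.1 (par a.1 a.2))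
      fun j => MvPowerSeries.X (varIdx (e := e) (.inr j))
  set I : Ideal A := Ideal.span (Set.range (π ∘ gens))
  have hC : π (MvPowerSeries.C ϖ) ∈ I := Ideal.subset_span ⟨.inl (.inl 0), rfl⟩
  have hX : ∀ k, π (MvPowerSeries.X k) ∈ I.radical := fun k => by
    obtain ⟨⟨i, c⟩ | j, rfl⟩ := varIdx_cases k
    · obtain ⟨n, hn⟩ := hrad i c
      refine ⟨n, ?_⟩
      have h1 := Ideal.mem_map_of_mem (π.comp (blockEmb g i).toRingHom) hn
      rw [Ideal.map_sup, Ideal.map_sup] at h1
      rw [show π (MvPowerSeries.X (varIdx (.inl ⟨i, c⟩))) ^ n =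
        (π.comp (blockEmb g i).toRingHom) (MvPowerSeries.X c ^ n) by simp [blockEmb]]
      refine (sup_le (sup_le ?_ ?_) ?_ : _ ≤ I) h1
      · rw [Ideal.map_map, Ideal.map_le_iff_le_comap, hϖ.maximalIdeal_eq, Ideal.span_le,
          Set.singleton_subset_iff]
        simpa [MvPowerSeries.c_eq_algebraMap] using hC
      · rw [Ideal.map_span, Ideal.span_le]
        rintro _ ⟨_, ⟨k, rfl⟩, rfl⟩
        exact Ideal.subset_span ⟨.inl (.inr ⟨i, k⟩), rfl⟩
      · rw [Ideal.map_le_iff_le_comap]
        intro s hs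
        show π (blockEmb g i s) ∈ I
        rw [Ideal.Quotient.eq_zero_iff_mem.mpr (blockEmb_mem_compIdeal g l (RingHom.mem_ker.mp hs))]
        exact zero_mem I
    · exact Ideal.le_radical (Ideal.subset_span ⟨.inr j, rfl⟩)
  have hmaxle : maximalIdeal A ≤ I.radical := by
    rw [← map_maximalIdeal_of_surjective π hsurj]
    refine (Ideal.map_mono (maximalIdeal_series_le hϖ.maximalIdeal_eq)).trans ?_
    rw [Ideal.map_span, Ideal.span_le]
    rintro _ ⟨x, rfl | ⟨k, rfl⟩, rfl⟩
    · exact Ideal.le_radical hC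
    · exact hX k
  have hsub : I ≤ maximalIdeal A := by
    rw [← map_maximalIdeal_of_surjective π hsurj, Ideal.span_le]
    rintro _ ⟨a, rfl⟩
    refine Ideal.mem_map_of_mem π ?_
    rcases a with (a | ⟨i, k⟩) | j
    · simp [gens, MvPowerSeries.isUnit_iff_constantCoeff, hϖ.not_isUnit]
    · exact map_mem_maximalIdeal_series algebraMap_series_mem _
        (fun c => by rw [blockEmb, evalSeries_X]; exact X_mem_maximalIdeal_series _) (hpar i k)
    · exact X_mem_maximalIdeal_series _
  have hmin : maximalIdeal A ∈ I.minimalPrimes :=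
    ⟨⟨inferInstance, hsub⟩, fun P hP _ => hmaxle.trans (hP.1.radical_le_iff.mpr hP.2)⟩
  have hle : (maximalIdeal A).height ≤ ((Finset.univ.image (π ∘ gens)).card : ℕ∞) :=
    Ideal.height_le_card_of_mem_minimalPrimes_span_finset
      (by rw [Finset.coe_image, Finset.coe_univ, Set.image_univ]; exact hmin)
  have hcard : (Finset.univ.image (π ∘ gens)).card ≤ (∑ i, (l i).f) + g + 1 :=
    Finset.card_image_le.trans (le_of_eq (by simp; omega))
  rw [← IsLocalRing.maximalIdeal_height_eq_ringKrullDim]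
  exact (WithBot.coe_le_coe (α := ℕ∞)).mpr (hle.trans (Nat.cast_le.mpr hcard))

end Product

end Fermat.Agent.Raising
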