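import Fermat.Agent.Raising.Lifting.Setup

/-!
# The raised primes of a curve

A bad prime `q ≠ p` where the torsion is unramified is a raised prime, the sign being the one of
the trace of Frobenius `± (q + 1)` on the Tate module.
-/

noncomputable section

namespace Fermat.Agent.Raising.Lifting

open IsLocalRing Module Matrix WeierstrassCurve
open Fermat.Agent.LevelLowering Fermat.Agent.LevelLowering.Semistable Fermat.Agent.Gal
  Fermat.Agent.TW

local notation "Qbar" => AlgebraicClosure ℚ
local notation "GQ" => (AlgebraicClosure ℚ ≃ₐ[ℚ] AlgebraicClosure ℚ)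

variable {p : ℕ} [hp : Fact p.Prime] (C : Coeff.CoeffRing p) {W : WeierstrassCurve ℤ}
  [(W.map (Int.castRingHom ℚ)).IsElliptic]

/-- The residual trace is the reduction of the trace on the Tate module. -/
theorem trace_rbar_coeffBasis (F : Tate.TateFrame (W.map (Int.castRingHom ℚ)) p) (g : GQ) :
    (rbar (coeffBasis C (W.map (Int.castRingHom ℚ))) g).trace =
      residue C.O ((Coeff.tateRep C F).trace g) := by
  obtain ⟨e⟩ := Coeff.tateRep_residual C F
  have hc : e.toLinearEquiv.conj ((Coeff.tateRep C F).residual.ρ g) =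
      (Coeff.curveRbar C (W.map (Int.castRingHom ℚ))).ρ g := LinearMap.ext fun w => by
    rw [LinearEquiv.conj_apply_apply, e.map_apply, LinearEquiv.apply_symm_apply]
  refine (trace_matrixRep (coeffBasis C (W.map (Int.castRingHom ℚ)))
    (Coeff.curveRbar C (W.map (Int.castRingHom ℚ))).ρ g).trans ?_
  rw [← hc, LinearMap.trace_conj']
  exact LinearMap.trace_baseChange ((Coeff.tateRep C F).ρ g) (ResidueField C.O)

/-- **Raised primes of a curve.** -/
theorem exists_curvePrime (hΔ : W.Δ ≠ 0) (hss : W.IsSemistableModel)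
    (hirr : W.ModRepIsIrreducible p) (F : Tate.TateFrame (W.map (Int.castRingHom ℚ)) p) (q : ℕ)
    (hq : q.Prime) (hqp : q ≠ p) (hbad : (q : ℤ) ∣ W.Δ) (hunr : TorsionUnramifiedAt W p q) :
    HasCurvePrime (W := W) C F q := by
  classical
  obtain ⟨A, hA⟩ := Gal.exists_liesOverPrime hq
  obtain ⟨φ, hφ⟩ := Gal.exists_isFrobeniusAt hq hA
  obtain ⟨σ, hσ⟩ := MazurPrinciple.exists_isTameGenerator hq hp.out hqp.symm hA
  have htr : ∃ ε : C.O, ε * ε = 1 ∧
      (Coeff.tateRep C F).trace φ = ε * ((q : C.O) + 1) := by
    rcases F.trace_frobenius_of_multiplicative (tateFrame_detIsCyclotomic F hΔ hirr) hq hqp hΔ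
      hbad (hss q hq hbad) hA hφ with h | h
    · refine ⟨1, one_mul 1, ?_⟩
      rw [one_mul, Coeff.trace_tateRep, h, map_add, map_natCast, map_one]
    · refine ⟨-1, by rw [neg_mul_neg, one_mul], ?_⟩
      rw [neg_one_mul, Coeff.trace_tateRep, h, map_neg, map_add, map_natCast, map_one]
  obtain ⟨ε, hε, hεt⟩ := htr
  refine ⟨{ q := q
            prime := hq
            ne_p := hqp
            A := A
            φ := φ
            σ := σ
            lies := hA
            frob := hφ
            tame := hσ
            inertia := fun τ hτ => ?_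
            ε := ε
            sign := hε
            trace_frob := by rw [trace_rbar_coeffBasis C F, hεt]
            det_frob := ?_ }, rfl, hεt⟩
  · show LinearMap.toMatrixAlgEquiv (coeffBasis C _)
      ((Coeff.curveRbar C (W.map (Int.castRingHom ℚ))).ρ τ) = 1
    rw [(curveRbar_unramified_iff C q).2 hunr A hA τ hτ, map_one]
  · rw [map_natCast]
    exact detCyc_coeffBasis C φ q fun μ hμ =>
      Gal.isFrobeniusAt_rootOfUnity hq hA hφ
        (fun h => hqp ((Nat.prime_dvd_prime_iff_eq hq hp.out).mp h)) hμ

end Fermat.Agent.Raising.Lifting
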