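import Fermat.Agent.EC.GoodReduction
import Fermat.Agent.Glue.Squarefree
import Fermat.Agent.LevelLowering.Semistable.Minimal
import Fermat.Agent.Raising.Conclude

/-!
# Lifting from squarefree levels: the setup of the raising cases

A squarefree residual level shrinks to a minimal one `M`; an auxiliary prime `t` is added; the bad
primes missing from `M` are raised, `p` last; an eigenclass at the top level with the traces of the
curve gives modularity at the conductor.  The three raising cases (good at `p`; `p` raised last;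
`p` in the minimal level) are hypotheses here.
-/

noncomputable section

namespace Fermat.Agent.Raising.Lifting

open Fermat.Agent.Ihara Fermat.Agent.LevelLowering.Semistable WeierstrassCurve

variable (p : ℕ) (W : WeierstrassCurve ℤ)

/-- The bad primes `q ≠ p` missing from the level `M`. -/
def raiseSet (M : ℕ) : Finset ℕ := W.Δ.natAbs.primeFactors.erase p \ M.primeFactors

/-- A minimal level with an auxiliary prime: the residual representation is ramified at every
prime `r ≠ p` of the level and unramified at every other prime `≠ p`. -/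
structure RaiseSetup [Fact p.Prime] (M t : ℕ) : Prop where
  minLevel : MinLevel p W M
  aux : AuxPrimeFor p W M t
  ramified : ∀ r : ℕ, r.Prime → r ∣ M → r ≠ p → ¬ TorsionUnramifiedAt W p r
  unramified : ∀ r : ℕ, r.Prime → ¬ r ∣ M → r ≠ p → TorsionUnramifiedAt W p r

/-- An eigenclass of level `N` with the traces of the curve outside a finite set. -/
def HasTopClass (N : ℕ) [NeZero N] : Prop :=
  ∃ (K : Type) (_ : Field K) (_ : CharZero K) (S : Finset ℕ) (y : clH K N), y ≠ 0 ∧
    ∀ (ℓ : ℕ) [NeZero ℓ], ℓ.Prime → ℓ ∉ S → clT K N ℓ y = (W.apOfModel ℓ : K) • y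

/-- Raising when the curve has good reduction at `p`. -/
def RaiseGood [Fact p.Prime] : Prop :=
  ∀ (M t N : ℕ) [NeZero N], RaiseSetup p W M t → ¬ (p : ℤ) ∣ W.Δ → ¬ p ∣ M →
    N = M * t * ∏ q ∈ raiseSet p W M, q → HasTopClass W N

/-- Raising when `p` is in the minimal level: the residual representation is très ramifié. -/
def RaiseStrict [Fact p.Prime] : Prop :=
  ∀ (M t N : ℕ) [NeZero N], RaiseSetup p W M t → (p : ℤ) ∣ W.Δ → p ∣ M →
    ¬ (W.map (Int.castRingHom ℚ)).IsPeuRamifieeAt p p →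
    N = M * t * ∏ q ∈ raiseSet p W M, q → HasTopClass W N

/-- Raising with `p` as the last step. -/
def RaiseLast [Fact p.Prime] : Prop :=
  ∀ (M t N : ℕ) [NeZero N], RaiseSetup p W M t → (p : ℤ) ∣ W.Δ → ¬ p ∣ M →
    N = M * t * (∏ q ∈ raiseSet p W M, q) * p → HasTopClass W N

/-- Outside the level and `p` the torsion of a residually modular curve is unramified. -/
def UnramifiedOutsideLevel : Prop :=
  ∀ M r : ℕ, Squarefree M → W.IsResiduallyModularOfLevel p M → r.Prime → ¬ r ∣ M → r ≠ p →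
    TorsionUnramifiedAt W p r

variable {p W} [hp : Fact p.Prime]

omit hp in
/-- The primes to raise: bad primes of the curve other than `p`, outside the level. -/
theorem mem_raiseSet {M q : ℕ} (hΔ : W.Δ ≠ 0) (hM : M ≠ 0) :
    q ∈ raiseSet p W M ↔ q.Prime ∧ (q : ℤ) ∣ W.Δ ∧ q ≠ p ∧ ¬ q ∣ M := by
  rw [raiseSet, Finset.mem_sdiff, Finset.mem_erase, Nat.mem_primeFactors, Nat.mem_primeFactors,
    ← Int.natCast_dvd]
  constructor
  · rintro ⟨⟨h1, h2, h3, -⟩, h4⟩
    exact ⟨h2, h3, h1, fun h => h4 ⟨h2, h, hM⟩⟩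
  · rintro ⟨h1, h2, h3, h4⟩
    exact ⟨⟨h3, h1, h2, Int.natAbs_ne_zero.2 hΔ⟩, fun h => h4 h.2.1⟩

/-- A product of primes is squarefree. -/
theorem squarefree_prod_primes {s : Finset ℕ} (hs : ∀ q ∈ s, q.Prime) :
    Squarefree (∏ q ∈ s, q) :=
  Finset.squarefree_prod_of_pairwise_isCoprime
    (fun a ha b hb hab => Nat.coprime_iff_isRelPrime.1
      ((Nat.coprime_primes (hs a ha) (hs b hb)).2 hab))
    fun q hq => (hs q hq).prime.squarefree

/-- A prime divides a product of distinct primes iff it is one of them. -/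
theorem dvd_prod_primes_iff {s : Finset ℕ} (hs : ∀ q ∈ s, q.Prime) {r : ℕ} (hr : r.Prime) :
    r ∣ ∏ q ∈ s, q ↔ r ∈ s := by
  refine ⟨fun h => ?_, Finset.dvd_prod_of_mem id⟩
  obtain ⟨q, hq, hrq⟩ := (Prime.dvd_finsetProd_iff hr.prime _).1 h
  rwa [(Nat.prime_dvd_prime_iff_eq hr (hs q hq)).1 hrq]

/-- A good prime is a prime where the torsion is unramified. -/
theorem torsionUnramifiedAt_of_good {r : ℕ} (hr : r.Prime) (hrp : r ≠ p)
    (hgood : W.IsGoodPrimeFor r) : TorsionUnramifiedAt W p r := fun A hA τ hτ x =>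
  EC.galoisRepUnramifiedAt_of_good W p r hr
    (fun h => hrp ((Nat.prime_dvd_prime_iff_eq hr hp.out).1 h)) hgood A hA τ hτ x

variable (hp2 : p ≠ 2) (hΔ : W.Δ ≠ 0) (hss : W.IsSemistableModel)
  (hirr : W.ModRepIsIrreducible p)

include hp2 hΔ hss hirr

/-- A minimal level with an auxiliary prime. -/
theorem exists_raiseSetup (hNo : NoScalarMinimal p W) (hunr : UnramifiedOutsideLevel p W) {M₀ : ℕ}
    (hM₀ : Squarefree M₀) (hres : W.IsResiduallyModularOfLevel p M₀) :
    ∃ M t, RaiseSetup p W M t := by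
  obtain ⟨M, -, hM⟩ := exists_minLevel hM₀ hres
  obtain ⟨t, -, ht⟩ := exists_auxPrimeFor hp2 hΔ hss hirr hM.ne_zero ∅
  exact ⟨M, t, hM, ht, fun r hr hrM hrp h => hNo M t r hM ht hr hrM hrp h,
    fun r hr hrM hrp => hunr M r hM.sqf hM.modular hr hrM hrp⟩

omit hp2 hss hirr in
/-- The bad primes of the level and the raised primes are all the bad primes. -/
theorem RaiseSetup.dvd_of_bad {M t : ℕ} (h : RaiseSetup p W M t) {ℓ : ℕ} (hℓ : ℓ.Prime)
    (hℓp : ℓ ≠ p) (hbad : (ℓ : ℤ) ∣ W.Δ) : ℓ ∣ M * t * ∏ q ∈ raiseSet p W M, q := by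
  by_cases hM : ℓ ∣ M
  · exact (hM.mul_right t).mul_right _
  · exact Dvd.dvd.mul_left
      (Finset.dvd_prod_of_mem id ((mem_raiseSet hΔ h.minLevel.ne_zero).2 ⟨hℓ, hbad, hℓp, hM⟩)) _

omit hp2 hss hirr in
/-- The raised level of a setup is squarefree. -/
theorem RaiseSetup.squarefree_level {M t : ℕ} (h : RaiseSetup p W M t) :
    Squarefree (M * t * ∏ q ∈ raiseSet p W M, q) := by
  have hM0 := h.minLevel.ne_zero
  have hpr : ∀ q ∈ raiseSet p W M, q.Prime := fun q hq => ((mem_raiseSet hΔ hM0).1 hq).1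
  have h1 : Squarefree (M * t) :=
    (Nat.squarefree_mul ((Nat.Prime.coprime_iff_not_dvd h.aux.prime).2 h.aux.not_dvd).symm).2
      ⟨h.minLevel.sqf, h.aux.prime.prime.squarefree⟩
  refine (Nat.squarefree_mul (Nat.coprime_of_dvd fun r hr hr1 hr2 => ?_)).2
    ⟨h1, squarefree_prod_primes hpr⟩
  obtain ⟨-, hbad, -, hrM⟩ := (mem_raiseSet hΔ hM0).1 ((dvd_prod_primes_iff hpr hr).1 hr2)
  rcases hr.dvd_mul.1 hr1 with h' | h'
  · exact hrM h'
  · rw [(Nat.prime_dvd_prime_iff_eq hr h.aux.prime).1 h'] at hbad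
    exact h.aux.good hbad

/-- **Modularity lifting from a squarefree level**, from the three raising cases. -/
theorem exactConductor_of_raise (hNo : NoScalarMinimal p W) (hunr : UnramifiedOutsideLevel p W)
    (hgood : RaiseGood p W) (hstrict : RaiseStrict p W) (hlast : RaiseLast p W) {M₀ : ℕ}
    (hM₀ : Squarefree M₀) (hres : W.IsResiduallyModularOfLevel p M₀) :
    Mlc1IsModularModelOfExactConductorLevel W := by
  obtain ⟨M, t, h⟩ := exists_raiseSetup hp2 hΔ hss hirr hNo hunr hM₀ hres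
  set P := ∏ q ∈ raiseSet p W M, q with hP
  have hsq : Squarefree (M * t * P) := RaiseSetup.squarefree_level hΔ h
  have : NeZero (M * t * P) := ⟨hsq.ne_zero⟩
  by_cases hpM : p ∣ M
  · have hnp := h.minLevel.not_peuRamifiee hp2 hΔ hss hirr hpM
    have hbad : (p : ℤ) ∣ W.Δ := by
      by_contra hg
      exact hnp (LoweringAtP.Three.isPeuRamifieeAt_of_good hg)
    obtain ⟨K, _, _, S, y, hy, heig⟩ := hstrict M t (M * t * P) h hbad hpM hnp rfl
    refine Conclude.exactConductor_of_eigenclass hΔ hss hsq (fun ℓ hℓ hℓbad => ?_) S hy heig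
    rcases eq_or_ne ℓ p with rfl | hℓp
    · exact (hpM.mul_right t).mul_right P
    · exact RaiseSetup.dvd_of_bad hΔ h hℓ hℓp hℓbad
  · by_cases hbad : (p : ℤ) ∣ W.Δ
    · have hpN : ¬ p ∣ M * t * P := fun hd => by
        rcases hp.out.dvd_mul.1 hd with h' | h'
        · rcases hp.out.dvd_mul.1 h' with h'' | h''
          · exact hpM h''
          · exact h.aux.ne_p ((Nat.prime_dvd_prime_iff_eq hp.out h.aux.prime).1 h'').symm
        · exact ((mem_raiseSet hΔ h.minLevel.ne_zero).1 ((dvd_prod_primes_iff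
            (fun q hq => ((mem_raiseSet hΔ h.minLevel.ne_zero).1 hq).1) hp.out).1 h')).2.2.1 rfl
      have hsq' : Squarefree (M * t * P * p) :=
        (Nat.squarefree_mul ((Nat.Prime.coprime_iff_not_dvd hp.out).2 hpN).symm).2
          ⟨hsq, hp.out.prime.squarefree⟩
      have : NeZero (M * t * P * p) := ⟨hsq'.ne_zero⟩
      obtain ⟨K, _, _, S, y, hy, heig⟩ := hlast M t (M * t * P * p) h hbad hpM rfl
      refine Conclude.exactConductor_of_eigenclass hΔ hss hsq' (fun ℓ hℓ hℓbad => ?_) S hy heig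
      rcases eq_or_ne ℓ p with rfl | hℓp
      · exact dvd_mul_left ℓ _
      · exact (RaiseSetup.dvd_of_bad hΔ h hℓ hℓp hℓbad).mul_right p
    · obtain ⟨K, _, _, S, y, hy, heig⟩ := hgood M t (M * t * P) h hbad hpM rfl
      exact Conclude.exactConductor_of_eigenclass hΔ hss hsq
        (fun ℓ hℓ hℓbad => RaiseSetup.dvd_of_bad hΔ h hℓ (fun e => hbad (e ▸ hℓbad)) hℓbad)
        S hy heig

omit hp hp2 hΔ hss hirr in
/-- **`LiftingSquarefree`** from its inputs. -/
theorem liftingSquarefree_of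
    (H : ∀ (p : ℕ) [Fact p.Prime] (W : WeierstrassCurve ℤ), p = 3 ∨ p = 5 → W.Δ ≠ 0 →
      W.IsSemistableModel → W.ModRepIsIrreducible p →
      NoScalarMinimal p W ∧ UnramifiedOutsideLevel p W ∧
        RaiseGood p W ∧ RaiseStrict p W ∧ RaiseLast p W) :
    Glue.LiftingSquarefree := fun p hp35 W hΔ hss hirr M₀ _ hM₀ hres => by
  have : Fact p.Prime := ⟨by rcases hp35 with rfl | rfl <;> norm_num⟩
  obtain ⟨h1, h2, h3, h4, h5⟩ := H p W hp35 hΔ hss hirr
  exact exactConductor_of_raise (by omega) hΔ hss hirr h1 h2 h3 h4 h5 hM₀ hres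

end Fermat.Agent.Raising.Lifting
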