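import Fermat.Agent.LoweringAtP.HeckeCompat.Modular
import Fermat.Agent.Raising.Lifting

/-!
# The torsion away from a level

The torsion of a curve residually modular at `M` is unramified outside `M p`.
-/

noncomputable section

namespace Fermat.Agent.Raising.LevelFacts

open IsLocalRing WeierstrassCurve WeierstrassCurve.Affine.Point ModularCurve
open Fermat.Agent.Attach Fermat.Agent.LevelLowering
open scoped WeierstrassCurve.Affine

local notation "Qbar" => AlgebraicClosure ℚ
local notation "GQ" => (AlgebraicClosure ℚ ≃ₐ[ℚ] AlgebraicClosure ℚ)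

variable {p : ℕ} [hp : Fact p.Prime] {W : WeierstrassCurve ℤ}

/-- **Unramified outside the level**: the torsion of a curve residually modular of level `M` is
unramified at every prime not dividing `M p`. -/
theorem torsionUnramifiedAt_of_not_dvd {M : ℕ} [NeZero M] (hp2 : p ≠ 2) (hΔ : W.Δ ≠ 0)
    (hirr : W.ModRepIsIrreducible p) (hmod : W.IsResiduallyModularOfLevel p M) {q : ℕ}
    (hq : q.Prime) (hqM : ¬ q ∣ M) (hqp : q ≠ p) : Semistable.TorsionUnramifiedAt W p q := by
  intro A hA τ hτ x
  obtain ⟨Ins⟩ := nonempty_jacobianInputs M p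
  obtain ⟨ι, hι, hequiv, htor, -⟩ :=
    LoweringAtP.HeckeCompat.exists_galois_map_of_residuallyModular hp2 hΔ Ins hirr hmod
  apply hι
  rw [hequiv]
  exact Ins.galois.unramified q hq
    (fun h => (hq.dvd_mul.1 h).elim hqM fun h' => hqp ((Nat.prime_dvd_prime_iff_eq hq hp.out).1 h'))
    A hA τ hτ (ι x) ⟨1, by rw [pow_one]; exact htor x⟩

variable [(W.map (Int.castRingHom ℚ)).IsElliptic]

omit [(W.map (Int.castRingHom ℚ)).IsElliptic] in
/-- **Unramified outside the level**, as used by the lifting. -/
theorem unramifiedOutsideLevel (hp2 : p ≠ 2) (hΔ : W.Δ ≠ 0) (hirr : W.ModRepIsIrreducible p) :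
    Lifting.UnramifiedOutsideLevel p W := fun M r hM hmod hr hrM hrp => by
  have : NeZero M := ⟨hM.ne_zero⟩
  exact torsionUnramifiedAt_of_not_dvd hp2 hΔ hirr hmod hr hrM hrp

end Fermat.Agent.Raising.LevelFacts
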