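import Mathlib.RingTheory.Ideal.AssociatedPrime.Localization
import Mathlib.RingTheory.Ideal.GoingUp
import Fermat.Agent.Ihara.RaiseBase
import Fermat.Agent.LevelLowering.FreeBase
import Fermat.Agent.LevelLowering.Scalar.LevelM

/-!
# Eigenclasses of points of a finite level

A point with values in `O` of operators acting on a free lattice has an eigenvector in the lattice;
through a basis of classes this gives, when the values at the operators are integers, an eigenclass
with these eigenvalues over every field containing `O`.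
-/

noncomputable section

namespace Fermat.Agent.Raising

open Matrix Fermat.Agent.Ihara Fermat.Agent.LevelLowering

variable {O : Type} [CommRing O] [IsDomain O] [IsNoetherianRing O]

/-- A point of commuting operators on `O^d` has an eigenvector in `O^d`. -/
theorem exists_eigenvector_of_point {d : ℕ} {R : Type} [CommRing R] [Algebra O R]
    (A : R →+* Matrix (Fin d) (Fin d) O)
    (hA : ∀ c, A (algebraMap O R c) = Matrix.scalar (Fin d) c)
    (w : R →ₐ[O] O) (hw : ∀ z, A z = 0 → w z = 0) :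
    ∃ u : Fin d → O, u ≠ 0 ∧ ∀ z, (A z).mulVec u = w z • u := by
  classical
  let A' : R →ₐ[O] Matrix (Fin d) (Fin d) O :=
    { A with
      commutes' := fun c => by
        change A (algebraMap O R c) = _
        rw [hA]
        rfl }
  let C : Type := R ⧸ RingHom.ker A'
  let π : R →ₐ[O] C := Ideal.Quotient.mkₐ O _
  have hπ : Function.Surjective π := Ideal.Quotient.mkₐ_surjective O _
  let emb : C →ₐ[O] Matrix (Fin d) (Fin d) O := Ideal.kerLiftAlg A'
  have hemb : Function.Injective emb := Ideal.kerLiftAlg_injective A'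
  have : Module.Finite O C := Module.Finite.of_injective emb.toLinearMap hemb
  have : IsNoetherianRing C := IsNoetherianRing.of_finite O C
  let wC : C →+* O := Ideal.Quotient.lift (RingHom.ker A') (w : R →+* O) fun z hz => hw z hz
  have hwC : ∀ z, wC (π z) = w z := fun z => rfl
  let : Module C (Fin d → O) := Module.compHom _
    ((Matrix.toLinAlgEquiv' (R := O) (n := Fin d)).toRingEquiv.toRingHom.comp emb.toRingHom)
  have hsmul : ∀ (z : C) (x : Fin d → O), z • x = (emb z).mulVec x := fun _ _ => rfl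
  have : IsScalarTower O C (Fin d → O) := ⟨fun c z x => by
    rw [hsmul, hsmul, map_smul, Matrix.smul_mulVec]⟩
  have : Module.Finite C (Fin d → O) := Module.Finite.of_restrictScalars_finite O C _
  have hann : Module.annihilator C (Fin d → O) = ⊥ := by
    refine eq_bot_iff.2 fun z hz => ?_
    rw [Module.mem_annihilator] at hz
    refine (Ideal.mem_bot).2
      (hemb ((Matrix.ext fun i j => ?_ : emb z = 0).trans (map_zero emb).symm))
    have h := congrFun ((hsmul z (Pi.single j 1)).symm.trans (hz _)) i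
    simpa [Matrix.mulVec_single_one] using h
  have hprime : (RingHom.ker wC).IsPrime := RingHom.ker_isPrime wC
  have hOC : ∀ c : O, wC (algebraMap O C c) = c := fun c => by
    rw [← AlgHom.commutes π c, hwC, AlgHom.commutes]
    rfl
  have hmin : RingHom.ker wC ∈ (Module.annihilator C (Fin d → O)).minimalPrimes := by
    refine ⟨⟨hprime, by rw [hann]; exact bot_le⟩, fun Q ⟨hQ, _⟩ hQle => ?_⟩
    by_contra hne
    have hlt : Q < RingHom.ker wC := lt_of_le_not_ge hQle hne
    have : Algebra.IsIntegral O C := Algebra.IsIntegral.of_finite O C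
    have h0 : ∀ c : O, algebraMap O C c ∈ RingHom.ker wC → c = 0 := fun c hc => by
      rwa [RingHom.mem_ker, hOC] at hc
    obtain ⟨z, hz, hzQ⟩ := SetLike.exists_of_lt hlt
    obtain ⟨c, hc, hc'⟩ := SetLike.exists_of_lt (Ideal.comap_lt_comap_of_integral_mem_sdiff (R := O)
      hQle ⟨hz, hzQ⟩ (Algebra.IsIntegral.isIntegral z))
    exact hc' (by rw [h0 c hc]; exact zero_mem _)
  obtain ⟨-, v, hv⟩ :=
    (isAssociatedPrime_iff_exists_injective_linearMap _ _).1
      (Module.associatedPrimes.minimalPrimes_annihilator_subset_associatedPrimes C (Fin d → O) hmin)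
  have hkill : ∀ z ∈ RingHom.ker wC, z • v 1 = 0 := fun z hz => by
    rw [← map_smul, show z • (1 : C ⧸ RingHom.ker wC) = 0 from ?_, map_zero]
    rw [Algebra.smul_def, mul_one]
    exact Ideal.Quotient.eq_zero_iff_mem.2 hz
  refine ⟨v 1, fun h => ?_, fun z => ?_⟩
  · exact hprime.ne_top ((Ideal.eq_top_iff_one _).2
      (Ideal.Quotient.eq_zero_iff_mem.1 (hv (h.trans (map_zero v).symm))))
  · have h := hkill (π z - algebraMap O C (w z)) (by
      rw [RingHom.mem_ker, map_sub, hwC, hOC, sub_self])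
    rw [sub_smul, algebraMap_smul, sub_eq_zero] at h
    exact h

variable {K : Type} [Field K] [Algebra O K]

/-- **A point of the top level gives an eigenclass.** -/
theorem exists_eigenclass_of_point (hOK : Function.Injective (algebraMap O K)) {N : ℕ} [NeZero N]
    (𝓟 : Set Nat.Primes) {d : ℕ} (v : Fin d → clH O N)
    (hv : ∀ b : Fin d → O, ∑ i, b i • v i = 0 → b = 0)
    (Tm : ℕ → Matrix (Fin d) (Fin d) O)
    (hTm : ∀ (ℓ : 𝓟) j, baseGen O N 𝓟 ℓ (v j) = ∑ i, Tm (ℓ.1 : ℕ) i j • v i)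
    {R : Type} [CommRing R] [Algebra O R] (A : R →+* Matrix (Fin d) (Fin d) O)
    (hA : ∀ c, A (algebraMap O R c) = Matrix.scalar (Fin d) c)
    (S : Finset ℕ) (x : ℕ → R)
    (hx : ∀ ℓ : 𝓟, (ℓ.1 : ℕ) ∉ S → A (x ℓ.1) = Tm (ℓ.1 : ℕ))
    (w : R →ₐ[O] O) (hw : ∀ z, A z = 0 → w z = 0) (a : ℕ → ℤ)
    (ha : ∀ ℓ : 𝓟, (ℓ.1 : ℕ) ∉ S → w (x ℓ.1) = (a ℓ.1 : O)) :
    ∃ y : clH K N, y ≠ 0 ∧ ∀ (ℓ : ℕ) [NeZero ℓ] (hℓ : ℓ.Prime), (⟨ℓ, hℓ⟩ : Nat.Primes) ∈ 𝓟 →
      ℓ ∉ S → clT K N ℓ y = (a ℓ : K) • y := by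
  obtain ⟨u, hu0, hu⟩ := exists_eigenvector_of_point A hA w hw
  refine ⟨clMap (algebraMap O K) (∑ i, u i • v i), fun h => hu0 (hv u
    (clMap_injective _ hOK (h.trans (map_zero _).symm))), fun ℓ _ hℓ hℓP hℓS => ?_⟩
  have key : clT O N ℓ (∑ i, u i • v i) = (a ℓ : O) • ∑ i, u i • v i := by
    have hgen : clT O N ℓ (∑ i, u i • v i) = baseGen O N 𝓟 ⟨⟨ℓ, hℓ⟩, hℓP⟩ (∑ i, u i • v i) :=
      Subtype.ext (coe_baseOp O ℓ _).symm
    rw [hgen, map_sum, Finset.smul_sum]
    simp only [map_smul, hTm, Finset.smul_sum, smul_smul]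
    rw [Finset.sum_comm]
    refine Finset.sum_congr rfl fun i _ => ?_
    rw [← Finset.sum_smul]
    congr 1
    have h1 := congrFun (hu (x ℓ)) i
    rw [hx ⟨⟨ℓ, hℓ⟩, hℓP⟩ hℓS, ha ⟨⟨ℓ, hℓ⟩, hℓP⟩ hℓS, Pi.smul_apply, smul_eq_mul] at h1
    rw [← h1, Matrix.mulVec, dotProduct]
    exact Finset.sum_congr rfl fun j _ => mul_comm _ _
  rw [clT_clMap, key, clMap_smul, map_intCast]

end Fermat.Agent.Raising

end
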