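import Fermat.Agent.Raising.Reach

/-!
# Six coordinates at a scalar prime

The coordinates `(A, B, C, α, β, γ)` stand for a Frobenius matrix that is a scalar plus
`[[A + h, B], [C, -(A + h)]]` and a tame inertia matrix `1 + [[α, β], [γ, -α]]`.  The two components
are the unramified one, `α = β = γ = 0`, and the chart of the Steinberg one: tuples with trivial
monodromy reach the first, tuples with a common line of Frobenius and monodromy the second.
-/

noncomputable section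

namespace Fermat.Agent.Raising

open IsLocalRing Fermat.Agent.LevelLowering

local notation "PS" => MvPowerSeries

variable (𝒪 : Type) [CommRing 𝒪] [IsDomain 𝒪] [IsDiscreteValuationRing 𝒪]
  [IsAdicComplete (maximalIdeal 𝒪) 𝒪] (h : 𝒪) (hh : h ∈ maximalIdeal 𝒪)

/-- Unramified: trivial monodromy. -/
def scalarUr : LocalMap 𝒪 6 where
  f := 3
  val := ![MvPowerSeries.X 0, MvPowerSeries.X 1, MvPowerSeries.X 2, 0, 0, 0]
  val_mem c := by fin_cases c <;> simp [MvPowerSeries.isUnit_iff_constantCoeff]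

/-- The chart of the Steinberg component. -/
def scalarSt : LocalMap 𝒪 6 where
  f := 3
  val := chart (algebraMap 𝒪 _ h) (MvPowerSeries.X 0) (MvPowerSeries.X 1) (MvPowerSeries.X 2)
  val_mem := chart_mem (algebraMap_series_mem h hh) (X_mem_maximalIdeal_series _)
    (X_mem_maximalIdeal_series _)

/-- The common point. -/
def scalarPt : LocalMap 𝒪 6 where
  f := 0
  val := fun _ => 0
  val_mem _ := zero_mem _

/-- The scalar Steinberg block has parameters. -/
lemma scalarSt_hasParams : (scalarSt 𝒪 h hh).HasParams := by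
  refine ⟨(![MvPowerSeries.X 1, MvPowerSeries.X 5, MvPowerSeries.X 2 + MvPowerSeries.X 4] :
    Fin 3 → PS (Fin 6) 𝒪),
    fun k => ?_, ?_⟩
  · fin_cases k
    · exact X_mem_maximalIdeal_series _
    · exact X_mem_maximalIdeal_series _
    · exact add_mem (X_mem_maximalIdeal_series _) (X_mem_maximalIdeal_series _)
  set l := scalarSt 𝒪 h hh
  set I := Ideal.map (algebraMap 𝒪 (PS (Fin 6) 𝒪)) (maximalIdeal 𝒪) ⊔
    Ideal.span (Set.range (![MvPowerSeries.X 1, MvPowerSeries.X 5,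
      MvPowerSeries.X 2 + MvPowerSeries.X 4] : Fin 3 → PS (Fin 6) 𝒪)) ⊔ RingHom.ker l.hom
  have hh' : algebraMap 𝒪 (PS (Fin 6) 𝒪) h ∈ I :=
    Ideal.mem_sup_left (Ideal.mem_sup_left (Ideal.mem_map_of_mem _ hh))
  have hB : (MvPowerSeries.X 1 : PS (Fin 6) 𝒪) ∈ I :=
    Ideal.mem_sup_left (Ideal.mem_sup_right (Ideal.subset_span ⟨0, rfl⟩))
  have hγ : (MvPowerSeries.X 5 : PS (Fin 6) 𝒪) ∈ I :=
    Ideal.mem_sup_left (Ideal.mem_sup_right (Ideal.subset_span ⟨1, rfl⟩))
  have hCβ : (MvPowerSeries.X 2 + MvPowerSeries.X 4 : PS (Fin 6) 𝒪) ∈ I :=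
    Ideal.mem_sup_left (Ideal.mem_sup_right (Ideal.subset_span ⟨2, rfl⟩))
  let φ : PS (Fin 6) 𝒪 →ₐ[𝒪] PS (Fin 3) 𝒪 := l.hom
  have hker : ∀ x, φ x = 0 → x ∈ I := fun x hx => Ideal.mem_sup_right hx
  have hX : ∀ c, φ (MvPowerSeries.X c) =
      chart (algebraMap 𝒪 (PS (Fin 3) 𝒪) h) (MvPowerSeries.X 0) (MvPowerSeries.X 1)
        (MvPowerSeries.X 2) c :=
    fun c => LocalMap.hom_X l c
  have hA : (MvPowerSeries.X 0 : PS (Fin 6) 𝒪) ∈ I.radical := by
    refine ⟨2, ?_⟩
    have h0 : (MvPowerSeries.X 0 : PS (Fin 6) 𝒪) ^ 2 +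
        2 * algebraMap 𝒪 _ h * MvPowerSeries.X 0 + MvPowerSeries.X 1 * MvPowerSeries.X 2 ∈ I := by
      refine hker _ ?_
      simp only [map_add, map_mul, map_pow, map_ofNat, AlgHom.commutes, hX]
      simp [chart]
      ring
    have h1 := sub_mem (sub_mem h0 (Ideal.mul_mem_right (MvPowerSeries.X 0) _
      (Ideal.mul_mem_left _ 2 hh'))) (Ideal.mul_mem_right (MvPowerSeries.X 2) _ hB)
    convert h1 using 1
    ring
  have hα : (MvPowerSeries.X 3 : PS (Fin 6) 𝒪) ∈ I.radical := by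
    refine ⟨2, ?_⟩
    have h0 : (MvPowerSeries.X 3 : PS (Fin 6) 𝒪) ^ 2 + MvPowerSeries.X 4 * MvPowerSeries.X 5 ∈ I :=
        by
      refine hker _ ?_
      simp only [map_add, map_mul, map_pow, hX]
      simp [chart]
      ring
    have h1 := sub_mem h0 (Ideal.mul_mem_left _ (MvPowerSeries.X 4) hγ)
    convert h1 using 1
    ring
  have hβ : (MvPowerSeries.X 4 : PS (Fin 6) 𝒪) ∈ I.radical := by
    refine ⟨2, ?_⟩
    have h0 : (MvPowerSeries.X 4 : PS (Fin 6) 𝒪) ^ 2 -
        (MvPowerSeries.X 2 + MvPowerSeries.X 4) * MvPowerSeries.X 4 -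
        2 * algebraMap 𝒪 _ h * MvPowerSeries.X 3 + MvPowerSeries.X 5 * MvPowerSeries.X 1 ∈ I := by
      refine hker _ ?_
      simp only [map_add, map_sub, map_mul, map_pow, map_ofNat, AlgHom.commutes, hX]
      simp [chart]
      ring
    have h1 := sub_mem (add_mem (add_mem h0 (Ideal.mul_mem_right (MvPowerSeries.X 4) _ hCβ))
      (Ideal.mul_mem_right (MvPowerSeries.X 3) _ (Ideal.mul_mem_left _ 2 hh')))
      (Ideal.mul_mem_right (MvPowerSeries.X 1) _ hγ)
    convert h1 using 1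
    ring
  intro c
  fin_cases c
  · exact hA
  · exact Ideal.le_radical hB
  · show MvPowerSeries.X 2 ∈ I.radical
    simpa using sub_mem (Ideal.le_radical hCβ) hβ
  · exact hα
  · exact hβ
  · exact Ideal.le_radical hγ

/-- The block at a scalar prime. -/
def scalarBlock : Block 𝒪 6 where
  K := 2
  comp := ![scalarUr 𝒪, scalarSt 𝒪 h hh]
  w := 3
  f_le k := by fin_cases k <;> exact le_rfl
  hasParams k := by
    fin_cases k
    · refine LocalMap.hasParams_of_section (scalarUr 𝒪) ![0, 1, 2] fun (k : Fin 3) => ?_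
      fin_cases k <;> rfl
    · exact scalarSt_hasParams 𝒪 h hh
  ur := 0
  st := 1
  st_ne_ur := by decide
  pt := scalarPt 𝒪
  ur_le_pt := ⟨fun _ => 0, fun _ => zero_mem _, fun c => by
    fin_cases c
    · exact evalSeries_X (𝒪 := 𝒪) (n := 3) (fun _ => 0) _ 0
    · exact evalSeries_X (𝒪 := 𝒪) (n := 3) (fun _ => 0) _ 1
    · exact evalSeries_X (𝒪 := 𝒪) (n := 3) (fun _ => 0) _ 2
    · exact map_zero _
    · exact map_zero _
    · exact map_zero _⟩
  sep k hk := by
    fin_cases k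
    · exact ⟨MvPowerSeries.X 4, (LocalMap.hom_X (scalarUr 𝒪) 4).trans rfl, fun h0 =>
        X_series_ne_zero (2 : Fin 3) ((LocalMap.hom_X (scalarSt 𝒪 h hh) 4).symm.trans h0)⟩
    · exact absurd rfl hk
  sep_pt k hk hk' := by
    fin_cases k
    · exact absurd rfl hk'
    · exact absurd rfl hk

variable {𝒪 h hh}

variable {F : Type} [CommRing F] [IsLocalRing F] [Algebra 𝒪 F]
  [IsAdicComplete (maximalIdeal F) F]

/-- Trivial monodromy: on the unramified component. -/
lemma scalarUr_reaches {p : Fin 6 → F} (hp : ∀ c, p c ∈ maximalIdeal F) (h3 : p 3 = 0)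
    (h4 : p 4 = 0) (h5 : p 5 = 0) : (scalarUr 𝒪).Reaches p := by
  have hu : ∀ k : Fin 3, (![p 0, p 1, p 2] : Fin 3 → F) k ∈ maximalIdeal F := fun k => by
    fin_cases k <;> exact hp _
  have hX : ∀ k : Fin 3, evalSeries (𝒪 := 𝒪) (![p 0, p 1, p 2] : Fin 3 → F) hu (MvPowerSeries.X k)
      = (![p 0, p 1, p 2] : Fin 3 → F) k := evalSeries_X _ hu
  refine LocalMap.Passes.reaches ⟨(![p 0, p 1, p 2] : Fin 3 → F), hu, fun c => ?_⟩
    (![MvPolynomial.X 0, MvPolynomial.X 1, MvPolynomial.X 2, 0, 0, 0] :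
      Fin 6 → MvPolynomial (Fin 3) 𝒪) (fun c => ?_) hp
  · fin_cases c
    · exact (hX 0).symm
    · exact (hX 1).symm
    · exact (hX 2).symm
    · exact h3.trans (map_zero _).symm
    · exact h4.trans (map_zero _).symm
    · exact h5.trans (map_zero _).symm
  · fin_cases c <;> simp [scalarUr]

omit [IsDomain 𝒪] [IsDiscreteValuationRing 𝒪] [IsAdicComplete (maximalIdeal 𝒪) 𝒪] in
/-- Evaluation commutes with translation of coordinates. -/
lemma evalSeries_translate {n : ℕ} (v : Fin n → F) (hv : ∀ i, v i ∈ maximalIdeal F) (c : 𝒪)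
    (q : Fin 6 → PS (Fin n) 𝒪) (k : Fin 6) :
    evalSeries v hv (translate (algebraMap 𝒪 _ h) (algebraMap 𝒪 _ c) q k) =
      translate (algebraMap 𝒪 F h) (algebraMap 𝒪 F c) (fun a => evalSeries v hv (q a)) k := by
  rw [show evalSeries v hv (translate _ _ q k) = (evalSeries v hv).toRingHom (translate _ _ q k)
    from rfl, map_translate]
  simp

omit [IsDomain 𝒪] [IsDiscreteValuationRing 𝒪] [IsAdicComplete (maximalIdeal 𝒪) 𝒪]
  [IsAdicComplete (maximalIdeal F) F] in
/-- One of two translations makes the first entry of a primitive vector a unit. -/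
lemma exists_translate_isUnit {e : Fin 2 → F} (he : IsUnit (e 0) ∨ IsUnit (e 1)) :
    ∃ c : 𝒪, IsUnit (e 0 + algebraMap 𝒪 F c * e 1) := by
  classical
  refine ⟨if IsUnit (e 0) then 0 else 1, ?_⟩
  by_cases h0 : IsUnit (e 0)
  · simp [h0]
  · have h1 := he.resolve_left h0
    simp only [if_neg h0, map_one, one_mul]
    by_contra hne
    rw [← mem_nonunits_iff, ← mem_maximalIdeal] at hne
    have h0' : e 0 ∈ maximalIdeal F := by rwa [mem_maximalIdeal, mem_nonunits_iff]
    exact (mem_maximalIdeal _).mp (by simpa using sub_mem hne h0') h1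

omit [IsAdicComplete (maximalIdeal F) F] in
/-- The translated chart passes through the chart. -/
lemma scalarSt_passes_translate (c : 𝒪) :
    (scalarSt 𝒪 h hh).Passes fun k => (scalarSt 𝒪 h hh).hom
      (translate (algebraMap 𝒪 _ h) (algebraMap 𝒪 _ (-c)) MvPowerSeries.X k) := by
  obtain ⟨v, hv⟩ := isUnit_iff_exists_inv'.mp (show IsUnit (1 + algebraMap 𝒪 (PS (Fin 3) 𝒪) (-c) *
      MvPowerSeries.X 0) from by simp [MvPowerSeries.isUnit_iff_constantCoeff])
  let l := scalarSt 𝒪 h hh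
  let y : Fin 6 → (PS (Fin 3) 𝒪) := translate (algebraMap 𝒪 (PS (Fin 3) 𝒪) h)
    (algebraMap 𝒪 (PS (Fin 3) 𝒪) (-c))
    (chart (algebraMap 𝒪 (PS (Fin 3) 𝒪) h) (MvPowerSeries.X 0) (MvPowerSeries.X 1)
      (MvPowerSeries.X 2))
  have hy : ∀ k, y k ∈ maximalIdeal (PS (Fin 3) 𝒪) := fun k =>
    translate_mem (algebraMap_series_mem h hh) (chart_mem (algebraMap_series_mem h hh)
      (X_mem_maximalIdeal_series _) (X_mem_maximalIdeal_series _)) k
  refine ⟨![MvPowerSeries.X 0 * v, y 1, y 4], fun k => ?_, fun k => ?_⟩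
  · fin_cases k
    · exact Ideal.mul_mem_right _ _ (X_mem_maximalIdeal_series _)
    · exact hy 1
    · exact hy 4
  · show evalSeries l.val l.val_mem (translate _ _ _ k) = _
    rw [evalSeries_translate]
    simp only [evalSeries_X]
    show y k = evalSeries (n := 3) ![MvPowerSeries.X 0 * v, y 1, y 4] _
      (chart (algebraMap 𝒪 (PS (Fin 3) 𝒪) h) (MvPowerSeries.X 0) (MvPowerSeries.X 1)
        (MvPowerSeries.X 2) k)
    rw [show ∀ (φ : (PS (Fin 3) 𝒪) →ₐ[𝒪] (PS (Fin 3) 𝒪)) z, φ z = φ.toRingHom z from fun _ _ => rfl,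
      map_chart]
    simp only [AlgHom.toRingHom_eq_coe, RingHom.coe_coe, AlgHom.commutes]
    erw [evalSeries_X, evalSeries_X, evalSeries_X]
    exact congrFun (onChart_translate (h := algebraMap 𝒪 (PS (Fin 3) 𝒪) h) (b := MvPowerSeries.X 1)
      (n := MvPowerSeries.X 2) hv) k

/-- A common line of Frobenius and monodromy: on the Steinberg component. -/
lemma scalarSt_reaches (hloc : ∀ c ∈ maximalIdeal 𝒪, algebraMap 𝒪 F c ∈ maximalIdeal F)
    {p : Fin 6 → F} (hp : ∀ c, p c ∈ maximalIdeal F) {e : Fin 2 → F}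
    (he : IsUnit (e 0) ∨ IsUnit (e 1)) (hline : OnLine (algebraMap 𝒪 F h) e p) :
    (scalarSt 𝒪 h hh).Reaches p := by
  classical
  obtain ⟨c, hu0⟩ := exists_translate_isUnit (𝒪 := 𝒪) he
  obtain ⟨u, hu⟩ := isUnit_iff_exists_inv'.mp hu0
  have hchart := (hline.translate (c := algebraMap 𝒪 F c)).onChart u (by simpa using hu)
  let τ : 𝒪 → Fin 6 → PS (Fin 6) 𝒪 := fun d =>
    translate (algebraMap 𝒪 _ h) (algebraMap 𝒪 _ d) MvPowerSeries.X
  have hτ : ∀ d k, τ d k ∈ maximalIdeal _ := fun d k =>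
    translate_mem (algebraMap_series_mem h hh) X_mem_maximalIdeal_series k
  refine ⟨τ c, τ (-c), hτ c, hτ (-c), hp, fun k => ?_, scalarSt_passes_translate c, ?_⟩
  · show evalSeries (τ c) (hτ c) (translate _ _ _ k) = _
    rw [evalSeries_translate]
    simp only [evalSeries_X]
    have := congrFun (translate_translate (algebraMap 𝒪 (PS (Fin 6) 𝒪) h)
      (-algebraMap 𝒪 (PS (Fin 6) 𝒪) c) MvPowerSeries.X) k
    rw [neg_neg, ← map_neg] at this
    exact this
  let P : Fin 6 → MvPolynomial (Fin 3) 𝒪 :=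
    chart (MvPolynomial.C h) (MvPolynomial.X 0) (MvPolynomial.X 1) (MvPolynomial.X 2)
  let w : Fin 3 → ℕ := ![0, 1, 1]
  let q : Fin 6 → F := translate (algebraMap 𝒪 F h) (algebraMap 𝒪 F c) p
  let a : Fin 3 → F := ![u * e 1, q 1, q 4]
  have hP : ∀ k, (P k : PS (Fin 3) 𝒪) =
      chart (algebraMap 𝒪 _ h) (MvPowerSeries.X 0) (MvPowerSeries.X 1) (MvPowerSeries.X 2) k :=
    fun k => by
      rw [← MvPolynomial.coeToMvPowerSeries.ringHom_apply, map_chart]
      simp [MvPowerSeries.c_eq_algebraMap]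
  have hlow : ∀ k, P k ∈ lowIdeal 𝒪 w := fun k =>
    chart_mem (C_mem_lowIdeal hh) (X_mem_lowIdeal rfl) (X_mem_lowIdeal rfl) k
  have hq : ∀ k, q k ∈ maximalIdeal F := fun k => translate_mem (hloc h hh) hp k
  have ha : ∀ k, a k ∈ maximalIdeal F ^ w k := fun k => by
    fin_cases k
    · simp [w]
    · show q 1 ∈ maximalIdeal F ^ 1
      rw [pow_one]; exact hq 1
    · show q 4 ∈ maximalIdeal F ^ 1
      rw [pow_one]; exact hq 4
  have hev : ∀ k, evalSeries p hp (τ c k) = MvPolynomial.aeval a (P k) := fun k => by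
    simp only [τ]
    rw [evalSeries_translate]
    simp only [evalSeries_X]
    rw [show MvPolynomial.aeval a (P k) = (MvPolynomial.aeval a).toRingHom (P k) from rfl,
      map_chart]
    simp only [AlgHom.toRingHom_eq_coe, RingHom.coe_coe, MvPolynomial.aeval_C, MvPolynomial.aeval_X]
    exact congrFun hchart k
  exact ⟨w, P, a, hP, hlow, ha, hev⟩

end Fermat.Agent.Raising
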