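import Fermat.Agent.Raising.Points

/-!
# Coordinates `(n₊, n₋, a)`

Unramified: `n₊ = n₋ = 0`; Steinberg of the sign of the curve: `n₋ = a = 0`; of the other sign:
`n₊ = 0`, `a = -c`.
-/

noncomputable section

namespace Fermat.Agent.Raising

open IsLocalRing Fermat.Agent.LevelLowering

local notation "PS" => MvPowerSeries

variable (𝒪 : Type) [CommRing 𝒪] [IsDomain 𝒪] [IsDiscreteValuationRing 𝒪]
  [IsAdicComplete (maximalIdeal 𝒪) 𝒪]

/-- The Steinberg line with the sign of the curve: `n₋ = a = 0`. -/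
def twoStPlus : LocalMap 𝒪 3 where
  f := 1
  val := ![MvPowerSeries.X 0, 0, 0]
  val_mem c := by fin_cases c <;> simp [MvPowerSeries.isUnit_iff_constantCoeff]

/-- The Steinberg line with the other sign: `n₊ = 0`, `a = -c`. -/
def twoStMinus (c : 𝒪) (hc : c ∈ maximalIdeal 𝒪) : LocalMap 𝒪 3 where
  f := 1
  val := ![0, MvPowerSeries.X 0, -algebraMap 𝒪 _ c]
  val_mem k := by
    fin_cases k
    · exact zero_mem _
    · exact X_mem_maximalIdeal_series _
    · exact neg_mem (algebraMap_series_mem c hc)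

/-- The unramified line: `n₊ = n₋ = 0`. -/
def twoStUr : LocalMap 𝒪 3 where
  f := 1
  val := ![0, 0, MvPowerSeries.X 0]
  val_mem c := by fin_cases c <;> simp [MvPowerSeries.isUnit_iff_constantCoeff]

/-- The common point of the unramified line and the sign of the curve. -/
def twoStPt : LocalMap 𝒪 3 where
  f := 0
  val := fun _ => 0
  val_mem _ := zero_mem _

/-- The block with two Steinberg components. -/
def twoStBlock (c : 𝒪) (hc : c ∈ maximalIdeal 𝒪) (hc0 : c ≠ 0) : Block 𝒪 3 where
  K := 3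
  comp := ![twoStUr 𝒪, twoStPlus 𝒪, twoStMinus 𝒪 c hc]
  w := 1
  f_le k := by fin_cases k <;> exact le_rfl
  hasParams k := by
    fin_cases k
    · refine LocalMap.hasParams_of_section (twoStUr 𝒪) (fun _ => 2) fun (k : Fin 1) => ?_
      rw [Subsingleton.elim k 0]
      rfl
    · refine LocalMap.hasParams_of_section (twoStPlus 𝒪) (fun _ => 0) fun (k : Fin 1) => ?_
      rw [Subsingleton.elim k 0]
      rfl
    · refine LocalMap.hasParams_of_section (twoStMinus 𝒪 c hc) (fun _ => 1) fun (k : Fin 1) => ?_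
      rw [Subsingleton.elim k 0]
      rfl
  ur := 0
  st := 1
  st_ne_ur := by decide
  pt := twoStPt 𝒪
  ur_le_pt := ⟨fun _ => 0, fun _ => zero_mem _, fun k => by
    fin_cases k
    · exact map_zero _
    · exact map_zero _
    · exact evalSeries_X (𝒪 := 𝒪) (n := 1) (fun _ => 0) _ 0⟩
  sep k hk := by
    have hst : (twoStPlus 𝒪).hom (MvPowerSeries.X 0) ≠ 0 := fun h =>
      X_series_ne_zero (0 : Fin 1) ((LocalMap.hom_X (twoStPlus 𝒪) 0).symm.trans h)
    fin_cases k
    · exact ⟨MvPowerSeries.X 0, (LocalMap.hom_X _ _).trans rfl, hst⟩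
    · exact absurd rfl hk
    · exact ⟨MvPowerSeries.X 0, (LocalMap.hom_X _ _).trans rfl, hst⟩
  sep_pt k hk hk' := by
    fin_cases k
    · exact absurd rfl hk'
    · exact absurd rfl hk
    · refine ⟨MvPowerSeries.X 2 + algebraMap 𝒪 _ c, ?_, ?_⟩
      · show (twoStMinus 𝒪 c hc).hom _ = 0
        rw [map_add, LocalMap.hom_X, AlgHom.commutes]
        exact neg_add_cancel _
      · rw [map_add, LocalMap.hom_X, AlgHom.commutes]
        intro h
        have h2 : algebraMap 𝒪 (PS (Fin 0) 𝒪) c = 0 := (zero_add _).symm.trans h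
        rw [← MvPowerSeries.c_eq_algebraMap] at h2
        exact hc0 (by simpa using congrArg MvPowerSeries.constantCoeff h2)

end Fermat.Agent.Raising
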