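import Fermat.Agent.LevelLowering.Semistable.Setting
import Fermat.Agent.Raising.AtResidualPrime.LastRings
import Fermat.Agent.Raising.AuxChoice
import Fermat.Agent.Raising.Builder
import Fermat.Agent.Raising.LocalData.Main
import Fermat.Agent.Raising.TWPrimes

/-!
# The raising theorem

Given the levels without auxiliary primes, and for every large choice of Taylor–Wiles primes the
levels raised at the first `0, …, m` primes, a lift `ρw` with the local behaviour of the top level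
is a point of the top level: its system of eigenvalues kills the relations of the operators there
(`exists_top_point`).  The condition at `p` is flat or strictly ordinary at every point.
-/

noncomputable section

namespace Fermat.Agent.Raising

open IsLocalRing Polynomial Module Matrix Fermat.Agent.LevelLowering Fermat.Agent.Gal
  Fermat.Agent.TW Fermat.Agent.PT Fermat.Agent.PT.Lv Fermat.Agent.LevelLowering.Semistable

local notation "Qbar" => AlgebraicClosure ℚ
local notation "GQ" => (AlgebraicClosure ℚ ≃ₐ[ℚ] AlgebraicClosure ℚ)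

variable {O : Type} [CommRing O] [IsDomain O] [IsDiscreteValuationRing O]
  [IsAdicComplete (maximalIdeal O) O] [Finite (ResidueField O)]
  {p : ℕ} [Fact p.Prime] {ρbar : ResidualGaloisRep (ResidueField O)}
  {bbar : Basis (Fin 2) (ResidueField O) ρbar.V} {m : ℕ}

/-- The primes where the top level of a raising step may ramify. -/
def allSet (P : Fin m → RaisedPrime p ρbar bbar) (Smin : Finset ℕ) : Finset ℕ :=
  insert p (Smin ∪ Finset.univ.image fun i => (P i).q)

omit [IsAdicComplete (maximalIdeal O) O] [Finite (ResidueField O)] [Fact (Nat.Prime p)] in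
/-- Membership in the set of all ramified primes. -/
theorem mem_allSet {P : Fin m → RaisedPrime p ρbar bbar} {Smin : Finset ℕ} {l : ℕ} :
    l ∈ allSet P Smin ↔ l = p ∨ l ∈ Smin ∨ ∃ i, (P i).q = l := by
  simp [allSet]

omit [IsAdicComplete (maximalIdeal O) O] [Finite (ResidueField O)] [Fact (Nat.Prime p)] in
/-- The ramified sets of the levels lie in the full one. -/
theorem ramSet_subset_allSet (P : Fin m → RaisedPrime p ρbar bbar) (Smin : Finset ℕ) (j : ℕ) :
    insert p (ramSet P Smin j) ⊆ allSet P Smin := fun l hl => by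
  rcases Finset.mem_insert.mp hl with h | h
  · exact mem_allSet.mpr (Or.inl h)
  rcases Finset.mem_union.mp h with h | h
  · exact mem_allSet.mpr (Or.inr (Or.inl h))
  · obtain ⟨i, -, hi⟩ := Finset.mem_image.mp h
    exact mem_allSet.mpr (Or.inr (Or.inr ⟨i, hi⟩))

variable [CharZero O] [CharP (ResidueField O) p]

omit [Finite (ResidueField O)] [CharP (ResidueField O) p] in
/-- At a raised prime where the lift is unipotent with trace `ε (q + 1)` its coordinates reach the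
Steinberg component. -/
theorem BaseRing.w_reaches_st {S₀ : Finset ℕ} {c₀ : ℕ → O} {d : ℕ → ℕ}
    {Tm : ∀ j, ℕ → Matrix (Fin (d j)) (Fin (d j)) O} {L₀ : ∀ j : ℕ, OpLevel O S₀ c₀ O (d j)}
    {cw : ℕ → O} {ρw : GaloisRepAdic O} (Z : BaseRing p ρbar bbar m Tm L₀ cw ρw)
    {P : Fin m → RaisedPrime p ρbar bbar} (Kd : ∀ i, LocalKind (P i)) {h : ℕ}
    (e₀ : Fin h → Z.R.T) (hpO : (p : O) ∈ maximalIdeal O) (i : Fin m)
    (huniw : ρw.IsUnipotentOnInertiaAt (P i).q)
    (htrw : LinearMap.trace O ρw.V (ρw.ρ (P i).φ) = (P i).ε * (((P i).q : O) + 1)) :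
    ((Kd i).B.comp (Kd i).B.st).Reaches fun c => Z.w ((Z.raiseBase Kd e₀).coord i c) := by
  have := Z.R.pt_local none
  have hmem : ∀ x ∈ maximalIdeal Z.R.T, Z.R.pt none x ∈ maximalIdeal (PtF L₀ none) := fun x hx =>
    map_nonunit (Z.R.pt none).toRingHom x hx
  obtain ⟨hL, huni, -⟩ := lift_at_point (bbar := bbar) Z.adapted Z.R.det (P i) (Z.R.pt none)
    (Z.R.pt_equiv none) hpO
  obtain ⟨hN0, hN1⟩ := huni huniw
  have htr : ((matrixRep Z.b Z.R.ρ.ρ (P i).φ).map (Z.R.pt none)).trace =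
      algebraMap O (PtF L₀ none) (P i).ε * (((P i).q : PtF L₀ none) + 1) := by
    refine ((?_ : _ = LinearMap.trace O ρw.V (ρw.ρ (P i).φ))).trans htrw
    refine Eq.trans ?_ (trace_point (b := Z.b) (Z.R.pt none) (Z.R.pt_equiv none) (P i).φ).symm
    rw [← trace_matrixRep Z.b]
    exact (AddMonoidHom.map_trace (Z.R.pt none).toRingHom.toAddMonoidHom _).symm
  have hr := ((Kd i).reach (PtF L₀ none) hL hN0 hN1).2.2.1 htr
  rw [show (fun c => Z.w ((Z.raiseBase Kd e₀).coord i c)) =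
    (Kd i).coord (PtF L₀ none) ((matrixRep Z.b Z.R.ρ.ρ (P i).φ).map (Z.R.pt none))
      ((matrixRep Z.b Z.R.ρ.ρ (P i).σ - 1).map (Z.R.pt none)) from
    funext fun c => (Kd i).coord_map Z.R.T _ (Z.R.pt none) hmem
      (isLift_of_adapted Z.adapted Z.R.det (P i)) c]
  exact hr

omit [IsAdicComplete (maximalIdeal O) O] [Finite (ResidueField O)] [CharP (ResidueField O) p] in
/-- At a prime outside `p`, the raised and the auxiliary primes the joint representation of a step
is unramified, or unipotent where the residual one ramifies. -/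
theorem unramified_or_unipotent_joint {K : Type} [Field K] [Algebra O K]
    {P : Fin m → RaisedPrime p ρbar bbar} {Smin : Finset ℕ} {c₀ : ℕ → O} {S₀ : Finset ℕ}
    {d : ℕ → ℕ} {Tm : ∀ j, ℕ → Matrix (Fin (d j)) (Fin (d j)) O} {D : ℕ} {qv lv : Fin D → ℕ}
    (I : RaiseInputs K P Smin c₀ d Tm S₀ qv lv) {cw : ℕ → O} {ρw : GaloisRepAdic O}
    (R : PointsRing I.L p (ρbar := ρbar) cw ρw m)
    (hSmin : ∀ l ∈ Smin, l.Prime → l ≠ p → ¬ ρbar.IsUnramifiedAt l ∨ IsAuxPrime ρbar p l)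
    (hwunr : ∀ l : ℕ, l.Prime → l ∉ allSet P Smin → ρw.IsUnramifiedAt l)
    (hwmin : ∀ l ∈ Smin, l.Prime → l ≠ p → ρw.IsUnipotentOnInertiaAt l) (q : ℕ) (hq : q.Prime)
    (hqn : q ∉ insert p (natSet (raisedSet P) ∪ Finset.univ.image qv)) :
    R.ρ.IsUnramifiedAt q ∨ (R.ρ.IsUnipotentOnInertiaAt q ∧ ¬ ρbar.IsUnramifiedAt q) := by
  simp only [Finset.mem_insert, Finset.mem_union, Finset.mem_image, Finset.mem_univ, true_and,
    not_or, not_exists] at hqn
  obtain ⟨hqp, hqP, hqqv⟩ := hqn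
  have hqP' : ∀ i, (P i).q ≠ q := fun i he => hqP (Finset.mem_map.mpr
    ⟨(⟨(P i).q, (P i).prime⟩ : Nat.Primes), Finset.mem_image.mpr ⟨i, Finset.mem_univ _, rfl⟩,
      he⟩)
  by_cases hqS : q ∈ Smin
  · have huni : ∀ a : PtIdx m I.L, (ptRep I.L ρw a).IsUnipotentOnInertiaAt q :=
        fun a => by
      cases a with
      | none => exact hwmin q hqS hq hqp
      | some a =>
        exact I.unipotent a.1 a.2 q (Finset.mem_union_left _ hqS) hq hqp
    rcases hSmin q hqS hq hqp with hram | haux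
    · exact Or.inr ⟨Scalar.isUnipotentOnInertiaAt_of_points (hψ := R.pt_local) R.pt_injective
        fun a => Scalar.isUnipotentOnInertiaAt_congr (R.pt_equiv a) (huni a), hram⟩
    · exact Or.inl (haux.isUnramifiedAt_joint R huni)
  · refine Or.inl (Scalar.isUnramifiedAt_of_points (hψ := R.pt_local) R.pt_injective fun a =>
      Scalar.isUnramifiedAt_congr (R.pt_equiv a) ?_)
    cases a with
    | none =>
      refine hwunr q hq fun h => ?_
      rcases mem_allSet.mp h with h | h | ⟨i, hi⟩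
      · exact hqp h
      · exact hqS h
      · exact hqP' i hi
    | some a =>
      refine I.unramified a.1 a.2 q hq fun h => ?_
      simp only [ramSet, Finset.mem_insert, Finset.mem_union, Finset.mem_image,
        Finset.mem_filter, Finset.mem_univ, true_and] at h
      rcases h with h | ⟨h | ⟨i, -, hi⟩⟩ | ⟨k, hk⟩
      · exact hqp h
      · exact hqS h
      · exact hqP' i hi
      · exact hqqv k hk

omit [IsAdicComplete (maximalIdeal O) O] [CharZero O] [CharP (ResidueField O) p] in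
/-- The joint representation satisfies the condition at `p` of all its points. -/
theorem atPCond_joint (hp2 : p ≠ 2) {S : Finset ℕ} {c₀ : ℕ → O} {B : Type} [CommRing B]
    [Algebra O B] {d : ℕ → ℕ} {L : ∀ j : ℕ, OpLevel O S c₀ B (d j)} {cw : ℕ → O}
    {ρw : GaloisRepAdic O} (R : PointsRing L p (ρbar := ρbar) cw ρw m) {M : ℕ}
    (h : ∀ a : PtIdx m L, AtPCond p M (ptRep L ρw a)) : AtPCond p M R.ρ := by
  have : Finite (ResidueField R.T) := R.finite_residueField
  by_cases hpM : p ∣ M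
  · exact Or.inr ⟨hpM, isStrictOrdinaryAt_of_finite_points
      (ψ := fun a : PtIdx m L => (R.pt a).toRingHom) R.pt_injective R.pt_equiv hp2 R.det
      fun a => ((h a).resolve_left fun h' => h'.1 hpM).2⟩
  · exact Or.inl ⟨hpM, R.isFlatAt fun a => ((h a).resolve_right fun h' => hpM h'.1).2⟩

/-- **Raising to the top level.**  The lift `ρw` is a point of the operators of the top level. -/
theorem exists_top_point {K : Type} [Field K] [IsAlgClosed K] [CharZero K] [Algebra O K]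
    (hK : Function.Injective (algebraMap O K)) (hp2 : p ≠ 2)
    {c₀ : ℕ → O} {S₀ : Finset ℕ} (hb : LowerBase p ρbar c₀ S₀)
    (hdetc : DetCyc p (rbar bbar))
    (hsplit : ∀ σ : GQ, ∃ α β : ResidueField O, LinearMap.charpoly (ρbar.ρ σ) =
      (Polynomial.X - Polynomial.C α) * (Polynomial.X - Polynomial.C β))
    (hTW : ∀ (k : Type) [Field k] [Algebra (ResidueField O) k] (G : Subgroup GQ), G.index = 2 →
      ∀ V : Submodule k (ρbar.baseChange k).V,
        (∀ σ ∈ G, ∀ x ∈ V, (ρbar.baseChange k).ρ σ x ∈ V) → V = ⊥ ∨ V = ⊤)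
    (P : Fin m → RaisedPrime p ρbar bbar) (hP : Function.Injective fun i => (P i).q)
    (Smin : Finset ℕ) (hPS : ∀ i, (P i).q ∉ Smin)
    (hSmin : ∀ l ∈ Smin, l.Prime → l ≠ p → ¬ ρbar.IsUnramifiedAt l ∨ IsAuxPrime ρbar p l)
    (hρbar : ∀ l : ℕ, l.Prime → l ∉ allSet P Smin → ρbar.IsUnramifiedAt l)
    {d : ℕ → ℕ} (hd : 0 < d 0) (Tm : ∀ j, ℕ → Matrix (Fin (d j)) (Fin (d j)) O)
    (L₀ : ∀ j : ℕ, OpLevel O S₀ c₀ O (d j))
    (hTm : ∀ j, ∀ ℓ : ℕ, ℓ.Prime → ℓ ∉ S₀ → (L₀ j).Φ ((L₀ j).x ℓ) = Tm j ℓ)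
    (h0 : ∀ j ≤ m, ∀ (a : (L₀ j).κ) (l : ℕ), l.Prime → l ∉ allSet P Smin →
      ((L₀ j).ρ a).IsUnramifiedAt l)
    (cw : ℕ → O) (ρw : GaloisRepAdic O)
    (hcw : ∀ ℓ : ℕ, ℓ.Prime → ℓ ∉ S₀ → cw ℓ - c₀ ℓ ∈ maximalIdeal O)
    (hw : ∀ ℓ : ℕ, ℓ.Prime → ℓ ∉ S₀ → ∀ A : ValuationSubring Qbar, A.LiesOverPrime ℓ →
      ∀ σ : GQ, A.IsFrobeniusAt σ ℓ →
        LinearMap.charpoly (ρw.ρ σ) = X ^ 2 - C (cw ℓ) * X + C (ℓ : O))
    (hwunr : ∀ l : ℕ, l.Prime → l ∉ allSet P Smin → ρw.IsUnramifiedAt l)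
    (hwmin : ∀ l ∈ Smin, l.Prime → l ≠ p → ρw.IsUnipotentOnInertiaAt l)
    (hwP : ∀ i, ρw.IsUnipotentOnInertiaAt (P i).q ∧
      LinearMap.trace O ρw.V (ρw.ρ (P i).φ) = (P i).ε * (((P i).q : O) + 1))
    (M : ℕ) (hwp : AtPCond p M ρw)
    (L : Submodule (ResidueField O) ((decQ ((pP p : Nat.Primes) : ℕ) → sl2 (ResidueField O)) ⧸
      B1 (resRep (adRep (rbar bbar)) (decQ ((pP p : Nat.Primes) : ℕ)))))
    (hLfin : FiniteDimensional (ResidueField O) L)
    (hLle : finrank (ResidueField O) L ≤ finrank (ResidueField O) (Representation.invariants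
      (resRep (adRep (rbar bbar)) (decQ ((pP p : Nat.Primes) : ℕ)))) + 1)
    (hLcond : ∀ {T : Type} [CommRing T] [IsLocalRing T] [IsNoetherianRing T] [Algebra O T]
      [IsLocalHom (algebraMap O T)]
      {hres : Function.Surjective (residue T ∘ algebraMap O T)} {ρ : GaloisRepAdic T}
      {b : Basis (Fin 2) T ρ.V} (hb : Adapted bbar hres ρ b)
      (hdet : ρ.DetIsCyclotomic p), AtPCond p M ρ → ∀ δ : tangent hres,
        tanCocycle hb hdet δ ∈ condAt (adRep (rbar bbar)) L)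
    (supply : ∀ (D n : ℕ) (qv : Fin D → ℕ), Function.Injective qv →
      (∀ i, (qv i).Prime ∧ qv i ∉ S₀ ∪ allSet P Smin ∧ p ^ (n + 1) ∣ qv i - 1) →
      (∀ i, ∀ A : ValuationSubring Qbar, A.LiesOverPrime (qv i) → ∀ φ : GQ,
        A.IsFrobeniusAt φ (qv i) → ∃ α β : ResidueField O, α ≠ β ∧
          LinearMap.charpoly (ρbar.ρ φ) =
            (Polynomial.X - Polynomial.C α) * (Polynomial.X - Polynomial.C β)) →
      ∃ lv : Fin D → ℕ, (∀ i, n < lv i ∧ p ^ lv i ∣ qv i - 1 ∧ ¬ p ^ (lv i + 1) ∣ qv i - 1) ∧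
        ∃ I : RaiseInputs K P Smin c₀ d Tm S₀ qv lv,
          ∀ j ≤ m, ∀ a : (I.L j).κ, AtPCond p M ((I.L j).ρ a)) :
    ∃ (R₀ : Type) (_ : CommRing R₀) (_ : Algebra O R₀)
      (A : R₀ →+* Matrix (Fin (d m)) (Fin (d m)) O) (x : ℕ → R₀) (w : R₀ →ₐ[O] O),
      (∀ c, A (algebraMap O R₀ c) = Matrix.scalar (Fin (d m)) c) ∧
      (∀ ℓ : ℕ, ℓ.Prime → ℓ ∉ S₀ → A (x ℓ) = Tm m ℓ ∧ w (x ℓ) = cw ℓ) ∧
      ∀ z, A z = 0 → w z = 0 := by
  classical
  have hp : p.Prime := Fact.out
  let Kd : ∀ i, LocalKind (P i) := fun i => (exists_localKind (P i) hp2).some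
  obtain ⟨Z⟩ := exists_baseRing (p := p) ρbar bbar (m := m) cw ρw hb.two hb.p_mem hb.absIrr hb.odd
    hb.frob hTm hcw hw
  obtain ⟨g, D, hgD, hqv⟩ := exists_raiseTWPrimes hp2 hb.absIrr hdetc hsplit hTW P hP Kd L hLfin 0
    hLle (S₀ ∪ allSet P Smin)
  choose qv hinj hqq hroots hfin hle using hqv
  choose lv hlv I hIp using fun n => supply D n (qv n) (hinj n) (hqq n) fun i A hA φ hφ =>
    (hroots n i A hA φ hφ).1
  have hnot : ∀ n i, qv n i ∉ allSet P Smin := fun n i h =>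
    (hqq n i).2.1 (Finset.mem_union_right _ h)
  have hlev : ∀ n, ∃ Y : RaiseLevel (Z.raiseBase Kd (h := 0) Fin.elim0) g D,
      Y.J = diamondIdeal (𝒪 := O) p (lv n) := by
    intro n
    refine exists_raiseLevel Z Kd (I n) hK hb.two hb.p_mem hb.absIrr hb.odd hb.frob hTm hcw hw hP
      hPS (fun i k he => hnot n k (mem_allSet.mpr (Or.inr (Or.inr ⟨i, he⟩))))
      (fun k => ⟨(hqq n k).1, fun he => hnot n k (mem_allSet.mpr (Or.inl he))⟩)
      (fun k => ⟨Nat.one_le_of_lt (hlv n k).1, (hlv n k).2.1, (hlv n k).2.2⟩)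
      (fun k A hA => ⟨fun τ hτ => ?_, fun φ hφ => ?_⟩)
      (fun k => hwunr _ (hqq n k).1 (hnot n k))
      (fun j a k => h0 j (Nat.le_of_lt_succ j.2) a _ (hqq n k).1 (hnot n k))
      Fin.elim0 fun R b hadb π _ _ => ⟨Fin.elim0, fun j => j.elim0, fun j => j.elim0, ?_⟩
    · show LinearMap.toMatrixAlgEquiv bbar (ρbar.ρ τ) = 1
      rw [hρbar _ (hqq n k).1 (hnot n k) A hA τ hτ, map_one]
    · obtain ⟨α, β, hαβ, hc⟩ := (hroots n k A hA φ hφ).1
      exact ⟨α, β, hαβ, by
        rw [show (rbar bbar φ).charpoly = LinearMap.charpoly (ρbar.ρ φ) from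
          LinearMap.charpoly_toMatrix _ bbar, hc]⟩
    -- the generators of the level
    refine exists_raiseGens hadb R.det hp2 P Kd (condAt (adRep (rbar bbar)) L) Fin.elim0
      (fun j => j.elim0) (fun i => (Kd i).coord_mem R.T (isLift_of_adapted hadb R.det (P i)))
      (qv n) (fun q hq hqn => ?_) (fun δ _ => hLcond hadb R.det ?_ δ)
      (S := Set.range fun σ : GQ => LinearMap.trace R.T R.ρ.V (R.ρ.ρ σ)) ?_ R.adjoin_traces
      (hfin n) (hle n)
    · exact unramified_or_unipotent_joint (I n) R hSmin hwunr hwmin q hq hqn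
    · refine atPCond_joint hp2 R fun a => ?_
      cases a with
      | none => exact hwp
      | some a => exact hIp n a.1 (Nat.le_of_lt_succ a.1.2) a.2
    · rintro _ ⟨σ, rfl⟩
      exact ⟨σ, (trace_matrixRep b R.ρ.ρ σ).symm⟩
  choose Y hY using hlev
  let Sys : RaiseSys (Z.raiseBase Kd (h := 0) Fin.elim0) g D :=
    { L := Y
      trunc_le := fun k => by
        filter_upwards [diamondIdeal_trunc (𝒪 := O) hp hb.p_mem D k] with n hn
        rw [hY]
        exact hn (lv n) fun i => (hlv n i).1.le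
      d_pos := hd
      params := hgD }
  refine ⟨Z.R.T, inferInstance, inferInstance, (Z.A (Fin.last m)).toRingHom, Z.R.τ, Z.w,
    fun c => (Z.A (Fin.last m)).commutes c |>.trans (Matrix.algebraMap_eq_diagonal c),
    fun ℓ hℓ hℓS => ⟨Z.A_τ _ ℓ hℓ hℓS, Z.R.pt_τ ℓ hℓ hℓS none⟩, fun z hz => ?_⟩
  have := Z.R.pt_local none
  refine Sys.ker_le_point Z.w (fun x hx => map_nonunit (Z.R.pt none).toRingHom x hx)
    (fun i => Z.w_reaches_st Kd Fin.elim0 hb.p_mem i (hwP i).1 (hwP i).2) ?_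
  · show (Z.raiseBase Kd (h := 0) Fin.elim0).A m z = 0
    rw [show (Z.raiseBase Kd (h := 0) Fin.elim0).A m = (Z.A (Fin.last m)).toRingHom from
      dif_pos (Nat.lt_succ_self m)]
    exact hz

end Fermat.Agent.Raising

end
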