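import Fermat.Agent.Raising.Blocks

/-!
# Points on components

`LocalMap.Passes`: a tuple with values in a complete local ring is the image of a point under a
local map.  A pair with a vanishing coordinate passes through one of the two lines of the block at
an ordinary prime.
-/

noncomputable section

namespace Fermat.Agent.Raising

open IsLocalRing Fermat.Agent.LevelLowering

local notation "PS" => MvPowerSeries

variable {𝒪 : Type} [CommRing 𝒪] [IsDomain 𝒪] [IsDiscreteValuationRing 𝒪]
  [IsAdicComplete (maximalIdeal 𝒪) 𝒪]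

/-- The tuple `p` is in the image of the local map. -/
def LocalMap.Passes {e : ℕ} (l : LocalMap 𝒪 e) {F : Type} [CommRing F] [IsLocalRing F]
    [Algebra 𝒪 F] [IsAdicComplete (maximalIdeal F) F] (p : Fin e → F) : Prop :=
  ∃ (u : Fin l.f → F) (hu : ∀ k, u k ∈ maximalIdeal F), ∀ c, p c = evalSeries u hu (l.val c)

omit [IsAdicComplete (maximalIdeal 𝒪) 𝒪] in
/-- The second coordinate vanishes: the line with free monodromy. -/
lemma ordSt_passes {F : Type} [CommRing F] [IsLocalRing F] [Algebra 𝒪 F]
    [IsAdicComplete (maximalIdeal F) F] {p : Fin 2 → F} (hp : ∀ c, p c ∈ maximalIdeal F)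
    (h : p 1 = 0) : (ordSt 𝒪).Passes p := by
  refine ⟨fun _ => p 0, fun _ => hp 0, fun c => ?_⟩
  fin_cases c
  · exact (evalSeries_X (𝒪 := 𝒪) (n := 1) (fun _ => p 0) _ 0).symm
  · exact h.trans (map_zero _).symm

omit [IsAdicComplete (maximalIdeal 𝒪) 𝒪] in
/-- The first coordinate vanishes: the unramified line. -/
lemma ordUr_passes {F : Type} [CommRing F] [IsLocalRing F] [Algebra 𝒪 F]
    [IsAdicComplete (maximalIdeal F) F] {p : Fin 2 → F} (hp : ∀ c, p c ∈ maximalIdeal F)
    (h : p 0 = 0) : (ordUr 𝒪).Passes p := by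
  refine ⟨fun _ => p 1, fun _ => hp 1, fun c => ?_⟩
  fin_cases c
  · exact h.trans (map_zero _).symm
  · exact (evalSeries_X (𝒪 := 𝒪) (n := 1) (fun _ => p 1) _ 0).symm

end Fermat.Agent.Raising
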